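import Fermat.Agent.Multiplicative.Frame
import Fermat.Prelude.Def_EllipticCurve_FrobeniusTrace

/-!
# The Galois action on torsion at a prime of multiplicative reduction

For `W` over `ℤ` with multiplicative reduction at `q` (`MultAt W A q`, i.e. `q ∣ Δ`, `q ∤ c₄`, for
a place `A` of `AlgebraicClosure ℚ` over `q`):

* `smul_sub_inZeroComponentAt` : inertia acts trivially on the component group;
* `smul_sub_inKernelAt` : inertia fixes the reduction of points with nonsingular reduction;
* `smul_eq_of_inZeroComponentAt` : inertia fixes `n`-torsion with nonsingular reduction (`q ∤ n`);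
* `smul_smul_sub`, `galoisRepModuleEnd_sub_one_sq` : inertia is unipotent on `E[n]` (`q ∤ n`);
* `smul_eq_of_dvd_padicValInt`, `galoisRepUnramifiedAt_of_dvd` : it is trivial if `n ∣ v_q(Δ)`;
* `exists_sign` : a decomposition element acts by a sign on the component group, and if it is a
  Frobenius it acts by that sign times `q` on `n`-torsion with nonsingular reduction.
-/

set_option autoImplicit false

noncomputable section

open scoped WeierstrassCurve.Affine

namespace Fermat.Agent.Multiplicative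

open WeierstrassCurve WeierstrassCurve.Affine

local notation "Qb" => AlgebraicClosure ℚ

variable {W : WeierstrassCurve ℤ} {A : ValuationSubring (AlgebraicClosure ℚ)} {q : ℕ}
  {σ : AlgebraicClosure ℚ ≃ₐ[ℚ] AlgebraicClosure ℚ}

/-- The endomorphism of the point group given by a Galois element. -/
def smulHom (W : WeierstrassCurve ℤ) (σ : Qb ≃ₐ[ℚ] Qb) :
    (curveQbar W).Point →+ (curveQbar W).Point :=
  Point.map σ.toAlgHom

/-- `smulHom W σ` is the Galois action of `σ`. -/
theorem smulHom_apply (W : WeierstrassCurve ℤ) (σ : Qb ≃ₐ[ℚ] Qb) (P : (curveQbar W).Point) :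
    smulHom W σ P = σ • P := rfl

/-- The Galois action commutes with multiples. -/
theorem smul_nsmul_point (σ : Qb ≃ₐ[ℚ] Qb) (n : ℕ) (P : (curveQbar W).Point) :
    σ • (n • P) = n • (σ • P) :=
  map_nsmul (smulHom W σ) n P

/-- Galois elements fix the origin. -/
theorem smul_zero_point (σ : Qb ≃ₐ[ℚ] Qb) : σ • (0 : (curveQbar W).Point) = 0 :=
  map_zero (smulHom W σ)

/-- An element of the `n`-torsion submodule is killed by `n` as a point. -/
theorem nsmul_coe_torsion {n : ℕ}
    (P : Submodule.torsionBy ℤ (curveQbar W).Point n) : n • (P : (curveQbar W).Point) = 0 := by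
  have h := (Submodule.mem_torsionBy_iff _ _).mp P.2
  rwa [natCast_zsmul] at h

/-- The points with nonsingular reduction form a subgroup. -/
def zeroComponent (h : MultAt W A q) : AddSubgroup (curveQbar W).Point where
  carrier := {P | W.InZeroComponentAt A P}
  zero_mem' := .inl rfl
  add_mem' {P Q} hP hQ := by
    simp only [Set.mem_ofPred_eq, ← h.frame.inG0_Φ_iff] at hP hQ ⊢
    rw [map_add]; exact h.frame.nodal.inG0_add hP hQ
  neg_mem' {P} hP := by
    simp only [Set.mem_ofPred_eq, ← h.frame.inG0_Φ_iff] at hP ⊢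
    rw [map_neg]; exact h.frame.nodal.inG0_neg hP

@[simp] theorem mem_zeroComponent (h : MultAt W A q) {P : (curveQbar W).Point} :
    P ∈ zeroComponent h ↔ W.InZeroComponentAt A P := Iff.rfl

/-- The points reducing to infinity form a subgroup. -/
def kernelReduction (h : MultAt W A q) : AddSubgroup (curveQbar W).Point where
  carrier := {P | InKernelAt W A P}
  zero_mem' := .inl rfl
  add_mem' {P Q} hP hQ := by
    simp only [Set.mem_ofPred_eq, ← h.frame.inG1_Φ_iff] at hP hQ ⊢
    rw [map_add]; exact h.frame.nodal.inG1_add hP hQ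
  neg_mem' {P} hP := by
    simp only [Set.mem_ofPred_eq, ← h.frame.inG1_Φ_iff] at hP ⊢
    rw [map_neg]; exact h.frame.nodal.inG1_neg hP

@[simp] theorem mem_kernelReduction (h : MultAt W A q) {P : (curveQbar W).Point} :
    P ∈ kernelReduction h ↔ InKernelAt W A P := Iff.rfl

/-- **Inertia acts trivially on the component group.** -/
theorem smul_sub_inZeroComponentAt (h : MultAt W A q) (hσ : σ ∈ A.inertiaSubgroupIn ℚ)
    (P : (curveQbar W).Point) : W.InZeroComponentAt A (σ • P - P) := by
  obtain ⟨hr, ht, -, hs, ha⟩ := h.frame.inertia_fixes hσ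
  have hiso := LocalInertia.valuation_apply
    (LocalInertia.inertiaSubgroupIn_le_decompositionSubgroup hσ)
  rw [← h.frame.inG0_Φ_iff, map_sub]
  exact h.frame.nodal.conj_sub_inG0 hiso ha (h.frame.conj_smul hr ht hs P)

/-- **Inertia fixes the reduction of points with nonsingular reduction.** -/
theorem smul_sub_inKernelAt (h : MultAt W A q) (hσ : σ ∈ A.inertiaSubgroupIn ℚ)
    {P : (curveQbar W).Point} (hP : W.InZeroComponentAt A P) :
    InKernelAt W A (σ • P - P) := by
  obtain ⟨hr, ht, -, hs, ha⟩ := h.frame.inertia_fixes hσ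
  obtain ⟨hd, hres⟩ := LocalInertia.mem_inertiaSubgroupIn_iff.mp hσ
  rw [← h.frame.inG1_Φ_iff, map_sub]
  exact h.frame.nodal.conj_sub_inG1 (LocalInertia.valuation_apply hd)
    (fun x hx => hres x ((A.valuation_le_one_iff x).mp hx)) ha (h.frame.conj_smul hr ht hs P)
    ((h.frame.inG0_Φ_iff P).mpr hP)

/-- The kernel of reduction has no torsion prime to `q`. -/
theorem eq_zero_of_inKernelAt (h : MultAt W A q) {n : ℕ} (hn : ¬ q ∣ n)
    {P : (curveQbar W).Point} (hP : InKernelAt W A P) (h0 : n • P = 0) : P = 0 := by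
  apply h.frame.Φ.injective
  rw [map_zero]
  exact h.frame.nodal.eq_zero_of_inG1_of_nsmul ((h.frame.inG1_Φ_iff P).mpr hP)
    (val_natCast h.liesOver h.prime hn) (by rw [← map_nsmul, h0, map_zero])

/-- **Inertia fixes the `n`-torsion with nonsingular reduction** (`q ∤ n`). -/
theorem smul_eq_of_inZeroComponentAt (h : MultAt W A q) (hσ : σ ∈ A.inertiaSubgroupIn ℚ)
    {n : ℕ} (hn : ¬ q ∣ n) {P : (curveQbar W).Point} (hP : W.InZeroComponentAt A P)
    (h0 : n • P = 0) : σ • P = P :=
  sub_eq_zero.mp (eq_zero_of_inKernelAt h hn (smul_sub_inKernelAt h hσ hP) (by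
    rw [nsmul_sub, ← smul_nsmul_point, h0, smul_zero_point, sub_zero]))

/-- **Inertia is unipotent on `n`-torsion** (`q ∤ n`): `σ` fixes `σ P - P`. -/
theorem smul_smul_sub (h : MultAt W A q) (hσ : σ ∈ A.inertiaSubgroupIn ℚ) {n : ℕ} (hn : ¬ q ∣ n)
    {P : (curveQbar W).Point} (h0 : n • P = 0) : σ • (σ • P - P) = σ • P - P :=
  smul_eq_of_inZeroComponentAt h hσ hn (smul_sub_inZeroComponentAt h hσ P) (by
    rw [nsmul_sub, ← smul_nsmul_point, h0, smul_zero_point, sub_zero])

/-- **Inertia is unipotent on `E[n]`** (`q ∤ n`): `(σ - 1)² = 0`. -/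
theorem galoisRepModuleEnd_sub_one_sq (h : MultAt W A q) (hσ : σ ∈ A.inertiaSubgroupIn ℚ)
    {n : ℕ} (hn : ¬ q ∣ n) :
    (Point.galoisRepModuleEnd (K := AlgebraicClosure ℚ) ℚ (W.map (Int.castRingHom ℚ)) n σ - 1) *
      (Point.galoisRepModuleEnd (K := AlgebraicClosure ℚ) ℚ (W.map (Int.castRingHom ℚ)) n σ - 1)
      = 0 := by
  refine LinearMap.ext fun P => Subtype.ext ?_
  have hP : n • (P : (curveQbar W).Point) = 0 := nsmul_coe_torsion P
  show σ • (σ • (P : (curveQbar W).Point) - P) - (σ • (P : (curveQbar W).Point) - P) = 0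
  rw [smul_smul_sub h hσ hn hP, sub_self]

/-- **Inertia is trivial on `E[n]` if `n` divides `v_q(Δ)`** (`q ∤ n`). -/
theorem smul_eq_of_dvd_padicValInt (h : MultAt W A q) (hσ : σ ∈ A.inertiaSubgroupIn ℚ) {n : ℕ}
    (hn : ¬ q ∣ n) (hdvd : n ∣ padicValInt q W.Δ) {P : (curveQbar W).Point} (h0 : n • P = 0) :
    σ • P = P := by
  obtain ⟨hr, ht, hb, hs, ha⟩ := h.frame.inertia_fixes hσ
  obtain ⟨hd, hres⟩ := LocalInertia.mem_inertiaSubgroupIn_iff.mp hσ
  let f : NPoint h.frame.a h.frame.b →+ NPoint h.frame.a h.frame.b :=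
    h.frame.Φ.toAddMonoidHom.comp ((smulHom W σ).comp h.frame.Φ.symm.toAddMonoidHom)
  have hf : ∀ Q, Conj σ.toAlgHom.toRingHom Q (f Q) := fun Q => by
    have := h.frame.conj_smul hr ht hs (h.frame.Φ.symm Q)
    rwa [AddEquiv.apply_symm_apply] at this
  obtain ⟨m, hm⟩ := hdvd
  have hzb : A.valuation ((q : Qb) ^ m) ^ n = A.valuation h.frame.b := by
    rw [h.frame.val_b, val_intCast_eq_pow h.liesOver h.prime h.Δ_ne_zero, map_pow, ← pow_mul, hm,
      mul_comm]
  have key := h.frame.nodal.conj_fix_torsion (σ := σ.toAlgHom.toRingHom)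
    (LocalInertia.valuation_apply hd) (fun x hx => hres x ((A.valuation_le_one_iff x).mp hx))
    ha hb f hf (val_natCast h.liesOver h.prime hn) (z := (q : Qb) ^ m) (by simp) hzb
    (h.frame.val_commensurable h) (P := h.frame.Φ P) (by rw [← map_nsmul, h0, map_zero])
  simp only [f, AddMonoidHom.coe_comp, Function.comp_apply, AddEquiv.coe_toAddMonoidHom,
    AddEquiv.symm_apply_apply, smulHom_apply] at key
  exact h.frame.Φ.injective key

/-- **`E[n]` is unramified at a prime of multiplicative reduction with `n ∣ v_q(Δ)`**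
(`q ∤ n`). -/
theorem galoisRepUnramifiedAt_of_dvd (hq : q.Prime) (hΔ : W.Δ ≠ 0) (hqΔ : (q : ℤ) ∣ W.Δ)
    (hc₄ : ¬ (q : ℤ) ∣ W.c₄) {n : ℕ} (hn : ¬ q ∣ n) (hdvd : n ∣ padicValInt q W.Δ) :
    Point.GaloisRepUnramifiedAt (K := AlgebraicClosure ℚ) ℚ (W.map (Int.castRingHom ℚ)) n q := by
  intro A hA σ hσ P
  refine Subtype.ext ?_
  show σ • (P : (curveQbar W).Point) = P
  exact smul_eq_of_dvd_padicValInt ⟨hq, hA, hqΔ, hc₄, hΔ⟩ hσ hn hdvd (nsmul_coe_torsion P)

/-- A sign: `±1`. -/
def IsSign (ε : ℤ) : Prop := ε = 1 ∨ ε = -1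

/-- **A decomposition element acts by a sign on the component group**; if it is a Frobenius it
acts as that sign times `q` on the `n`-torsion with nonsingular reduction (`q ∤ n`). -/
theorem exists_sign (h : MultAt W A q) (hσ : σ ∈ A.decompositionSubgroup ℚ) :
    ∃ ε : ℤ, IsSign ε ∧ (∀ P : (curveQbar W).Point, W.InZeroComponentAt A (σ • P - ε • P)) ∧
      (A.IsFrobeniusAt σ q → ∀ (n : ℕ), ¬ q ∣ n → ∀ P : (curveQbar W).Point,
        W.InZeroComponentAt A P → n • P = 0 → σ • P = (ε * q) • P) := by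
  set F := h.frame
  have hiso := LocalInertia.valuation_apply hσ
  have hN := F.nodal
  -- both reductions of the Frobenius condition to a statement about residues
  have hfrob : A.IsFrobeniusAt σ q → ∀ R : NPoint F.a F.b, InG0 A R →
      res A (σ (1 + uPt R)) = red A R ^ q := by
    intro hF R hR
    have hu := hN.val_one_add_uPt hR
    rw [red, ← res_pow hu.le, res_eq_iff (by rw [hiso]; exact hu.le)
      (by rw [map_pow, hu, one_pow])]
    exact LocalInertia.isFrobeniusAt_valuation_lt hF ((A.valuation_le_one_iff _).mp hu.le)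
  obtain ⟨hr, ht, -, ⟨hs, ha⟩ | ⟨hs, ha⟩⟩ := F.apply_eq σ hσ
  · refine ⟨1, .inl rfl, fun P => ?_, fun hF n hn P hP h0 => ?_⟩
    · rw [one_zsmul, ← F.inG0_Φ_iff, map_sub]
      exact hN.conj_sub_inG0 hiso ha (F.conj_smul hr ht hs P)
    · rw [one_mul, natCast_zsmul]
      refine sub_eq_zero.mp (eq_zero_of_inKernelAt h hn ?_ ?_)
      · have hP' := (F.inG0_Φ_iff P).mpr hP
        have hc := F.conj_smul hr ht hs P
        have hS := hc.inG0 hiso hP'
        rw [← F.inG1_Φ_iff, map_sub, map_nsmul, ← hN.red_eq_red_iff hS (hN.inG0_nsmul hP' q),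
          hN.red_nsmul hP', red, hc.uPt_eq ha, ← hfrob hF _ hP', map_add σ, map_one]
        rfl
      · rw [nsmul_sub, ← smul_nsmul_point, h0, smul_zero_point, smul_comm n q, h0, nsmul_zero,
          sub_zero]
  · refine ⟨-1, .inr rfl, fun P => ?_, fun hF n hn P hP h0 => ?_⟩
    · rw [neg_one_zsmul, sub_neg_eq_add, ← F.inG0_Φ_iff, map_add]
      exact hN.conjFlip_add_inG0 hiso ha (F.conjFlip_smul hr ht hs ha P)
    · rw [neg_one_mul, neg_zsmul, natCast_zsmul]
      refine eq_neg_of_add_eq_zero_left (eq_zero_of_inKernelAt h hn ?_ ?_)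
      · have hP' := (F.inG0_Φ_iff P).mpr hP
        have hc := F.conjFlip_smul hr ht hs ha P
        have hS := hc.inG0 hiso hP'
        rw [← F.inG1_Φ_iff, map_add, map_nsmul,
          ← hN.red_eq_one_iff (hN.inG0_add hS (hN.inG0_nsmul hP' q)),
          hN.red_add hS (hN.inG0_nsmul hP' q), hN.red_nsmul hP', ← hfrob hF _ hP', red,
          ← res_mul (hN.val_one_add_uPt hS).le (by rw [hiso]; exact (hN.val_one_add_uPt hP').le)]
        exact (congrArg (res A) (hN.conjFlip_uPt ha hc hiso hP')).trans res_one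
      · rw [nsmul_add, ← smul_nsmul_point, h0, smul_zero_point, smul_comm n q, h0, nsmul_zero,
          add_zero]

end Fermat.Agent.Multiplicative
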