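import Fermat.Agent.Multiplicative.Chain

/-!
# Automorphisms acting on the nodal normal form

`Conj σ P P'` says that `P'` has coordinates `(σ x, σ y)` and `ConjFlip σ P P'` that it has
coordinates `(σ x, σ (y + a x))` (the second is relevant when `σ a = -a`).
-/

set_option autoImplicit false

noncomputable section

namespace Fermat.Agent.Multiplicative

open WeierstrassCurve WeierstrassCurve.Affine

variable {K : Type*} [Field K] {a b : K}

/-- `P'` is the conjugate of `P` under `σ`. -/
def Conj (σ : K →+* K) : NPoint a b → NPoint a b → Prop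
  | .zero, P' => P' = .zero
  | .some x y _, P' => ∃ h, P' = .some (σ x) (σ y) h

/-- `P'` is the conjugate of `P` under `σ`, with the two branches exchanged. -/
def ConjFlip (σ : K →+* K) : NPoint a b → NPoint a b → Prop
  | .zero, P' => P' = .zero
  | .some x y _, P' => ∃ h, P' = .some (σ x) (σ (y + a * x)) h

variable {A : ValuationSubring K}

local notation "v" => ValuationSubring.valuation A

section

variable (hN : IsNodal A a b) {σ : K →+* K}

include hN

/-- An isometry fixing `a` preserves every component: conjugate points differ by a point with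
nonsingular reduction. -/
theorem IsNodal.conj_sub_inG0 [DecidableEq K] (hiso : ∀ x, v (σ x) = v x) (ha : σ a = a)
    {P P' : NPoint a b} (h : Conj σ P P') : InG0 A (P' - P) := by
  match P, h with
  | .zero, h => subst h; simp [← Point.zero_def]
  | .some x y hn, ⟨h', he⟩ =>
    subst he
    by_cases hG : InG0 A (Point.some x y hn)
    · refine hN.inG0_sub ?_ hG
      rw [inG0_some] at hG ⊢
      rwa [hiso]
    rcases hN.trichotomy hG with h | h | h
    · exact hN.mid_sub (by rwa [inMid_some, hiso]) h
    · exact hN.plus_sub (by rwa [inPlus_some, hiso, hiso]) h (hiso x)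
    · rw [Point.neg_some, inPlus_some, nodal_negY, Valuation.map_neg] at h
      have h1 := hN.plus_sub (P := -Point.some (σ x) (σ y) h') (Q := -Point.some x y hn)
        (by
          rw [Point.neg_some, inPlus_some, nodal_negY, Valuation.map_neg, hiso,
            show σ y + a * σ x = σ (y + a * x) by rw [map_add, map_mul, ha], hiso]
          exact h)
        (by rw [Point.neg_some, inPlus_some, nodal_negY, Valuation.map_neg]; exact h)
        (hiso x)
      have h2 := hN.inG0_neg h1
      rwa [show -(-Point.some (σ x) (σ y) h' - -Point.some x y hn) =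
        Point.some (σ x) (σ y) h' - Point.some x y hn by abel] at h2

/-- An isometry negating `a` negates the component. -/
theorem IsNodal.conjFlip_add_inG0 [DecidableEq K] (hiso : ∀ x, v (σ x) = v x) (ha : σ a = -a)
    {P P' : NPoint a b} (h : ConjFlip σ P P') : InG0 A (P' + P) := by
  match P, h with
  | .zero, h => subst h; simp [← Point.zero_def]
  | .some x y hn, ⟨h', he⟩ =>
    subst he
    have hwy : σ (y + a * x) + a * σ x = σ y := by rw [map_add, map_mul, ha]; ring
    by_cases hG : InG0 A (Point.some x y hn)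
    · refine hN.inG0_add ?_ hG
      rw [inG0_some] at hG ⊢
      rwa [hiso]
    rcases hN.trichotomy hG with h | h | h
    · exact hN.mid_add (by rwa [inMid_some, hiso]) h
    · have h1 := hN.plus_sub (P := -Point.some (σ x) (σ (y + a * x)) h') (Q := Point.some x y hn)
        (by rwa [Point.neg_some, inPlus_some, nodal_negY, Valuation.map_neg, hwy, hiso, hiso])
        h (hiso x)
      have h2 := hN.inG0_neg h1
      rwa [show -(-Point.some (σ x) (σ (y + a * x)) h' - Point.some x y hn) =
        Point.some (σ x) (σ (y + a * x)) h' + Point.some x y hn by abel] at h2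
    · rw [Point.neg_some, inPlus_some, nodal_negY, Valuation.map_neg] at h
      have h1 := hN.plus_sub (P := Point.some (σ x) (σ (y + a * x)) h') (Q := -Point.some x y hn)
        (by rwa [inPlus_some, hiso, hiso])
        (by rw [Point.neg_some, inPlus_some, nodal_negY, Valuation.map_neg]; exact h)
        (hiso x)
      rwa [sub_neg_eq_add] at h1

omit hN in
/-- Conjugation by an isometry preserves nonsingular reduction. -/
theorem Conj.inG0 (hiso : ∀ x, v (σ x) = v x) {P P' : NPoint a b} (h : Conj σ P P')
    (hP : InG0 A P) : InG0 A P' := by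
  match P, h with
  | .zero, h => subst h; trivial
  | .some x y hn, ⟨h', he⟩ => subst he; rw [inG0_some] at hP ⊢; rwa [hiso]

omit hN in
/-- Conjugation by an isometry composed with the flip preserves nonsingular reduction. -/
theorem ConjFlip.inG0 (hiso : ∀ x, v (σ x) = v x) {P P' : NPoint a b} (h : ConjFlip σ P P')
    (hP : InG0 A P) : InG0 A P' := by
  match P, h with
  | .zero, h => subst h; trivial
  | .some x y hn, ⟨h', he⟩ => subst he; rw [inG0_some] at hP ⊢; rwa [hiso]

omit hN in
/-- `uPt` commutes with conjugation when `σ` fixes `a`. -/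
theorem Conj.uPt_eq (ha : σ a = a) {P P' : NPoint a b} (h : Conj σ P P') :
    uPt P' = σ (uPt P) := by
  match P, h with
  | .zero, h => subst h; simp [← Point.zero_def]
  | .some x y hn, ⟨h', he⟩ => subst he; simp [map_div₀, ha]

/-- An isometry negating `a` inverts `1 + uPt` on points with nonsingular reduction. -/
theorem IsNodal.conjFlip_uPt (ha : σ a = -a) {P P' : NPoint a b} (h : ConjFlip σ P P')
    (hiso : ∀ x, v (σ x) = v x) (hP : InG0 A P) :
    (1 + uPt P') * σ (1 + uPt P) = 1 := by
  match P, h with
  | .zero, h => subst h; simp [← Point.zero_def]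
  | .some x y hn, ⟨h', he⟩ =>
    subst he
    rw [inG0_some] at hP
    have hP' : 1 ≤ v (σ x) := by rwa [hiso]
    obtain ⟨hy, hw⟩ := hN.y_ne_zero_of_one_le (hN.eqn hn) hP
    rw [(hN.one_add_uPt hn hP).1, (hN.one_add_uPt h' hP').1,
      show σ (y + a * x) + a * σ x = σ y by rw [map_add, map_mul, ha]; ring, map_div₀,
      div_mul_div_comm, div_eq_one_iff_eq (mul_ne_zero
        ((map_ne_zero σ).mpr hw) ((map_ne_zero σ).mpr hy))]
    ring

/-- An automorphism trivial on the residue field fixes the reduction of every point with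
nonsingular reduction. -/
theorem IsNodal.conj_sub_inG1 [DecidableEq K] (hiso : ∀ x, v (σ x) = v x)
    (hres : ∀ x, v x ≤ 1 → v (σ x - x) < 1) (ha : σ a = a) {P P' : NPoint a b}
    (h : Conj σ P P') (hP : InG0 A P) : InG1 A (P' - P) := by
  have hP' := h.inG0 hiso hP
  rw [← hN.red_eq_red_iff hP' hP, red, red, h.uPt_eq ha,
    res_eq_iff (by rw [← map_one σ, ← map_add, hiso]; exact (hN.val_one_add_uPt hP).le)
      (hN.val_one_add_uPt hP).le, add_sub_add_left_eq_sub]
  exact hres _ (hN.val_uPt_le_one hP)

/-- If `n` is prime to the residue characteristic and `|b|` is the `n`-th power of the size of a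
fixed element, then `σ` fixes the `n`-torsion. -/
theorem IsNodal.conj_fix_torsion [DecidableEq K] [IsAlgClosed K] (hiso : ∀ x, v (σ x) = v x)
    (hres : ∀ x, v x ≤ 1 → v (σ x - x) < 1) (ha : σ a = a) (hb : σ b = b)
    (f : NPoint a b →+ NPoint a b) (hf : ∀ P, Conj σ P (f P)) {n : ℕ} (hn : v (n : K) = 1)
    {z : K} (hz : σ z = z) (hzb : v z ^ n = v b)
    (hrat : ∀ x : K, x ≠ 0 → v x < 1 → ∃ e k : ℕ, 0 < e ∧ v x ^ e = v b ^ k)
    {P : NPoint a b} (hP : n • P = 0) : f P = P := by
  have hn0 : 0 < n := by
    rcases Nat.eq_zero_or_pos n with rfl | h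
    · simp at hn
    · exact h
  -- it is enough to find a fixed point in the component of `P`
  suffices hfix : ∃ P₀, f P₀ = P₀ ∧ InG0 A (P - P₀) by
    obtain ⟨P₀, hP₀, hR⟩ := hfix
    have h1 : InG1 A (f (P - P₀) - (P - P₀)) := hN.conj_sub_inG1 hiso hres ha (hf _) hR
    rw [map_sub, hP₀, sub_sub_sub_cancel_right] at h1
    have h2 : n • (f P - P) = 0 := by rw [nsmul_sub, ← map_nsmul, hP, map_zero, sub_zero]
    exact sub_eq_zero.mp (hN.eq_zero_of_inG1_of_nsmul h1 hn h2)
  have hfixed : ∀ P₀ : NPoint a b, σ (xc P₀) = xc P₀ → σ (yc P₀) = yc P₀ → f P₀ = P₀ := by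
    intro P₀ hx hy
    match P₀, hf P₀ with
    | .zero, h => exact h
    | .some x y hns, ⟨h', he⟩ =>
      rw [he, Point.some.injEq]
      exact ⟨hx, hy⟩
  by_cases hG : InG0 A P
  · exact ⟨0, map_zero f, by rwa [sub_zero]⟩
  -- fixed points on the branch
  have hbranch : ∀ Q : NPoint a b, InPlus A Q → n • Q = 0 →
      ∃ P₀, f P₀ = P₀ ∧ InG0 A (Q - P₀) := by
    intro Q hQ hQn
    obtain ⟨h1, h2, -⟩ := hQ.xc_lt
    obtain ⟨j, hj0, hjn, hj⟩ := hN.torsion_level hQ hn0 (by rw [hQn]; exact inG0_zero)
      (hrat _ (fun h => not_lt.mpr zero_le (by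
        rwa [h, map_zero, zero_pow two_ne_zero] at h2)) h1)
    have hx : v (xc Q) = v (z ^ j) := by
      refine (pow_left_inj₀ zero_le zero_le hn0.ne').mp ?_
      rw [hj, map_pow, ← pow_mul, mul_comm, pow_mul, hzb]
    obtain ⟨P₀, hP₀, hxP₀⟩ := hN.exists_inPlus (x := z ^ j) (hx ▸ h1) (hx ▸ h2)
    refine ⟨P₀, ?_, hN.plus_sub hQ hP₀ (by rw [hxP₀, hx])⟩
    match P₀, hP₀, hxP₀, hfixed with
    | .some x y hns, hP₀, hxP₀, hfixed =>
      simp only [xc_some] at hxP₀
      have hσx : σ x = x := by rw [hxP₀, map_pow, hz]
      refine hfixed _ hσx ?_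
      simp only [yc_some]
      have he := hN.eqn hns
      have he' : σ y * (σ y + a * x) = x ^ 3 + b := by
        have := congrArg σ he
        simpa only [map_mul, map_add, map_pow, ha, hb, hσx] using this
      have hfac : (σ y - y) * (σ y + y + a * x) = 0 := by linear_combination he' - he
      rcases mul_eq_zero.mp hfac with h | h
      · exact sub_eq_zero.mp h
      · exfalso
        have hw := hN.val_w_of_inPlus hns hP₀
        rw [show y + a * x = -σ y by linear_combination h, Valuation.map_neg, hiso] at hw
        exact hP₀.2.2.ne hw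
  rcases hN.trichotomy hG with h | h | h
  · obtain ⟨m, rfl⟩ := hN.mid_torsion_even h (by rw [hP]; exact inG0_zero)
    have h2 : v (2 : K) = 1 := by
      push_cast at hn
      rw [map_mul] at hn
      refine le_antisymm ((A.valuation_le_one_iff _).mpr (natCast_mem A 2))
        (not_lt.mp fun hlt => ?_)
      exact (mul_lt_one_of_nonneg_of_lt_one_left zero_le hlt
        ((A.valuation_le_one_iff _).mpr (natCast_mem A m))).ne hn
    obtain ⟨y, hy⟩ := hN.exists_point 0
    have hbpos : 0 < v b := zero_lt_iff.mpr ((Valuation.ne_zero_iff _).mpr hN.ne_zero)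
    have hmid : InMid A (Point.some 0 y hy) := by
      rw [inMid_some, map_zero, zero_pow two_ne_zero]
      exact ⟨zero_lt_one, zero_le⟩
    refine ⟨_, hfixed _ (by simp) ?_, hN.mid_sub h hmid⟩
    simp only [yc_some]
    have he := hN.eqn hy
    have he' : σ y * σ y = b := by
      have := congrArg σ he
      simpa [map_mul, map_add, map_pow, ha, hb] using this
    have hfac : (σ y - y) * (σ y + y) = 0 := by linear_combination he' - he
    rcases mul_eq_zero.mp hfac with h' | h'
    · exact sub_eq_zero.mp h'
    · exfalso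
      have hy2 : v y = v (z ^ m) := by
        refine (pow_left_inj₀ zero_le zero_le two_ne_zero).mp ?_
        rw [(hN.mid_facts he (by simp) (by simp)).2.1, map_pow, ← pow_mul, mul_comm, hzb]
      have hz0 : z ^ m ≠ 0 := by
        intro h0
        rw [← pow_left_inj₀ zero_le zero_le two_ne_zero, (hN.mid_facts he (by simp) (by simp)).2.1,
          h0, map_zero, zero_pow two_ne_zero] at hy2
        exact hbpos.ne' hy2
      have hu : v (y / z ^ m) = 1 := by
        rw [map_div₀, hy2, div_self ((Valuation.ne_zero_iff _).mpr hz0)]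
      have hlt := hres _ hu.le
      rw [map_div₀ σ, map_pow, hz, show σ y = -y by linear_combination h', neg_div,
        show -(y / z ^ m) - y / z ^ m = -(2 * (y / z ^ m)) by ring, Valuation.map_neg, map_mul,
        h2, hu, one_mul] at hlt
      exact lt_irrefl _ hlt
  · exact hbranch P h hP
  · obtain ⟨P₀, h1, h2⟩ := hbranch (-P) h (by rw [neg_nsmul, hP, neg_zero])
    refine ⟨-P₀, by rw [map_neg, h1], ?_⟩
    rw [show P - -P₀ = -(-P - P₀) by abel]
    exact hN.inG0_neg h2

end

end Fermat.Agent.Multiplicative
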