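import Fermat.Agent.Multiplicative.NormalForm
import Fermat.Agent.LocalInertia.CyclicTame
import Fermat.Agent.GaloisBasics.Place
import Fermat.Prelude.Def_EllipticCurve_ZeroComponentAt
import Mathlib.NumberTheory.Padics.PadicVal.Basic

/-!
# The nodal frame of an integral Weierstrass curve at a place of multiplicative reduction

For `W` over `ℤ`, a place `A` of `AlgebraicClosure ℚ` over `q` with `q ∣ Δ` and `q ∤ c₄`, we fix an
isomorphism of the point group with that of a nodal normal form and describe the Galois action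
and the component conditions through it.
-/

set_option autoImplicit false

noncomputable section

open scoped WeierstrassCurve.Affine

namespace Fermat.Agent.Multiplicative

open WeierstrassCurve WeierstrassCurve.Affine

local notation "Qb" => AlgebraicClosure ℚ
local notation:max "v" A:max => ValuationSubring.valuation A

/-- The base change of an integral Weierstrass curve to `AlgebraicClosure ℚ`. -/
abbrev curveQbar (W : WeierstrassCurve ℤ) : WeierstrassCurve.Affine Qb :=
  (W.map (Int.castRingHom ℚ))⁄(AlgebraicClosure ℚ)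

/-- `W` has multiplicative reduction at the prime `q` below the place `A`. -/
structure MultAt (W : WeierstrassCurve ℤ) (A : ValuationSubring (AlgebraicClosure ℚ)) (q : ℕ) :
    Prop where
  prime : q.Prime
  liesOver : A.LiesOverPrime q
  dvd_Δ : (q : ℤ) ∣ W.Δ
  not_dvd_c₄ : ¬ (q : ℤ) ∣ W.c₄
  Δ_ne_zero : W.Δ ≠ 0

/-- `P = 0` or `P` reduces to the point at infinity at `A`. -/
def InKernelAt (W : WeierstrassCurve ℤ) (A : ValuationSubring (AlgebraicClosure ℚ))
    (P : (curveQbar W).Point) : Prop :=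
  P = 0 ∨ ∃ (x y : Qb) (h : (curveQbar W).Nonsingular x y), P = .some x y h ∧ x ∉ A

variable {W : WeierstrassCurve ℤ} {A : ValuationSubring (AlgebraicClosure ℚ)} {q : ℕ}

/-- `|q| < 1` at a place over `q`. -/
theorem val_q_lt_one (hA : A.LiesOverPrime q) : v A (q : Qb) < 1 := A.mem_nonunits_iff.1 hA

theorem val_intCast (hA : A.LiesOverPrime q) (hq : q.Prime) {n : ℤ} (h : ¬ (q : ℤ) ∣ n) :
    v A (n : Qb) = 1 := by
  have hn : ¬ q ∣ n.natAbs := fun hd => h (Int.natCast_dvd.mpr hd)
  have := LocalInertia.valuation_natCast_of_coprime hA (hq.coprime_iff_not_dvd.2 hn).symm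
  rcases Int.natAbs_eq n with he | he <;> rw [he]
  · rw [Int.cast_natCast]; exact this
  · rw [Int.cast_neg, Int.cast_natCast, Valuation.map_neg]; exact this

/-- Natural numbers prime to `q` are units at a place over `q`. -/
theorem val_natCast (hA : A.LiesOverPrime q) (hq : q.Prime) {n : ℕ} (h : ¬ q ∣ n) :
    v A (n : Qb) = 1 :=
  LocalInertia.valuation_natCast_of_coprime hA (hq.coprime_iff_not_dvd.2 h).symm

/-- `|n| = |q| ^ padicValInt q n` at a place over `q`. -/
theorem val_intCast_eq_pow (hA : A.LiesOverPrime q) (hq : q.Prime) {n : ℤ} (hn : n ≠ 0) :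
    v A (n : Qb) = v A (q : Qb) ^ padicValInt q n := by
  have : Fact q.Prime := ⟨hq⟩
  obtain ⟨m, hm⟩ := padicValInt_dvd (p := q) n
  have hm' : ¬ (q : ℤ) ∣ m := by
    intro hd
    have hd' : (q : ℤ) ^ (padicValInt q n + 1) ∣ n := by
      conv_rhs => rw [hm]
      rw [pow_succ]
      exact mul_dvd_mul dvd_rfl hd
    rcases (padicValInt_dvd_iff _ n).mp hd' with h | h
    · exact hn h
    · omega
  have h : (n : Qb) = (q : Qb) ^ padicValInt q n * (m : Qb) := by
    rw [← Int.cast_natCast, ← Int.cast_pow, ← Int.cast_mul, ← hm]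
  rw [h, map_mul, map_pow, val_intCast hA hq hm', mul_one]

theorem curveQbar_coeff (W : WeierstrassCurve ℤ) :
    (curveQbar W).a₁ = (W.a₁ : Qb) ∧ (curveQbar W).a₂ = (W.a₂ : Qb) ∧
    (curveQbar W).a₃ = (W.a₃ : Qb) ∧ (curveQbar W).a₄ = (W.a₄ : Qb) ∧
    (curveQbar W).a₆ = (W.a₆ : Qb) := by
  refine ⟨?_, ?_, ?_, ?_, ?_⟩ <;>
    simp [curveQbar, WeierstrassCurve.Affine.baseChange, WeierstrassCurve.baseChange]

theorem curveQbar_eq_map (W : WeierstrassCurve ℤ) :
    curveQbar W = W.map (Int.castRingHom Qb) := by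
  ext <;> simp

theorem curveQbar_map_eq (W : WeierstrassCurve ℤ) (σ : Qb →+* Qb) :
    WeierstrassCurve.map (curveQbar W) σ = curveQbar W := by
  rw [curveQbar_eq_map, WeierstrassCurve.map_map]
  exact congrArg W.map (RingHom.ext_int _ _)

/-- At a place of multiplicative reduction the equation is a multiplicative model. -/
theorem MultAt.isMultiplicativeModel (h : MultAt W A q) :
    IsMultiplicativeModel A (curveQbar W) := by
  have hΔ : (curveQbar W).Δ = (W.Δ : Qb) := by
    rw [curveQbar_eq_map, map_Δ, eq_intCast]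
  have hc : (curveQbar W).c₄ = (W.c₄ : Qb) := by
    rw [curveQbar_eq_map, map_c₄, eq_intCast]
  obtain ⟨h1, h2, h3, h4, h6⟩ := curveQbar_coeff W
  have hint : ∀ n : ℤ, v A (n : Qb) ≤ 1 := LocalInertia.valuation_intCast_le_one A
  refine ⟨h1 ▸ hint _, h2 ▸ hint _, h3 ▸ hint _, h4 ▸ hint _, h6 ▸ hint _, ?_, ?_, ?_⟩
  · rw [hc]; exact val_intCast h.liesOver h.prime h.not_dvd_c₄
  · rw [hΔ, val_intCast_eq_pow h.liesOver h.prime h.Δ_ne_zero]
    refine pow_lt_one₀ zero_le (val_q_lt_one h.liesOver) ?_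
    have : Fact q.Prime := ⟨h.prime⟩
    intro h0
    rcases (padicValInt_dvd_iff 1 W.Δ).mp (by simpa using h.dvd_Δ) with h' | h'
    · exact h.Δ_ne_zero h'
    · omega
  · rw [hΔ]; exact Int.cast_ne_zero.mpr h.Δ_ne_zero

/-- A change of variables to the nodal normal form at `A`. -/
structure Frame (W : WeierstrassCurve ℤ) (A : ValuationSubring (AlgebraicClosure ℚ)) where
  C : VariableChange (AlgebraicClosure ℚ)
  a : AlgebraicClosure ℚ
  b : AlgebraicClosure ℚ
  u_eq : C.u = 1
  nodal : IsNodal A a b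
  curve_eq : C • curveQbar W = nodalCurve a b
  val_r : A.valuation (C.r - nodeX (curveQbar W)) < 1
  val_s : A.valuation C.s ≤ 1
  val_t : A.valuation (C.t - nodeY (curveQbar W)) < 1
  val_b : A.valuation b = A.valuation (W.Δ : AlgebraicClosure ℚ)
  ne_zero : (curveQbar W).Δ ≠ 0
  val_node : A.valuation (nodeX (curveQbar W)) ≤ 1 ∧ A.valuation (nodeY (curveQbar W)) ≤ 1

/-- A nodal frame exists. -/
theorem MultAt.nonempty_frame (h : MultAt W A q) : Nonempty (Frame W A) := by
  obtain ⟨C, a, b, h1, h2, h3, h4, h5, h6, h7⟩ := h.isMultiplicativeModel.exists_normalForm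
  exact ⟨⟨C, a, b, h1, h2, h3, h4, h5, h6, by rw [h7, curveQbar_eq_map, map_Δ, eq_intCast],
    h.isMultiplicativeModel.Δ_ne_zero, h.isMultiplicativeModel.val_node⟩⟩

/-- A chosen frame. -/
def MultAt.frame (h : MultAt W A q) : Frame W A := h.nonempty_frame.some

/-- Uniqueness of the normal form: the only changes of variables between nodal normal forms
congruent to the identity at the node are `1` and `s = -a`. -/
theorem nodal_change_unique {K : Type*} [Field K] {B : ValuationSubring K} {a b a' b' : K}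
    (hN : IsNodal B a b) {D : VariableChange K} (hu : D.u = 1) (hr : B.valuation D.r < 1)
    (h : D • (nodalCurve a b : WeierstrassCurve K) = nodalCurve a' b') :
    D.r = 0 ∧ D.t = 0 ∧ (D.s = 0 ∨ D.s = -a) ∧ a' = a + 2 * D.s ∧ b' = b := by
  have e1 := congrArg WeierstrassCurve.a₁ h
  have e2 := congrArg WeierstrassCurve.a₂ h
  have e3 := congrArg WeierstrassCurve.a₃ h
  have e4 := congrArg WeierstrassCurve.a₄ h
  have e6 := congrArg WeierstrassCurve.a₆ h
  simp only [variableChange_def, nodalCurve, hu, inv_one, Units.val_one, one_pow, one_mul, zero_add,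
    zero_sub, mul_zero, add_zero, sub_zero] at e1 e2 e3 e4 e6
  have hn : ∀ n : ℕ, B.valuation (n : K) ≤ 1 := fun n =>
    (B.valuation_le_one_iff _).mpr (natCast_mem B n)
  have hsa : B.valuation (D.s * (D.s + a)) < 1 := by
    rw [show D.s * (D.s + a) = 3 * D.r by linear_combination -e2, map_mul]
    exact mul_lt_one_of_nonneg_of_lt_one_right (hn 3) zero_le hr
  have hunit : ∀ n : ℕ, a ^ 2 + n * (D.s * (D.s + a)) ≠ 0 := by
    intro n
    refine (Valuation.ne_zero_iff B.valuation).mp ?_
    have ha2 : B.valuation (a ^ 2) = 1 := by rw [map_pow, hN.val_a, one_pow]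
    rw [Valuation.map_add_eq_of_lt_left _ ?_, ha2]
    · exact one_ne_zero
    · rw [ha2, map_mul]
      exact mul_lt_one_of_nonneg_of_lt_one_right (hn n) zero_le hsa
  have hr0 : D.r = 0 := by
    have : D.r * (a ^ 2 + ((2 : ℕ) : K) * (D.s * (D.s + a))) = 0 := by
      push_cast
      linear_combination (a + 2 * D.s) * e3 + 2 * e4 - 2 * D.r * e2
    exact (mul_eq_zero.mp this).resolve_right (hunit 2)
  have ht0 : D.t = 0 := by
    have h0 : D.t * (a + 2 * D.s) = 0 := by
      rw [hr0] at e4
      linear_combination -e4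
    refine (mul_eq_zero.mp h0).resolve_right fun hz => hunit 4 ?_
    push_cast
    linear_combination (a + 2 * D.s) * hz
  refine ⟨hr0, ht0, ?_, e1.symm, ?_⟩
  · have : D.s * (D.s + a) = 0 := by
      rw [hr0] at e2
      linear_combination -e2
    rcases mul_eq_zero.mp this with h | h
    · exact .inl h
    · exact .inr (eq_neg_of_add_eq_zero_left h)
  · rw [← e6, hr0, ht0]; ring

namespace Frame

variable (F : Frame W A)

/-- The isomorphism of point groups. -/
def Φ : (curveQbar W).Point ≃+ NPoint F.a F.b := changeEquiv F.u_eq F.curve_eq F.ne_zero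

theorem Φ_some {x y : Qb} (h : (curveQbar W).Nonsingular x y) :
    F.Φ (Point.some x y h) =
      Point.some (x - F.C.r) (y - F.C.t - F.C.s * (x - F.C.r))
        (change_nonsingular F.u_eq F.curve_eq F.ne_zero h) :=
  rfl

theorem val_r_le : v A F.C.r ≤ 1 := by
  have := (Valuation.map_add (v A) (F.C.r - nodeX (curveQbar W)) (nodeX (curveQbar W))).trans
    (max_le F.val_r.le F.val_node.1)
  rwa [sub_add_cancel] at this

theorem val_t_le : v A F.C.t ≤ 1 := by
  have := (Valuation.map_add (v A) (F.C.t - nodeY (curveQbar W)) (nodeY (curveQbar W))).trans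
    (max_le F.val_t.le F.val_node.2)
  rwa [sub_add_cancel] at this

/-- An element of the decomposition group fixes the frame, or exchanges the two branches. -/
theorem apply_eq (σ : Qb ≃ₐ[ℚ] Qb) (hσ : σ ∈ A.decompositionSubgroup ℚ) :
    σ F.C.r = F.C.r ∧ σ F.C.t = F.C.t ∧ σ F.b = F.b ∧
      ((σ F.C.s = F.C.s ∧ σ F.a = F.a) ∨ (σ F.C.s = F.C.s - F.a ∧ σ F.a = -F.a)) := by
  set f : Qb →+* Qb := σ.toAlgHom.toRingHom with hf
  have hfx : ∀ x, f x = σ x := fun x => rfl
  set C := F.C with hC
  have hiso : ∀ x, v A (σ x) = v A x := LocalInertia.valuation_apply hσ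
  have hfixX : σ (nodeX (curveQbar W)) = nodeX (curveQbar W) := by
    rw [← hfx, map_nodeX, curveQbar_map_eq]
  set D : VariableChange Qb :=
    ⟨1, σ C.r - C.r, σ C.s - C.s, σ C.t - C.t - (σ C.r - C.r) * C.s⟩ with hD
  have hDC : D * C = C.map f := by
    rw [VariableChange.mul_def]
    ext <;> simp [hD, F.u_eq, VariableChange.map, hfx, hC]
  have hmap : D • (nodalCurve F.a F.b : WeierstrassCurve Qb) = nodalCurve (σ F.a) (σ F.b) := by
    have h1 : (D * C) • (curveQbar W : WeierstrassCurve Qb) = D • nodalCurve F.a F.b := by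
      rw [mul_smul, F.curve_eq]
    rw [hDC] at h1
    rw [← h1]
    conv_lhs => rw [← curveQbar_map_eq W f]
    rw [map_variableChange, F.curve_eq]
    ext <;> simp [nodalCurve, hfx]
  have hr : v A D.r < 1 := by
    have h1 : v A (σ (C.r - nodeX (curveQbar W))) < 1 := by rw [hiso]; exact F.val_r
    rw [map_sub, hfixX] at h1
    have := Valuation.map_sub_lt (v A) h1 F.val_r
    rwa [sub_sub_sub_cancel_right] at this
  obtain ⟨h1, h2, h3, h4, h5⟩ := nodal_change_unique F.nodal (D := D) rfl hr hmap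
  simp only [hD, sub_eq_zero] at h1 h2 h3 h4
  rw [h1, sub_self, zero_mul, sub_eq_zero] at h2
  refine ⟨h1, h2, h5, ?_⟩
  rcases h3 with h3 | h3
  · exact .inl ⟨h3, by rw [h4, h3, sub_self, mul_zero, add_zero]⟩
  · refine .inr ⟨by linear_combination h3, ?_⟩
    rw [h4, h3]; ring

/-- A Galois element fixing the change of variables acts on coordinates of the normal form. -/
theorem conj_smul {σ : Qb ≃ₐ[ℚ] Qb} (hr : σ F.C.r = F.C.r) (ht : σ F.C.t = F.C.t)
    (hs : σ F.C.s = F.C.s) (P : (curveQbar W).Point) :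
    Conj σ.toAlgHom.toRingHom (F.Φ P) (F.Φ (σ • P)) := by
  rcases P with _ | ⟨x, y, h⟩
  · show F.Φ (Point.map σ.toAlgHom (0 : (curveQbar W).Point)) = Point.zero
    rw [Point.map_zero, map_zero]; rfl
  · rw [Point.algEquiv_smul_def, Point.map_some, F.Φ_some, F.Φ_some]
    refine ⟨?_, ?_⟩
    · rw [show σ.toAlgHom.toRingHom (x - F.C.r) = σ x - F.C.r by simp [hr],
        show σ.toAlgHom.toRingHom (y - F.C.t - F.C.s * (x - F.C.r)) =
          σ y - F.C.t - F.C.s * (σ x - F.C.r) by simp [hr, ht, hs]]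
      exact change_nonsingular F.u_eq F.curve_eq F.ne_zero
        (((W.map (Int.castRingHom ℚ)).toAffine.baseChange_nonsingular (f := σ.toAlgHom)
          σ.injective ..).mpr h)
    · simp [hr, ht, hs]

/-- A Galois element negating `a` acts on the normal form by the flipped conjugation. -/
theorem conjFlip_smul {σ : Qb ≃ₐ[ℚ] Qb} (hr : σ F.C.r = F.C.r) (ht : σ F.C.t = F.C.t)
    (hs : σ F.C.s = F.C.s - F.a) (ha : σ F.a = -F.a) (P : (curveQbar W).Point) :
    ConjFlip σ.toAlgHom.toRingHom (F.Φ P) (F.Φ (σ • P)) := by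
  rcases P with _ | ⟨x, y, h⟩
  · show F.Φ (Point.map σ.toAlgHom (0 : (curveQbar W).Point)) = Point.zero
    rw [Point.map_zero, map_zero]; rfl
  · rw [Point.algEquiv_smul_def, Point.map_some, F.Φ_some, F.Φ_some]
    have h1 : σ.toAlgHom.toRingHom (x - F.C.r) = σ x - F.C.r := by simp [hr]
    have h2 : σ.toAlgHom.toRingHom (y - F.C.t - F.C.s * (x - F.C.r) + F.a * (x - F.C.r)) =
        σ y - F.C.t - F.C.s * (σ x - F.C.r) := by
      simp [hr, ht, hs, ha]; ring
    refine ⟨?_, ?_⟩
    · rw [h1, h2]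
      exact change_nonsingular F.u_eq F.curve_eq F.ne_zero
        (((W.map (Int.castRingHom ℚ)).toAffine.baseChange_nonsingular (f := σ.toAlgHom)
          σ.injective ..).mpr h)
    · simp only [Point.some.injEq]
      exact ⟨h1.symm, h2.symm⟩

/-- Inertia fixes the change of variables and the normal form. -/
theorem inertia_fixes {σ : Qb ≃ₐ[ℚ] Qb} (hσ : σ ∈ A.inertiaSubgroupIn ℚ) :
    σ F.C.r = F.C.r ∧ σ F.C.t = F.C.t ∧ σ F.b = F.b ∧ σ F.C.s = F.C.s ∧ σ F.a = F.a := by
  obtain ⟨hd, hres⟩ := LocalInertia.mem_inertiaSubgroupIn_iff.mp hσ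
  obtain ⟨hr, ht, hb, h | h⟩ := F.apply_eq σ hd
  · exact ⟨hr, ht, hb, h⟩
  · have := hres _ ((A.valuation_le_one_iff _).mp F.val_s)
    rw [h.1, sub_sub_cancel_left, Valuation.map_neg, F.nodal.val_a] at this
    exact absurd this (lt_irrefl _)

/-- The kernel of reduction in terms of the normal form. -/
theorem inG1_Φ_iff (P : (curveQbar W).Point) : InG1 A (F.Φ P) ↔ InKernelAt W A P := by
  rcases P with _ | ⟨x, y, h⟩
  · exact iff_of_true trivial (.inl rfl)
  rw [F.Φ_some, inG1_some, ← not_iff_not]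
  constructor
  · rintro hle (h0 | ⟨x', y', h', he, hx⟩)
    · exact absurd h0 (Point.some_ne_zero h)
    · simp only [Point.some.injEq] at he
      obtain ⟨rfl, -⟩ := he
      refine hx ((A.valuation_le_one_iff _).mp ?_)
      have := (Valuation.map_add (v A) (x - F.C.r) F.C.r).trans (max_le (not_lt.mp hle) F.val_r_le)
      rwa [sub_add_cancel] at this
  · intro hn
    rw [not_lt]
    refine (Valuation.map_sub _ _ _).trans (max_le ?_ F.val_r_le)
    rw [A.valuation_le_one_iff]
    by_contra hx
    exact hn (.inr ⟨x, y, h, rfl, hx⟩)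

end Frame

/-- A point of the nodal curve with `|x| = 1` reduces to a nonsingular point. -/
theorem IsNodal.val_partial_of_val_eq_one {K : Type*} [Field K] {B : ValuationSubring K} {a b : K}
    (hN : IsNodal B a b) {X Y : K} (h : Y * (Y + a * X) = X ^ 3 + b) (hX : B.valuation X = 1) :
    B.valuation (2 * Y + a * X) = 1 ∨ B.valuation (a * Y - 3 * X ^ 2) = 1 := by
  have hn : ∀ n : ℕ, B.valuation (n : K) ≤ 1 := fun n =>
    (B.valuation_le_one_iff _).mpr (natCast_mem B n)
  have hY : B.valuation Y = 1 := by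
    have := (hN.val_y_of_one_le h hX.ge).1
    rw [hX, one_pow] at this
    exact (pow_eq_one_iff.mp this).resolve_right two_ne_zero
  have hu₁ : B.valuation (2 * Y + a * X) ≤ 1 := by
    refine (Valuation.map_add _ _ _).trans (max_le ?_ (by rw [hN.val_mul_a, hX]))
    rw [map_mul, hY, mul_one]; exact hn 2
  have hu₂ : B.valuation (a * Y - 3 * X ^ 2) ≤ 1 := by
    refine (Valuation.map_sub _ _ _).trans (max_le (by rw [hN.val_mul_a, hY]) ?_)
    rw [map_mul, map_pow, hX, one_pow, mul_one]; exact hn 3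
  by_contra hc
  rw [not_or] at hc
  have hid : Y ^ 2 =
      X * (a * Y - 3 * X ^ 2) + 2 * (2 * Y + a * X) * Y - 3 * b := by linear_combination -3 * h
  have hlt : B.valuation (Y ^ 2) < 1 := by
    rw [hid]
    refine Valuation.map_sub_lt _ (Valuation.map_add_lt _ ?_ ?_) ?_
    · rw [map_mul, hX, one_mul]; exact lt_of_le_of_ne hu₂ hc.2
    · rw [map_mul, map_mul, hY, mul_one]
      exact mul_lt_one_of_nonneg_of_lt_one_right (hn 2) zero_le (lt_of_le_of_ne hu₁ hc.1)
    · rw [map_mul]; exact mul_lt_one_of_nonneg_of_lt_one_right (hn 3) zero_le hN.val_b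
  rw [map_pow, hY, one_pow] at hlt
  exact lt_irrefl _ hlt

/-- The identity component in terms of the normal form. -/
theorem Frame.inG0_Φ_iff (F : Frame W A) (P : (curveQbar W).Point) :
    InG0 A (F.Φ P) ↔ W.InZeroComponentAt A P := by
  rcases P with _ | ⟨x, y, h⟩
  · exact iff_of_true trivial (.inl rfl)
  rw [F.Φ_some, inG0_some]
  set X := x - F.C.r with hX
  set Y := y - F.C.t - F.C.s * (x - F.C.r) with hY
  have hXY : Y * (Y + F.a * X) = X ^ 3 + F.b :=
    (nodal_equation_iff _ _).mp (change_nonsingular F.u_eq F.curve_eq F.ne_zero h).1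
  have hxA : x ∈ A → v A X ≤ 1 := fun hx =>
    (Valuation.map_sub _ _ _).trans (max_le ((A.valuation_le_one_iff _).mpr hx) F.val_r_le)
  by_cases hx : x ∈ A
  swap
  · refine iff_of_true ?_ (.inr ⟨x, y, h, rfl, .inl hx⟩)
    by_contra hlt
    rw [not_le] at hlt
    refine hx ((A.valuation_le_one_iff _).mp ?_)
    have := (Valuation.map_add (v A) X F.C.r).trans (max_le hlt.le F.val_r_le)
    rwa [hX, sub_add_cancel] at this
  have hX1 := hxA hx
  -- `y` is integral
  have hY1 : v A Y ≤ 1 := by
    rcases lt_or_eq_of_le hX1 with hlt | heq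
    · exact (F.nodal.val_y_of_lt_one hXY hlt).1.le
    · have := (F.nodal.val_y_of_one_le hXY heq.ge).1
      rw [heq, one_pow] at this
      exact ((pow_eq_one_iff.mp this).resolve_right two_ne_zero).le
  have hy : y ∈ A := by
    rw [← A.valuation_le_one_iff, show y = Y + F.C.s * X + F.C.t by rw [hY, hX]; ring]
    refine (Valuation.map_add _ _ _).trans (max_le ((Valuation.map_add _ _ _).trans
      (max_le hY1 ?_)) F.val_t_le)
    rw [map_mul]; exact mul_le_one' F.val_s hX1
  -- the partial derivatives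
  set WA : WeierstrassCurve.Affine A := W.map (Int.castRingHom A) with hWA
  have hK : WeierstrassCurve.map WA A.subtype = curveQbar W := by
    rw [curveQbar_eq_map, hWA, WeierstrassCurve.map_map]
    exact congrArg W.map (RingHom.ext_int _ _)
  have hk : W.map (Int.castRingHom (IsLocalRing.ResidueField A)) =
      WeierstrassCurve.map WA (IsLocalRing.residue A) := by
    rw [hWA, WeierstrassCurve.map_map]
    exact congrArg W.map (RingHom.ext_int _ _)
  set x' : A := ⟨x, hx⟩
  set y' : A := ⟨y, hy⟩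
  set pX : A := WA.polynomialX.evalEval x' y' with hpX
  set pY : A := WA.polynomialY.evalEval x' y' with hpY
  have heqA : WA.Equation x' y' := by
    rw [← Affine.map_equation WA (f := A.subtype) A.subtype_injective]
    show (WeierstrassCurve.map WA A.subtype).toAffine.Equation x y
    rw [hK]; exact h.1
  have hpXK : (pX : Qb) = (curveQbar W).polynomialX.evalEval x y := by
    rw [← hK]
    show A.subtype pX = (Affine.map WA A.subtype).polynomialX.evalEval (A.subtype x') (A.subtype y')
    rw [hpX, map_polynomialX WA A.subtype, Polynomial.map_mapRingHom_evalEval]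
  have hpYK : (pY : Qb) = (curveQbar W).polynomialY.evalEval x y := by
    rw [← hK]
    show A.subtype pY = (Affine.map WA A.subtype).polynomialY.evalEval (A.subtype x') (A.subtype y')
    rw [hpY, map_polynomialY WA A.subtype, Polynomial.map_mapRingHom_evalEval]
  have e1 := congrArg WeierstrassCurve.a₁ F.curve_eq
  have e2 := congrArg WeierstrassCurve.a₂ F.curve_eq
  have e3 := congrArg WeierstrassCurve.a₃ F.curve_eq
  have e4 := congrArg WeierstrassCurve.a₄ F.curve_eq
  simp only [variableChange_def, nodalCurve, F.u_eq, inv_one, Units.val_one, one_pow,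
    one_mul] at e1 e2 e3 e4
  have hYrel : (pY : Qb) = 2 * Y + F.a * X := by
    rw [hpYK, evalEval_polynomialY, hY, hX]
    linear_combination (x - F.C.r) * e1 + e3
  have hXrel : (pX : Qb) = F.a * Y - 3 * X ^ 2 - F.C.s * (2 * Y + F.a * X) := by
    rw [hpXK, evalEval_polynomialX, hY, hX]
    linear_combination (y - F.C.t - F.C.s * (x - F.C.r) - F.C.s * (x - F.C.r)) * e1
      - 2 * (x - F.C.r) * e2 - F.C.s * e3 - e4
  have hns : (W.map (Int.castRingHom (IsLocalRing.ResidueField A))).toAffine.Nonsingular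
      (IsLocalRing.residue A x') (IsLocalRing.residue A y') ↔
        v A (pX : Qb) = 1 ∨ v A (pY : Qb) = 1 := by
    have hres : ∀ z : A, IsLocalRing.residue A z ≠ 0 ↔ v A (z : Qb) = 1 := fun z => by
      rw [IsLocalRing.residue_ne_zero_iff_isUnit, A.valuation_eq_one_iff]
    rw [hk]
    show (Affine.map WA (IsLocalRing.residue A)).Nonsingular _ _ ↔ _
    rw [Affine.Nonsingular, map_polynomialX WA, map_polynomialY WA,
      Polynomial.map_mapRingHom_evalEval,
      Polynomial.map_mapRingHom_evalEval, ← hpX, ← hpY, hres, hres]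
    exact and_iff_right (heqA.map _)
  constructor
  · intro hge
    refine .inr ⟨x, y, h, rfl, .inr ⟨hx, hy, hns.mpr ?_⟩⟩
    have hXeq : v A X = 1 := le_antisymm hX1 hge
    rcases F.nodal.val_partial_of_val_eq_one hXY hXeq with hp | hp
    · exact .inr (by rw [hYrel]; exact hp)
    · by_cases hu : v A (2 * Y + F.a * X) = 1
      · exact .inr (by rw [hYrel]; exact hu)
      · left
        have hle : v A (2 * Y + F.a * X) ≤ 1 := hYrel ▸ (A.valuation_le_one pY)
        rw [hXrel, Valuation.map_sub_eq_of_lt_left _ ?_, hp]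
        rw [hp, map_mul]
        exact mul_lt_one_of_nonneg_of_lt_one_right F.val_s zero_le (lt_of_le_of_ne hle hu)
  · rintro (h0 | ⟨x₁, y₁, h₁, he, hh⟩)
    · exact absurd h0 (Point.some_ne_zero h)
    obtain ⟨rfl, rfl⟩ := Point.some.inj he
    rcases hh with hh | ⟨hx', hy', hh⟩
    · exact absurd hx hh
    by_contra hlt
    rw [not_le] at hlt
    have hYlt := (F.nodal.val_y_of_lt_one hXY hlt).1
    have h2 : v A (2 : Qb) ≤ 1 := (A.valuation_le_one_iff _).mpr (natCast_mem A 2)
    have h3 : v A (3 : Qb) ≤ 1 := (A.valuation_le_one_iff _).mpr (natCast_mem A 3)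
    have h1 : v A (2 * Y + F.a * X) < 1 := by
      refine Valuation.map_add_lt _ ?_ (by rwa [F.nodal.val_mul_a])
      rw [map_mul]; exact mul_lt_one_of_nonneg_of_lt_one_right h2 zero_le hYlt
    have h2' : v A (F.a * Y - 3 * X ^ 2 - F.C.s * (2 * Y + F.a * X)) < 1 := by
      refine Valuation.map_sub_lt _ (Valuation.map_sub_lt _ (by rwa [F.nodal.val_mul_a]) ?_) ?_
      · rw [map_mul, map_pow]
        exact mul_lt_one_of_nonneg_of_lt_one_right h3 zero_le (pow_lt_one₀ zero_le hlt two_ne_zero)
      · rw [map_mul]; exact mul_lt_one_of_nonneg_of_lt_one_right F.val_s zero_le h1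
    rcases hns.mp hh with hp | hp
    · rw [hXrel] at hp; exact absurd hp h2'.ne
    · rw [hYrel] at hp; exact absurd hp h1.ne

/-- Sizes in `(0, 1)` are commensurable with `|b|`. -/
theorem Frame.val_commensurable (F : Frame W A) (h : MultAt W A q) (x : Qb) (hx : x ≠ 0)
    (hlt : v A x < 1) : ∃ e k : ℕ, 0 < e ∧ v A x ^ e = v A F.b ^ k := by
  let L : IntermediateField ℚ Qb := IntermediateField.adjoin ℚ {x}
  have : FiniteDimensional ℚ L :=
    IntermediateField.adjoin.finiteDimensional (Algebra.IsAlgebraic.isAlgebraic x).isIntegral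
  obtain ⟨j, hj⟩ := LocalInertia.exists_valuation_pow_factorial h.prime h.liesOver L
    (IntermediateField.mem_adjoin_simple_self ℚ x) hx
  set d := (Module.finrank ℚ L).factorial
  have hd : 0 < d := Nat.factorial_pos _
  have hq := val_q_lt_one h.liesOver
  have hq0 : 0 < v A (q : Qb) := zero_lt_iff.mpr ((Valuation.ne_zero_iff _).mpr
    (Nat.cast_ne_zero.mpr h.prime.ne_zero))
  obtain ⟨k, rfl⟩ : ∃ k : ℕ, j = k := by
    refine ⟨j.toNat, (Int.toNat_of_nonneg ?_).symm⟩
    by_contra hneg
    rw [not_le] at hneg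
    have : 1 < v A (q : Qb) ^ j := one_lt_zpow_of_neg₀ hq0 hq hneg
    rw [← hj] at this
    exact absurd this (not_lt.mpr (pow_le_one' hlt.le d))
  set N := padicValInt q W.Δ
  have hb : v A F.b = v A (q : Qb) ^ N := by
    rw [F.val_b, val_intCast_eq_pow h.liesOver h.prime h.Δ_ne_zero]
  have hN : 0 < N := by
    refine Nat.pos_of_ne_zero fun h0 => ?_
    have := F.nodal.val_b
    rw [hb, h0, pow_zero] at this
    exact lt_irrefl _ this
  refine ⟨d * N, k, Nat.mul_pos hd hN, ?_⟩
  rw [pow_mul, hj, zpow_natCast, ← pow_mul, hb, ← pow_mul, mul_comm]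

end Fermat.Agent.Multiplicative
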