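import Fermat.Agent.Multiplicative.Torsion
import Fermat.Agent.CurveTate.Conditions
import Fermat.Agent.OrdKummer.Main
import Mathlib.RingTheory.Nakayama
import Mathlib.RingTheory.Finiteness.Nakayama

/-!
# The Tate module at a prime of multiplicative reduction

At a multiplicative `p` the points with nonsingular reduction in the `p ^ n`-torsion form a line
`L` in `T_p W`, stable under decomposition, with inertia trivial on the quotient and decomposition
acting there by signs: `T_p W` is ordinary, indeed strictly ordinary.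
-/

set_option autoImplicit false

noncomputable section

open scoped Pointwise WeierstrassCurve.Affine
open Fermat.Agent.GaloisBasics (Qbar GalQ)

namespace Fermat.Agent.Multiplicative

open WeierstrassCurve WeierstrassCurve.Affine CurveTate

variable {W : WeierstrassCurve ℤ} {A : ValuationSubring (AlgebraicClosure ℚ)} {p : ℕ}

/-- A compatible system of torsion points with nonsingular reduction, nonzero at level one. -/
theorem exists_tate_line (h : MultAt W A p) :
    ∃ g : tateModule W p, (∀ n, W.InZeroComponentAt A ((g : ℕ → Pts W) n)) ∧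
      (g : ℕ → Pts W) 1 ≠ 0 := by
  have hp := h.prime
  have := fun n => finite_ordinaryTorsion h (n := p ^ n) (pow_ne_zero n hp.ne_zero)
  have hstep : ∀ (n : ℕ) (P : ordinaryTorsion h (p ^ n)),
      ∃ R : ordinaryTorsion h (p ^ (n + 1)), p • (R : (curveQbar W).Point) = P := by
    intro n
    let φ : ordinaryTorsion h (p ^ (n + 1)) →+ ordinaryTorsion h (p ^ n) :=
      { toFun := fun P => ⟨p • (P : (curveQbar W).Point), by
            rw [mem_ordinaryTorsion, ← mul_nsmul', ← pow_succ]
            exact ⟨(mem_ordinaryTorsion h).mp P.2 |>.1, (zeroComponent h).nsmul_mem P.2.2 p⟩⟩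
        map_zero' := Subtype.ext (nsmul_zero _)
        map_add' := fun P Q => Subtype.ext (nsmul_add _ _ _) }
    have hker : Nat.card φ.ker ≤ p := by
      refine le_trans ?_ (card_ordinaryTorsion_prime_le h)
      have := finite_ordinaryTorsion h (n := p) hp.ne_zero
      exact Nat.card_le_card_of_injective
        (fun P => (⟨((P : ordinaryTorsion h (p ^ (n + 1))) : (curveQbar W).Point),
          congrArg Subtype.val (AddMonoidHom.mem_ker.mp P.2),
          (P : ordinaryTorsion h (p ^ (n + 1))).2.2⟩ : ordinaryTorsion h p))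
        (fun P Q hPQ => Subtype.ext (Subtype.ext (congrArg Subtype.val hPQ :)))
    have hprod := AddSubgroup.card_mul_index φ.ker
    rw [AddSubgroup.index_ker, card_ordinaryTorsion h (.inr ⟨n + 1, rfl⟩)] at hprod
    have hrange : Nat.card (ordinaryTorsion h (p ^ n)) ≤ Nat.card φ.range := by
      rw [card_ordinaryTorsion h (.inr ⟨n, rfl⟩)]
      refine Nat.le_of_mul_le_mul_left ?_ hp.pos
      refine le_of_eq_of_le ((pow_succ' p n).symm.trans hprod.symm) ?_
      exact Nat.mul_le_mul_right _ hker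
    intro P
    have htop : φ.range = ⊤ := AddSubgroup.eq_top_of_le_card _ hrange
    obtain ⟨R, hR⟩ := (AddMonoidHom.range_eq_top.mp htop) P
    exact ⟨R, congrArg Subtype.val hR⟩
  choose up hup using hstep
  obtain ⟨G, -, hG, -, hG0, hGdvd, -⟩ := exists_generators h hp 1
  rw [pow_one] at hG hGdvd
  let s : ∀ n, ordinaryTorsion h (p ^ (n + 1)) := fun n =>
    Nat.rec ⟨G, (mem_ordinaryTorsion h).mpr ⟨by simpa using hG, hG0⟩⟩
      (fun k P => up (k + 1) P) n
  let f : ℕ → Pts W := fun n => Nat.casesOn n 0 fun k => (s k).1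
  refine ⟨⟨f, rfl, fun n => ?_⟩, fun n => ?_, fun h0 => ?_⟩
  · rcases n with _ | k
    · show p • G = (0 : (curveQbar W).Point)
      exact hG
    · exact hup (k + 1) (s k)
  · rcases n with _ | k
    · exact .inl rfl
    · exact (s k).2.2
  · exact hp.one_lt.ne' (Nat.dvd_one.mp (hGdvd 1 (by rw [one_nsmul]; exact h0)))

/-- A basis of the Tate module adapted to a multiplicative place: the first vector spans the systems
with nonsingular reduction. -/
theorem exists_tate_frame (h : MultAt W A p) [Fact p.Prime] :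
    ∃ e : Module.Basis (Fin 2) ℤ_[p] (tateModule W p), ∀ f : tateModule W p,
      e.repr f 1 = 0 ↔ ∀ n, W.InZeroComponentAt A ((f : ℕ → Pts W) n) := by
  have hp := h.prime
  obtain ⟨g, hg, hg1⟩ := exists_tate_line h
  obtain ⟨G, Q, hG, hQ, hG0, hGdvd, hQdvd, hgen, hzero⟩ := exists_generators h hp 1
  rw [pow_one] at hG hQ hGdvd hQdvd hgen hzero
  obtain ⟨q, hq⟩ := exists_tate_apply_eq h.Δ_ne_zero hp.ne_zero 1 Q (by rw [pow_one]; exact hQ)
  obtain ⟨c, hc⟩ := hzero ((g : ℕ → Pts W) 1) (by simpa using pow_smul_tate_eq_zero g 1) (hg 1)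
  have hcp : c.Coprime p := ((hp.coprime_iff_not_dvd).mpr fun hd => hg1 (by
    obtain ⟨d, rfl⟩ := hd
    rw [hc, mul_nsmul, hG, nsmul_zero])).symm
  obtain ⟨d, hd⟩ := Nat.exists_mul_mod_eq_one_of_coprime hcp hp.one_lt
  obtain ⟨b⟩ := exists_tateBasis W p h.Δ_ne_zero
  have : Module.Finite ℤ_[p] (tateModule W p) := Module.Finite.of_basis b
  let e₀ : (Fin 2 → ℤ_[p]) →ₗ[ℤ_[p]] tateModule W p := Fintype.linearCombination ℤ_[p] ![g, q]
  have hsum : ∀ z : Fin 2 → ℤ_[p], e₀ z = z 0 • g + z 1 • q := fun z => by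
    simp [e₀, Fintype.linearCombination_apply, Fin.sum_univ_two]
  have hcoord : ∀ (z : Fin 2 → ℤ_[p]) (n i j : ℕ), PadicInt.toZModPow n (z 0) = i →
      PadicInt.toZModPow n (z 1) = j → ((e₀ z : tateModule W p) : ℕ → Pts W) n =
        i • (g : ℕ → Pts W) n + j • (q : ℕ → Pts W) n := fun z n i j h0 h1 => by
    rw [hsum, AddSubgroup.coe_add, Pi.add_apply, smul_tate_apply_of_eq _ h0,
      smul_tate_apply_of_eq _ h1]
  have hsurj : Function.Surjective e₀ := by
    rw [← LinearMap.range_eq_top, eq_top_iff]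
    refine Submodule.le_of_le_smul_of_le_jacobson_bot (I := IsLocalRing.maximalIdeal ℤ_[p])
      Module.Finite.fg_top (IsLocalRing.maximalIdeal_le_jacobson _) fun f _ => ?_
    obtain ⟨i, j, hij⟩ := hgen ((f : ℕ → Pts W) 1) (by simpa using pow_smul_tate_eq_zero f 1)
    have hi : i • G = (i * d) • (g : ℕ → Pts W) 1 := by
      rw [hc, ← mul_nsmul']
      refine nsmul_eq_nsmul_iff_modEq.mpr (Nat.ModEq.of_dvd
        (addOrderOf_dvd_of_nsmul_eq_zero hG) ?_)
      have hd' : c * d ≡ 1 [MOD p] := by rw [Nat.ModEq, hd.2, Nat.mod_eq_of_lt hp.one_lt]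
      calc i = i * 1 := (mul_one i).symm
        _ ≡ i * (c * d) [MOD p] := (hd'.symm).mul_left i
        _ = i * d * c := by ring
    set w : Fin 2 → ℤ_[p] := ![((i * d : ℕ) : ℤ_[p]), (j : ℤ_[p])]
    have h1 : proj W p 1 (f - e₀ w) = 0 := by
      rw [map_sub, sub_eq_zero]
      apply Subtype.ext
      rw [coe_proj, coe_proj, hcoord w 1 (i * d) j (map_natCast _ _) (map_natCast _ _)]
      exact hij.trans (congrArg₂ (· + ·) hi (congrArg (j • ·) hq.symm))
    obtain ⟨u, hu⟩ := (proj_eq_zero_iff h.Δ_ne_zero 1 _).mp h1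
    rw [← add_sub_cancel (e₀ w) f, hu]
    refine Submodule.add_mem_sup (LinearMap.mem_range_self e₀ w) ?_
    exact Submodule.smul_mem_smul (by rw [pow_one]; exact natCast_mem_maximalIdeal)
      Submodule.mem_top
  have hinj : Function.Injective e₀ := by
    have hs' : Function.Surjective (b.equivFun.toLinearMap.comp e₀) :=
      b.equivFun.surjective.comp hsurj
    intro x y hxy
    exact OrzechProperty.injective_of_surjective_endomorphism _ hs' (congrArg b.equivFun hxy)
  refine ⟨Module.Basis.ofEquivFun (LinearEquiv.ofBijective e₀ ⟨hinj, hsurj⟩).symm, fun f => ?_⟩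
  obtain ⟨z, rfl⟩ := hsurj f
  rw [Module.Basis.ofEquivFun_repr_apply,
    show (LinearEquiv.ofBijective e₀ ⟨hinj, hsurj⟩).symm (e₀ z) = z from
      (LinearEquiv.ofBijective e₀ ⟨hinj, hsurj⟩).symm_apply_apply z]
  have hap : ∀ n, ((e₀ z : tateModule W p) : ℕ → Pts W) n =
      (z 0).appr n • (g : ℕ → Pts W) n + (z 1).appr n • (q : ℕ → Pts W) n := fun n =>
    hcoord z n _ _ (toZModPow_appr _ _) (toZModPow_appr _ _)
  constructor
  · intro hz n
    have h' : ((e₀ z : tateModule W p) : ℕ → Pts W) n = (z 0).appr n • (g : ℕ → Pts W) n := by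
      rw [hcoord z n _ 0 (toZModPow_appr _ _) (by rw [hz, map_zero, Nat.cast_zero]), zero_nsmul,
        add_zero]
    exact h'.symm ▸ (zeroComponent h).nsmul_mem (hg n) _
  · intro hall
    refine PadicInt.ext_of_toZModPow.mp fun n => ?_
    rw [map_zero, toZModPow_appr, ZMod.natCast_eq_zero_iff]
    have hmem : W.InZeroComponentAt A ((z 1).appr n • (q : ℕ → Pts W) n) := by
      exact ((zeroComponent h).add_mem_cancel_left ((zeroComponent h).nsmul_mem (hg n) _)).mp
        (hap n ▸ hall n)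
    -- `q n` has component of exact order `p ^ n`
    suffices key : ∀ k a : ℕ, W.InZeroComponentAt A (a • (q : ℕ → Pts W) k) → p ^ k ∣ a from
      key n _ hmem
    intro k
    induction k with
    | zero => simp
    | succ k ih =>
      intro a ha
      have e1 : p ^ k • (a • (q : ℕ → Pts W) (k + 1)) = a • Q := by
        rw [smul_comm, add_comm k 1, tate_pow_smul q 1 k, hq]
      obtain ⟨a', rfl⟩ := hQdvd a (e1 ▸ (zeroComponent h).nsmul_mem ha _)
      rw [pow_succ']
      refine Nat.mul_dvd_mul_left p (ih a' ?_)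
      have e2 : (p * a') • (q : ℕ → Pts W) (k + 1) = a' • (q : ℕ → Pts W) k := by
        rw [mul_comm, mul_nsmul', tate_succ]
      exact e2 ▸ ha

/-- An adapted basis is an ordinary frame, and decomposition acts on the quotient by signs. -/
theorem exists_isOrdFrame_tateRep (h : MultAt W A p) [Fact p.Prime] :
    ∃ e : Module.Basis (Fin 2) ℤ_[p] (tateRep W p h.Δ_ne_zero).V,
      OrdKummer.IsOrdFrame (tateRep W p h.Δ_ne_zero) A e ∧
      (∀ σ ∈ A.decompositionSubgroup ℚ,
        OrdKummer.entry (tateRep W p h.Δ_ne_zero) e σ 1 1 ^ 2 = 1) := by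
  obtain ⟨e, he⟩ := exists_tate_frame h
  refine ⟨e, ⟨fun σ hσ => ?_, fun σ hσ => ?_⟩, fun σ hσ => ?_⟩
  · show e.repr (σ • e 0) 1 = 0
    rw [he]
    intro n
    refine smul_inZeroComponentAt h hσ ((he (e 0)).mp ?_ n)
    simp
  · show e.repr (σ • e 1) 1 = 1
    have h1 : e.repr (σ • e 1 - e 1) 1 = 0 :=
      (he _).mpr fun n => smul_sub_inZeroComponentAt h hσ _
    rw [map_sub, Finsupp.sub_apply, sub_eq_zero] at h1
    rw [h1]
    simp
  · obtain ⟨ε, hε, hall, -⟩ := exists_sign h hσ
    have h1 : e.repr (σ • e 1 - (ε : ℤ_[p]) • e 1) 1 = 0 := (he _).mpr fun n => by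
      have e2 : ((σ • e 1 - (ε : ℤ_[p]) • e 1 : tateModule W p) : ℕ → Pts W) n =
          σ • (e 1 : ℕ → Pts W) n - ε • (e 1 : ℕ → Pts W) n := by
        rw [show (ε : ℤ_[p]) • e 1 = ε • e 1 from Int.cast_smul_eq_zsmul ℤ_[p] ε (e 1)]
        rfl
      exact e2.symm ▸ hall _
    show e.repr (σ • e 1) 1 ^ 2 = 1
    rw [map_sub, e.repr.map_smul (ε : ℤ_[p]), Finsupp.sub_apply, sub_eq_zero] at h1
    rw [h1, Finsupp.smul_apply, e.repr_self, Finsupp.single_eq_same, smul_eq_mul, mul_one]
    rcases hε with rfl | rfl <;> norm_num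

/-- **The Tate module is strictly ordinary at a multiplicative prime.** -/
theorem isStrictOrdinaryAt_tateRep (W : WeierstrassCurve ℤ) (hΔ : W.Δ ≠ 0) (p : ℕ) [Fact p.Prime]
    (hpΔ : (p : ℤ) ∣ W.Δ) (hc₄ : ¬ (p : ℤ) ∣ W.c₄) : (tateRep W p hΔ).IsStrictOrdinaryAt p := by
  obtain ⟨A, hA⟩ := GaloisBasics.exists_liesOverPrime (Fact.out : p.Prime)
  obtain ⟨e, hfr, hz⟩ := exists_isOrdFrame_tateRep (A := A) ⟨Fact.out, hA, hpΔ, hc₄, hΔ⟩
  exact hfr.isStrictOrdinaryAt (detIsCyclotomic_tateRep W p hΔ) hA Fact.out hz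

end Fermat.Agent.Multiplicative
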