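import Fermat.Agent.Multiplicative.Automorphism
import Mathlib.Algebra.Polynomial.Roots
import Mathlib.Algebra.CharP.Lemmas

/-!
# `p`-torsion of the nodal normal form in residue characteristic `p`

The points of order dividing `p` reducing to infinity inject additively into the residue field by
`P ↦ res (uPt P / (ζ - 1))`, with image in the prime field; in particular there are at most `p` of
them, and an automorphism with `ζ ↦ ζ ^ m` acts on them as multiplication by `m`.
-/

set_option autoImplicit false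

noncomputable section

namespace Fermat.Agent.Multiplicative

open WeierstrassCurve WeierstrassCurve.Affine Polynomial

variable {K : Type*} [Field K] {a b : K} {A : ValuationSubring K}

local notation "v" => ValuationSubring.valuation A

section

variable (hN : IsNodal A a b) {p : ℕ} (hp : p.Prime) (hpv : A.valuation (p : K) < 1)
  (hbp : A.valuation b ≤ A.valuation (p : K)) {ζ : K} (hζ : ζ ^ p = 1) (hζ1 : ζ ≠ 1)

include hp hpv in
/-- The residue field has characteristic `p` when `|p| < 1`. -/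
theorem charP_residueField : CharP (IsLocalRing.ResidueField A) p := by
  refine (CharP.charP_iff_prime_eq_zero hp).mpr ?_
  rw [← res_natCast, res_eq_zero_iff hpv.le]
  exact hpv

include hp hpv hζ in
theorem val_zeta_sub_one_lt : v (ζ - 1) < 1 := by
  have := Fact.mk hp
  have := charP_residueField (A := A) hp hpv
  have hz : v ζ = 1 := by
    have h := congrArg A.valuation hζ
    rw [map_pow, map_one] at h
    exact (pow_eq_one_iff.mp h).resolve_right hp.ne_zero
  rw [← res_eq_iff hz.le (Valuation.map_one _).le, res_one]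
  have h : res A ζ ^ p = 1 := by rw [← res_pow hz.le, hζ, res_one]
  have h0 : (res A ζ - 1) ^ p = 0 := by rw [sub_pow_char, h, one_pow, sub_self]
  exact sub_eq_zero.mp (pow_eq_zero_iff hp.ne_zero |>.mp h0)

include hp hpv hζ hζ1 in
/-- `(ζ - 1) ^ (p - 1) = -p ρ` with `ρ` a principal unit. -/
theorem zeta_sub_one_pow : ∃ ρ : K, v (ρ - 1) < 1 ∧ (ζ - 1) ^ (p - 1) = -(p * ρ) ∧
    v (ζ - 1) ^ (p - 1) = v (p : K) := by
  obtain ⟨ρ, hρ, h⟩ := one_add_pow_prime (A := A) hp (ζ - 1) (val_zeta_sub_one_lt hp hpv hζ)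
  rw [add_sub_cancel, hζ] at h
  have hne : ζ - 1 ≠ 0 := sub_ne_zero.mpr hζ1
  have heq : (ζ - 1) ^ (p - 1) = -(p * ρ) := by
    refine mul_right_cancel₀ hne ?_
    rw [← pow_succ, Nat.sub_add_cancel hp.one_le]
    linear_combination -h
  refine ⟨ρ, hρ, heq, ?_⟩
  rw [← map_pow, heq, Valuation.map_neg, map_mul]
  have : v ρ = 1 := by
    rw [show ρ = 1 + (ρ - 1) by ring,
      Valuation.map_add_eq_of_lt_left _ (by rwa [map_one]), map_one]
  rw [this, mul_one]

include hN hp hpv hbp hζ hζ1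

variable [DecidableEq K] [IsAlgClosed K]

/-- The size of a torsion point of order `p` in the kernel of reduction. -/
theorem IsNodal.torsion_prime_val {P : NPoint a b} (hP : InG1 A P) (h0 : p • P = 0) :
    InFil A (ζ - 1)⁻¹ P ∧ v (uPt P) ≤ v (ζ - 1) ∧ (P ≠ 0 → v (uPt P) = v (ζ - 1)) := by
  obtain ⟨ρ₀, -, -, hπ⟩ := zeta_sub_one_pow (A := A) hp hpv hζ hζ1
  by_cases hne : P = 0
  · subst hne; simp
  obtain ⟨c, ρ, hc, hfil, hu, -, hup, -⟩ := hN.torsion_prime hp hpv hbp hP hne h0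
  have heq : v (uPt P) = v (ζ - 1) :=
    (pow_left_inj₀ zero_le zero_le (by have := hp.two_le; omega)).mp (hup.trans hπ.symm)
  refine ⟨?_, heq.le, fun _ => heq⟩
  match P, hfil with
  | .zero, _ => trivial
  | .some x y hn, hfil =>
    rw [inFil_some] at hfil ⊢
    have hvc : v (ζ - 1)⁻¹ = v c := by
      rw [map_inv₀, ← heq]
      exact inv_eq_of_mul_eq_one_right hu
    rwa [hvc]

omit hN hbp [DecidableEq K] [IsAlgClosed K] in
theorem val_zeta_inv : 1 ≤ v (ζ - 1)⁻¹ := by
  rw [map_inv₀, one_le_inv₀ (zero_lt_iff.mpr ((Valuation.ne_zero_iff _).mpr (sub_ne_zero.mpr hζ1)))]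
  exact (val_zeta_sub_one_lt hp hpv hζ).le

/-- `uPt` is additive modulo smaller terms on `p`-torsion reducing to infinity. -/
theorem IsNodal.uPt_add_congr {P Q : NPoint a b} (hP : InG1 A P) (hP0 : p • P = 0)
    (hQ : InG1 A Q) (hQ0 : p • Q = 0) :
    v (uPt (P + Q) - uPt P - uPt Q) < v (ζ - 1) := by
  set π := ζ - 1
  have hπlt : v π < 1 := val_zeta_sub_one_lt hp hpv hζ
  have hπpos : 0 < v π := zero_lt_iff.mpr ((Valuation.ne_zero_iff _).mpr (sub_ne_zero.mpr hζ1))
  have hc := val_zeta_inv (A := A) hp hpv hζ hζ1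
  obtain ⟨hfP, huP, -⟩ := hN.torsion_prime_val hp hpv hbp hζ hζ1 hP hP0
  obtain ⟨hfQ, huQ, -⟩ := hN.torsion_prime_val hp hpv hbp hζ hζ1 hQ hQ0
  obtain ⟨hS, ε, hε, he⟩ := hN.inFil_add hc hfP hfQ
  have huS : v (uPt (P + Q)) ≤ v π := by
    have := hN.val_uPt_mul hc hS
    rwa [map_inv₀, ← div_eq_mul_inv, div_le_one₀ hπpos] at this
  have hεlt : v ε < v π := by
    rw [map_inv₀, inv_pow, ← div_eq_mul_inv, div_le_iff₀ (pow_pos hπpos 7)] at hε
    refine lt_of_le_of_lt hε ?_
    calc v b * v π ^ 7 ≤ v b * v π := mul_le_mul_right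
            (pow_le_of_le_one zero_le hπlt.le (by norm_num)) _
      _ < 1 * v π := mul_lt_mul_of_pos_right hN.val_b hπpos
      _ = v π := one_mul _
  rw [show uPt (P + Q) - uPt P - uPt Q = uPt P * uPt Q - ε * (1 + uPt (P + Q)) by
    linear_combination -he]
  refine Valuation.map_sub_lt _ ?_ ?_
  · rw [map_mul]
    calc v (uPt P) * v (uPt Q) ≤ v π * v π := mul_le_mul' huP huQ
      _ < 1 * v π := mul_lt_mul_of_pos_right hπlt hπpos
      _ = v π := one_mul _
  · rw [map_mul]
    refine lt_of_le_of_lt (mul_le_of_le_one_right' ?_) hεlt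
    exact (Valuation.map_add _ _ _).trans (max_le (Valuation.map_one _).le (huS.trans hπlt.le))

omit hN hp hpv hbp hζ hζ1 [DecidableEq K] [IsAlgClosed K] in
/-- The leading coefficient of a small torsion point. -/
def lead (A : ValuationSubring K) (ζ : K) (P : NPoint a b) : IsLocalRing.ResidueField A :=
  res A (uPt P / (ζ - 1))

theorem IsNodal.val_uPt_div {P : NPoint a b} (hP : InG1 A P) (h0 : p • P = 0) :
    v (uPt P / (ζ - 1)) ≤ 1 := by
  rw [map_div₀, div_le_one₀ (zero_lt_iff.mpr ((Valuation.ne_zero_iff _).mpr (sub_ne_zero.mpr hζ1)))]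
  exact (hN.torsion_prime_val hp hpv hbp hζ hζ1 hP h0).2.1

/-- The leading coefficient `lead` is additive. -/
theorem IsNodal.lead_add {P Q : NPoint a b} (hP : InG1 A P) (hP0 : p • P = 0)
    (hQ : InG1 A Q) (hQ0 : p • Q = 0) :
    lead A ζ (P + Q) = lead A ζ P + lead A ζ Q := by
  have hS := hN.inG1_add hP hQ
  have hS0 : p • (P + Q) = 0 := by rw [nsmul_add, hP0, hQ0, add_zero]
  have h1 := hN.val_uPt_div hp hpv hbp hζ hζ1 hP hP0
  have h2 := hN.val_uPt_div hp hpv hbp hζ hζ1 hQ hQ0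
  rw [lead, lead, lead, ← res_add h1 h2, res_eq_iff (hN.val_uPt_div hp hpv hbp hζ hζ1 hS hS0)
    ((Valuation.map_add _ _ _).trans (max_le h1 h2)), ← sub_sub, ← sub_div, ← sub_div, map_div₀,
    div_lt_one₀ (zero_lt_iff.mpr ((Valuation.ne_zero_iff _).mpr (sub_ne_zero.mpr hζ1)))]
  exact hN.uPt_add_congr hp hpv hbp hζ hζ1 hP hP0 hQ hQ0

/-- The leading coefficient is injective. -/
theorem IsNodal.lead_eq_zero {P : NPoint a b} (hP : InG1 A P) (h0 : p • P = 0)
    (hl : lead A ζ P = 0) : P = 0 := by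
  by_contra hne
  rw [lead, res_eq_zero_iff (hN.val_uPt_div hp hpv hbp hζ hζ1 hP h0), map_div₀,
    (hN.torsion_prime_val hp hpv hbp hζ hζ1 hP h0).2.2 hne, div_self] at hl
  · exact lt_irrefl _ hl
  · exact (Valuation.ne_zero_iff _).mpr (sub_ne_zero.mpr hζ1)

/-- The leading coefficient lies in the prime field. -/
theorem IsNodal.lead_pow {P : NPoint a b} (hP : InG1 A P) (h0 : p • P = 0) :
    lead A ζ P ^ p = lead A ζ P := by
  by_cases hne : P = 0
  · subst hne; simp [lead, hp.ne_zero]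
  obtain ⟨ρ₀, hρ₀, hπeq, hπv⟩ := zeta_sub_one_pow (A := A) hp hpv hζ hζ1
  obtain ⟨c, ρ, -, -, -, hρ, -, hsmall⟩ := hN.torsion_prime hp hpv hbp hP hne h0
  have ht := hN.val_uPt_div hp hpv hbp hζ hζ1 hP h0
  have heq := (hN.torsion_prime_val hp hpv hbp hζ hζ1 hP h0).2.2 hne
  set π := ζ - 1
  have hπ0 : π ≠ 0 := sub_ne_zero.mpr hζ1
  have hπpos : 0 < v π := zero_lt_iff.mpr ((Valuation.ne_zero_iff _).mpr hπ0)
  have hπp : π ^ p = -(p * ρ₀) * π := by
    rw [← hπeq, ← pow_succ, Nat.sub_add_cancel hp.one_le]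
  have hppos : 0 < v (p : K) := hπv ▸ pow_pos hπpos _
  rw [lead, ← res_pow ht, res_eq_iff (by rw [map_pow]; exact pow_le_one' ht p) ht]
  set u := uPt P
  set t := u / π with htdef
  have hu : u = t * π := by rw [htdef, div_mul_cancel₀ _ hπ0]
  have hid : u ^ p + p * u * ρ = p * π * (-(ρ₀ * (t ^ p - t)) + t * (ρ - ρ₀)) := by
    rw [hu, mul_pow, hπp]; ring
  rw [hid, map_mul, map_mul, heq] at hsmall
  have h1 : v (-(ρ₀ * (t ^ p - t)) + t * (ρ - ρ₀)) < 1 := by
    refine lt_of_mul_lt_mul_left' (a := v (p : K) * v π) ?_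
    rwa [mul_one]
  have h2 : v (t * (ρ - ρ₀)) < 1 := by
    rw [map_mul]
    refine mul_lt_one_of_nonneg_of_lt_one_right ht zero_le ?_
    rw [← sub_sub_sub_cancel_right ρ ρ₀ 1]
    exact Valuation.map_sub_lt _ hρ hρ₀
  have h3 : v (ρ₀ * (t ^ p - t)) < 1 := by
    rw [show ρ₀ * (t ^ p - t) = t * (ρ - ρ₀) - (-(ρ₀ * (t ^ p - t)) + t * (ρ - ρ₀)) by ring]
    exact Valuation.map_sub_lt _ h2 h1
  have hρ₀1 : v ρ₀ = 1 := by
    rw [show ρ₀ = 1 + (ρ₀ - 1) by ring,
      Valuation.map_add_eq_of_lt_left _ (by rwa [map_one]), map_one]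
  rwa [map_mul, hρ₀1, one_mul] at h3

/-- At most `p` points of order dividing `p` reduce to infinity. -/
theorem IsNodal.card_inG1_prime_le (T : AddSubgroup (NPoint a b))
    (hT : ∀ P ∈ T, InG1 A P ∧ p • P = 0) : Nat.card T ≤ p := by
  classical
  set S := ((X ^ p - X : (IsLocalRing.ResidueField A)[X]).roots).toFinset
  have hpoly : (X ^ p - X : (IsLocalRing.ResidueField A)[X]) ≠ 0 :=
    FiniteField.X_pow_card_sub_X_ne_zero _ hp.one_lt
  let φ : T → S := fun P => ⟨lead A ζ (P : NPoint a b), by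
    rw [Multiset.mem_toFinset, mem_roots hpoly]
    simp [hN.lead_pow hp hpv hbp hζ hζ1 (hT _ P.2).1 (hT _ P.2).2]⟩
  have hinj : Function.Injective φ := by
    intro P Q h
    have h' : lead A ζ (P : NPoint a b) = lead A ζ (Q : NPoint a b) := congrArg Subtype.val h
    obtain ⟨hR, hR0⟩ := hT _ (T.sub_mem P.2 Q.2)
    have hadd := hN.lead_add hp hpv hbp hζ hζ1 hR hR0 (hT _ Q.2).1 (hT _ Q.2).2
    rw [sub_add_cancel, h', right_eq_add] at hadd
    exact Subtype.ext (sub_eq_zero.mp (hN.lead_eq_zero hp hpv hbp hζ hζ1 hR hR0 hadd))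
  refine (Nat.card_le_card_of_injective φ hinj).trans ?_
  rw [Nat.card_eq_fintype_card, Fintype.card_coe]
  refine (Multiset.toFinset_card_le _).trans ((card_roots' _).trans ?_)
  rw [FiniteField.X_pow_card_sub_X_natDegree_eq _ hp.one_lt]

/-- An automorphism trivial on the residue field with `ζ ↦ ζ ^ m` multiplies the small
`p`-torsion by `m`. -/
theorem IsNodal.conj_eq_nsmul {σ : K →+* K}
    (hres : ∀ x, v x ≤ 1 → v (σ x - x) < 1) (hiso : ∀ x, v (σ x) = v x) (ha : σ a = a) {m : ℕ}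
    (hm : σ ζ = ζ ^ m) {P P' : NPoint a b} (hc : Conj σ P P') (hP : InG1 A P) (h0 : p • P = 0)
    (h0' : p • P' = 0) : P' = m • P := by
  have hP' : InG1 A P' := by
    match P, hc with
    | .zero, hc => subst hc; trivial
    | .some x y hn, ⟨h', he⟩ => subst he; rw [inG1_some] at hP ⊢; rwa [hiso]
  have hz : v ζ = 1 := by
    have h := congrArg A.valuation hζ
    rw [map_pow, map_one] at h
    exact (pow_eq_one_iff.mp h).resolve_right hp.ne_zero
  have hgeom : v (∑ i ∈ Finset.range m, ζ ^ i) ≤ 1 :=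
    Valuation.map_sum_le _ fun i _ => by rw [map_pow, hz, one_pow]
  have hnsmul : ∀ k : ℕ, InG1 A (k • P) ∧ p • (k • P) = 0 ∧
      lead A ζ (k • P) = k * lead A ζ P := by
    intro k
    induction k with
    | zero => exact ⟨by simp, by simp, by simp [lead]⟩
    | succ k ih =>
      obtain ⟨i1, i2, i3⟩ := ih
      refine ⟨?_, ?_, ?_⟩
      · rw [succ_nsmul]; exact hN.inG1_add i1 hP
      · rw [succ_nsmul, nsmul_add, i2, h0, add_zero]
      · rw [succ_nsmul, hN.lead_add hp hpv hbp hζ hζ1 i1 i2 hP h0, i3]; push_cast; ring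
  obtain ⟨hm1, hm2, hm3⟩ := hnsmul m
  have ht := hN.val_uPt_div hp hpv hbp hζ hζ1 hP h0
  have hlead : lead A ζ P' = lead A ζ (m • P) := by
    rw [hm3]
    have hsum : res A (∑ i ∈ Finset.range m, ζ ^ i) = m := by
      have h1 : res A ζ = 1 := by
        rw [← res_one (A := A), res_eq_iff hz.le (Valuation.map_one _).le]
        exact val_zeta_sub_one_lt hp hpv hζ
      clear hm hm1 hm2 hm3 hgeom
      induction m with
      | zero => simp
      | succ m ih =>
        rw [Finset.sum_range_succ, res_add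
          (Valuation.map_sum_le _ fun i _ => by rw [map_pow, hz, one_pow])
          (by rw [map_pow, hz, one_pow]), ih, res_pow hz.le, h1, one_pow]
        push_cast; ring
    have hσ : uPt P' / (ζ - 1) = σ (uPt P / (ζ - 1)) * ∑ i ∈ Finset.range m, ζ ^ i := by
      have hne : ζ - 1 ≠ 0 := sub_ne_zero.mpr hζ1
      rw [hc.uPt_eq ha, map_div₀, map_sub, map_one, hm, ← geom_sum_mul]
      rcases eq_or_ne (∑ i ∈ Finset.range m, ζ ^ i) 0 with h | h
      · exfalso
        have : σ (ζ - 1) = 0 := by rw [map_sub, map_one, hm, ← geom_sum_mul, h, zero_mul]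
        exact hne ((map_eq_zero σ).mp this)
      · field_simp
    have hres' : res A (σ (uPt P / (ζ - 1))) = res A (uPt P / (ζ - 1)) :=
      (res_eq_iff (by rw [hiso]; exact ht) ht).mpr (hres _ ht)
    rw [lead, hσ, res_mul (by rw [hiso]; exact ht) hgeom, hres', hsum, lead, mul_comm]
  have hR := hN.inG1_sub hP' hm1
  have hR0 : p • (P' - m • P) = 0 := by rw [nsmul_sub, h0', hm2, sub_zero]
  have hadd := hN.lead_add hp hpv hbp hζ hζ1 hR hR0 hm1 hm2
  rw [sub_add_cancel, hlead, right_eq_add] at hadd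
  exact sub_eq_zero.mp (hN.lead_eq_zero hp hpv hbp hζ hζ1 hR hR0 hadd)

end

end Fermat.Agent.Multiplicative
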