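import Fermat.Agent.Multiplicative.Galois
import Fermat.Agent.Multiplicative.NodalWild
import Fermat.Agent.ECTorsion.Galois
import Mathlib.RingTheory.RootsOfUnity.EnoughRootsOfUnity
import Mathlib.RingTheory.RootsOfUnity.AlgebraicallyClosed

/-!
# The structure of torsion at a prime of multiplicative reduction

`ordinaryTorsion h n` is the group of `n`-torsion points with nonsingular reduction at `A`.

* `card_ordinaryTorsion` : it has `n` elements for `n` prime to `q` and for `n = q ^ k`;
* `exists_generators` : it is cyclic, and `E[n]` is generated by it and one further point whose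
  multiples `j • Q` have nonsingular reduction only for `n ∣ j`;
* `inKernelAt_of_pow_nsmul` : for `n = q ^ k` it reduces to infinity;
* `smul_eq_nsmul_of_rootsOfUnity` : on it inertia acts by the cyclotomic character mod `q`.

The quotient `E[n] / ordinaryTorsion` is fixed by inertia and acted on by a sign by the
decomposition group: see `smul_sub_inZeroComponentAt` and `exists_sign`.
-/

set_option autoImplicit false

noncomputable section

open scoped WeierstrassCurve.Affine

namespace Fermat.Agent.Multiplicative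

open WeierstrassCurve WeierstrassCurve.Affine

local notation "Qb" => AlgebraicClosure ℚ

variable {W : WeierstrassCurve ℤ} {A : ValuationSubring (AlgebraicClosure ℚ)} {q : ℕ}

/-- The `n`-torsion as a subgroup of the point group. -/
def torsionSubgroup (W : WeierstrassCurve ℤ) (n : ℕ) : AddSubgroup (curveQbar W).Point :=
  (nsmulAddMonoidHom n : (curveQbar W).Point →+ (curveQbar W).Point).ker

@[simp] theorem mem_torsionSubgroup {n : ℕ} {P : (curveQbar W).Point} :
    P ∈ torsionSubgroup W n ↔ n • P = 0 := Iff.rfl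

theorem card_torsionSubgroup (hΔ : W.Δ ≠ 0) {n : ℕ} (hn : n ≠ 0) :
    Nat.card (torsionSubgroup W n) = n ^ 2 := by
  rw [← ECTorsion.card_torsionBy_int W hΔ hn]
  refine Nat.card_congr (Equiv.subtypeEquivRight fun P => ?_)
  exact (mem_torsionSubgroup).trans (by
    rw [Submodule.mem_torsionBy_iff, natCast_zsmul])

theorem finite_torsionSubgroup (hΔ : W.Δ ≠ 0) {n : ℕ} (hn : n ≠ 0) :
    Finite (torsionSubgroup W n) :=
  Nat.finite_of_card_ne_zero (by rw [card_torsionSubgroup hΔ hn]; positivity)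

/-- The `n`-torsion points with nonsingular reduction at `A`. -/
def ordinaryTorsion (h : MultAt W A q) (n : ℕ) : AddSubgroup (curveQbar W).Point :=
  torsionSubgroup W n ⊓ zeroComponent h

/-- Membership in `ordinaryTorsion`. -/
@[simp] theorem mem_ordinaryTorsion (h : MultAt W A q) {n : ℕ} {P : (curveQbar W).Point} :
    P ∈ ordinaryTorsion h n ↔ n • P = 0 ∧ W.InZeroComponentAt A P := Iff.rfl

/-- There are finitely many torsion points with nonsingular reduction. -/
theorem finite_ordinaryTorsion (h : MultAt W A q) {n : ℕ} (hn : n ≠ 0) :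
    Finite (ordinaryTorsion h n) :=
  haveI := finite_torsionSubgroup h.Δ_ne_zero hn
  Finite.of_injective (AddSubgroup.inclusion (inf_le_left : ordinaryTorsion h n ≤ _))
    (AddSubgroup.inclusion_injective _)

/-- The decomposition group preserves nonsingular reduction. -/
theorem smul_inZeroComponentAt (h : MultAt W A q) {σ : Qb ≃ₐ[ℚ] Qb}
    (hσ : σ ∈ A.decompositionSubgroup ℚ) {P : (curveQbar W).Point}
    (hP : W.InZeroComponentAt A P) : W.InZeroComponentAt A (σ • P) := by
  obtain ⟨ε, -, hε, -⟩ := exists_sign h hσ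
  rw [← sub_add_cancel (σ • P) (ε • P)]
  exact (zeroComponent h).add_mem (hε P) ((zeroComponent h).zsmul_mem hP ε)

/-- `E[n]` meets at most `m` components of exponent `m`. -/
theorem card_le_mul (h : MultAt W A q) {m n : ℕ} (hm : 0 < m) (hn : n ≠ 0)
    (hmn : ∀ P ∈ torsionSubgroup W n, W.InZeroComponentAt A (m • P)) :
    n ^ 2 ≤ m * Nat.card (ordinaryTorsion h n) := by
  classical
  set F := h.frame
  obtain ⟨lab, hlab⟩ := F.nodal.exists_component_label hm (F.val_commensurable h)
  have := finite_torsionSubgroup h.Δ_ne_zero hn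
  have := finite_ordinaryTorsion h hn
  set T := torsionSubgroup W n
  let f : T → Fin m := fun P => lab (F.Φ P)
  have hf : ∀ P Q : T, f P = f Q → W.InZeroComponentAt A
      ((P : (curveQbar W).Point) - (Q : (curveQbar W).Point)) := by
    intro P Q he
    rw [← F.inG0_Φ_iff, map_sub]
    refine hlab _ _ ?_ ?_ he <;> rw [← map_nsmul, F.inG0_Φ_iff]
    exacts [hmn _ P.2, hmn _ Q.2]
  let rep : Fin m → T := Function.invFun f
  have hrep : ∀ P : T, f (rep (f P)) = f P := fun P => Function.invFun_eq ⟨P, rfl⟩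
  let φ : T → Fin m × ordinaryTorsion h n := fun P => (f P,
    ⟨(P : (curveQbar W).Point) - (rep (f P) : (curveQbar W).Point), T.sub_mem P.2 (rep (f P)).2,
      hf P _ (hrep P).symm⟩)
  have hinj : Function.Injective φ := by
    intro P Q he
    obtain ⟨h1, h2⟩ := Prod.ext_iff.mp he
    have h1' : f P = f Q := h1
    have h2' : (P : (curveQbar W).Point) - (rep (f P) : (curveQbar W).Point) =
        (Q : (curveQbar W).Point) - (rep (f Q) : (curveQbar W).Point) := congrArg Subtype.val h2
    rw [h1'] at h2'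
    exact Subtype.ext (sub_left_inj.mp h2')
  have := Nat.card_le_card_of_injective φ hinj
  rwa [Nat.card_prod, Nat.card_fin, card_torsionSubgroup h.Δ_ne_zero hn] at this

/-- There are at least `n` ordinary `n`-torsion points. -/
theorem le_card_ordinaryTorsion (h : MultAt W A q) {n : ℕ} (hn : n ≠ 0) :
    n ≤ Nat.card (ordinaryTorsion h n) := by
  have := card_le_mul h (Nat.pos_of_ne_zero hn) hn
    (fun P hP => by rw [mem_torsionSubgroup.mp hP]; exact .inl rfl)
  rw [sq] at this
  exact Nat.le_of_mul_le_mul_left this (Nat.pos_of_ne_zero hn)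

/-- `|b| ≤ |q|` in the normal form. -/
theorem val_b_le_q (h : MultAt W A q) : A.valuation h.frame.b ≤ A.valuation (q : Qb) := by
  rw [h.frame.val_b, val_intCast_eq_pow h.liesOver h.prime h.Δ_ne_zero]
  refine pow_le_of_le_one zero_le (val_q_lt_one h.liesOver).le ?_
  have : Fact q.Prime := ⟨h.prime⟩
  intro h0
  rcases (padicValInt_dvd_iff 1 W.Δ).mp (by simpa using h.dvd_Δ) with h' | h'
  · exact h.Δ_ne_zero h'
  · omega

/-- `q`-power torsion with nonsingular reduction reduces to infinity. -/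
theorem inKernelAt_of_pow_nsmul (h : MultAt W A q) {k : ℕ} {P : (curveQbar W).Point}
    (hP : W.InZeroComponentAt A P) (h0 : q ^ k • P = 0) : InKernelAt W A P := by
  have := Fact.mk h.prime
  have := charP_residueField (A := A) h.prime (val_q_lt_one h.liesOver)
  have hP' := (h.frame.inG0_Φ_iff P).mpr hP
  rw [← h.frame.inG1_Φ_iff, ← h.frame.nodal.red_eq_one_iff hP']
  have h1 : red A (h.frame.Φ P) ^ q ^ k = 1 := by
    rw [← h.frame.nodal.red_nsmul hP', ← map_nsmul, h0, map_zero, red_zero]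
  have h2 : (red A (h.frame.Φ P) - 1) ^ q ^ k = 0 := by
    rw [sub_pow_char_pow, h1, one_pow, sub_self]
  exact sub_eq_zero.mp ((pow_eq_zero_iff (pow_ne_zero k h.prime.ne_zero)).mp h2)

/-- At most `q` points of order dividing `q` have nonsingular reduction. -/
theorem card_ordinaryTorsion_prime_le (h : MultAt W A q) :
    Nat.card (ordinaryTorsion h q) ≤ q := by
  have : NeZero (q : Qb) := ⟨Nat.cast_ne_zero.mpr h.prime.ne_zero⟩
  obtain ⟨ζ, hζ⟩ := HasEnoughRootsOfUnity.exists_primitiveRoot (AlgebraicClosure ℚ) q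
  set F := h.frame
  rw [Nat.card_congr ((ordinaryTorsion h q).equivMapOfInjective F.Φ.toAddMonoidHom
    F.Φ.injective).toEquiv]
  refine F.nodal.card_inG1_prime_le h.prime (val_q_lt_one h.liesOver) (val_b_le_q h)
    hζ.pow_eq_one (hζ.ne_one h.prime.one_lt) _ ?_
  rintro _ ⟨P, hP, rfl⟩
  refine ⟨(F.inG1_Φ_iff P).mpr
      (inKernelAt_of_pow_nsmul h (k := 1) hP.2 (by rw [pow_one]; exact hP.1)),
    ?_⟩
  rw [AddEquiv.coe_toAddMonoidHom, ← map_nsmul, ((mem_ordinaryTorsion h).mp hP).1, map_zero]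

/-- There are at most `q ^ k` ordinary `q ^ k`-torsion points. -/
theorem card_ordinaryTorsion_pow_le (h : MultAt W A q) (k : ℕ) :
    Nat.card (ordinaryTorsion h (q ^ k)) ≤ q ^ k := by
  induction k with
  | zero =>
    have : Subsingleton (ordinaryTorsion h (q ^ 0)) := ⟨fun P Q => Subtype.ext <| by
      have h1 : ∀ R ∈ ordinaryTorsion h (q ^ 0), R = 0 := fun R hR => by
        simpa using ((mem_ordinaryTorsion h).mp hR).1
      rw [h1 _ P.2, h1 _ Q.2]⟩
    have := finite_ordinaryTorsion h (n := q ^ 0) (pow_ne_zero _ h.prime.ne_zero)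
    exact (Finite.card_le_one_iff_subsingleton.mpr inferInstance).trans (pow_zero q).ge
  | succ k ih =>
    have := finite_ordinaryTorsion h (n := q ^ (k + 1)) (pow_ne_zero _ h.prime.ne_zero)
    have := finite_ordinaryTorsion h (n := q ^ k) (pow_ne_zero _ h.prime.ne_zero)
    let φ : ordinaryTorsion h (q ^ (k + 1)) →+ ordinaryTorsion h (q ^ k) :=
      { toFun := fun P => ⟨q • (P : (curveQbar W).Point), by
            have := P.2.1
            simp only [SetLike.mem_coe] at this ⊢
            exact ⟨(mul_nsmul' _ _ _).symm.trans ((pow_succ q k) ▸ this),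
              (zeroComponent h).nsmul_mem P.2.2 q⟩⟩
        map_zero' := Subtype.ext (nsmul_zero _)
        map_add' := fun P Q => Subtype.ext (nsmul_add _ _ _) }
    have hker : Nat.card φ.ker ≤ q := by
      refine le_trans ?_ (card_ordinaryTorsion_prime_le h)
      have := finite_ordinaryTorsion h (n := q) h.prime.ne_zero
      refine Nat.card_le_card_of_injective (fun P => (⟨((P : ordinaryTorsion h (q ^ (k + 1))) :
        (curveQbar W).Point), ?_, (P : ordinaryTorsion h (q ^ (k + 1))).2.2⟩ : ordinaryTorsion h q))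
        (fun P Q hPQ => Subtype.ext (Subtype.ext (congrArg Subtype.val hPQ :)))
      exact congrArg Subtype.val (AddMonoidHom.mem_ker.mp P.2)
    have hrange : Nat.card φ.range ≤ q ^ k :=
      (Nat.card_le_card_of_injective _ Subtype.val_injective).trans ih
    refine le_of_eq_of_le (AddSubgroup.card_mul_index φ.ker).symm ?_
    rw [AddSubgroup.index_ker]
    exact (Nat.mul_le_mul hker hrange).trans_eq (pow_succ' q k).symm

/-- For `q ∤ n` there are at most `n` ordinary `n`-torsion points. -/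
theorem card_ordinaryTorsion_le_of_not_dvd (h : MultAt W A q) {n : ℕ} (hn : ¬ q ∣ n) :
    Nat.card (ordinaryTorsion h n) ≤ n := by
  classical
  have hn0 : 0 < n := Nat.pos_of_ne_zero fun h0 => hn (h0 ▸ dvd_zero q)
  set F := h.frame
  let φ : ordinaryTorsion h n → (Polynomial.nthRoots n (1 : IsLocalRing.ResidueField A)).toFinset :=
    fun P => ⟨red A (F.Φ P), by
      rw [Multiset.mem_toFinset, Polynomial.mem_nthRoots hn0,
        ← F.nodal.red_nsmul ((F.inG0_Φ_iff _).mpr P.2.2), ← map_nsmul,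
        (mem_ordinaryTorsion h).mp P.2 |>.1, map_zero, red_zero]⟩
  have hinj : Function.Injective φ := by
    intro P Q he
    have he' : red A (F.Φ P) = red A (F.Φ Q) := congrArg Subtype.val he
    rw [F.nodal.red_eq_red_iff ((F.inG0_Φ_iff _).mpr P.2.2) ((F.inG0_Φ_iff _).mpr Q.2.2),
      ← map_sub, F.inG1_Φ_iff] at he'
    refine Subtype.ext (sub_eq_zero.mp (eq_zero_of_inKernelAt h hn he' ?_))
    rw [nsmul_sub, ((mem_ordinaryTorsion h).mp P.2).1, ((mem_ordinaryTorsion h).mp Q.2).1, sub_zero]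
  refine (Nat.card_le_card_of_injective φ hinj).trans ?_
  rw [Nat.card_eq_fintype_card, Fintype.card_coe]
  exact (Multiset.toFinset_card_le _).trans (Polynomial.card_nthRoots n 1)

/-- For `n` prime to `q` and for `n` a power of `q` there are `n` torsion points of order dividing
`n` with nonsingular reduction. -/
theorem card_ordinaryTorsion (h : MultAt W A q) {n : ℕ}
    (hn : ¬ q ∣ n ∨ ∃ k, n = q ^ k) : Nat.card (ordinaryTorsion h n) = n := by
  rcases hn with hn | ⟨k, rfl⟩
  · exact le_antisymm (card_ordinaryTorsion_le_of_not_dvd h hn)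
      (le_card_ordinaryTorsion h fun h0 => hn (h0 ▸ dvd_zero q))
  · exact le_antisymm (card_ordinaryTorsion_pow_le h k)
      (le_card_ordinaryTorsion h (pow_ne_zero _ h.prime.ne_zero))

/-- The torsion at level `ℓ ^ k` is generated by a point `G` with nonsingular reduction and a point
`Q` in a component of exact order `ℓ ^ k`. -/
theorem exists_generators (h : MultAt W A q) {ℓ : ℕ} (hℓ : ℓ.Prime) (k : ℕ) :
    ∃ G Q : (curveQbar W).Point, ℓ ^ k • G = 0 ∧ ℓ ^ k • Q = 0 ∧ W.InZeroComponentAt A G ∧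
      (∀ i : ℕ, i • G = 0 → ℓ ^ k ∣ i) ∧
      (∀ j : ℕ, W.InZeroComponentAt A (j • Q) → ℓ ^ k ∣ j) ∧
      (∀ P : (curveQbar W).Point, ℓ ^ k • P = 0 → ∃ i j : ℕ, P = i • G + j • Q) ∧
      (∀ P : (curveQbar W).Point, ℓ ^ k • P = 0 → W.InZeroComponentAt A P →
        ∃ i : ℕ, P = i • G) := by
  have hcase : ∀ m, ¬ q ∣ ℓ ^ m ∨ ∃ i, ℓ ^ m = q ^ i := by
    intro m
    by_cases hlq : ℓ = q
    · exact .inr ⟨m, by rw [hlq]⟩
    · exact .inl fun hd => hlq ((Nat.prime_dvd_prime_iff_eq h.prime hℓ).mp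
        (h.prime.dvd_of_dvd_pow hd)).symm
  rcases Nat.eq_zero_or_pos k with rfl | hk
  · exact ⟨0, 0, by simp, by simp, .inl rfl, by simp, by simp,
      fun P hP => ⟨0, 0, by simpa using hP⟩, fun P hP _ => ⟨0, by simpa using hP⟩⟩
  obtain ⟨j, rfl⟩ : ∃ j, k = j + 1 := ⟨k - 1, by omega⟩
  set n := ℓ ^ (j + 1) with hn
  have hn0 : n ≠ 0 := pow_ne_zero _ hℓ.ne_zero
  have := finite_ordinaryTorsion h hn0
  have := finite_ordinaryTorsion h (n := ℓ ^ j) (pow_ne_zero _ hℓ.ne_zero)
  have := finite_torsionSubgroup h.Δ_ne_zero hn0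
  have hcard := card_ordinaryTorsion h (hcase (j + 1))
  -- a point of exact order `n` with nonsingular reduction
  obtain ⟨G, hG, hGo⟩ : ∃ G ∈ ordinaryTorsion h n, ℓ ^ j • G ≠ 0 := by
    by_contra! hall
    have hle : Nat.card (ordinaryTorsion h n) ≤ Nat.card (ordinaryTorsion h (ℓ ^ j)) :=
      Nat.card_le_card_of_injective
        (fun P => (⟨(P : (curveQbar W).Point), hall _ P.2, P.2.2⟩ : ordinaryTorsion h (ℓ ^ j)))
        (fun P Q hPQ => Subtype.ext (congrArg Subtype.val hPQ :))
    rw [hcard, card_ordinaryTorsion h (hcase j), pow_succ] at hle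
    exact absurd hle (not_le.mpr ((Nat.lt_mul_iff_one_lt_right (pow_pos hℓ.pos j)).mpr hℓ.one_lt))
  -- a point in a component of exact order `n`
  obtain ⟨Q, hQ, hQo⟩ : ∃ Q ∈ torsionSubgroup W n, ¬ W.InZeroComponentAt A (ℓ ^ j • Q) := by
    by_contra! hall
    have hle := card_le_mul h (pow_pos hℓ.pos j) hn0 hall
    rw [hcard, sq, hn] at hle
    have := Nat.le_of_mul_le_mul_right hle (pow_pos hℓ.pos (j + 1))
    rw [pow_succ] at this
    exact absurd this (not_le.mpr ((Nat.lt_mul_iff_one_lt_right (pow_pos hℓ.pos j)).mpr hℓ.one_lt))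
  have key : ∀ {P : (curveQbar W).Point} {S : AddSubgroup (curveQbar W).Point}, n • P ∈ S →
      ℓ ^ j • P ∉ S → ∀ i : ℕ, i • P ∈ S → n ∣ i := by
    intro P S hnP hjP i hi
    have hg : Nat.gcd i n • P ∈ S := by
      have h2 : ((Nat.gcd i n : ℕ) : ℤ) • P =
          Nat.gcdA i n • (i • P) + Nat.gcdB i n • (n • P) := by
        rw [Nat.gcd_eq_gcd_ab, add_zsmul, ← natCast_zsmul P i, ← natCast_zsmul P n,
          ← mul_zsmul, ← mul_zsmul]
        congr 1 <;> rw [mul_comm]
      rw [← natCast_zsmul, h2]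
      exact S.add_mem (S.zsmul_mem hi _) (S.zsmul_mem hnP _)
    obtain ⟨t, ht, hgt⟩ := (Nat.dvd_prime_pow hℓ).mp (Nat.gcd_dvd_right i n)
    rcases eq_or_lt_of_le ht with rfl | hlt
    · rw [hn, ← hgt]; exact Nat.gcd_dvd_left i n
    · refine absurd ?_ hjP
      obtain ⟨c, hc⟩ : Nat.gcd i n ∣ ℓ ^ j := hgt ▸ pow_dvd_pow ℓ (Nat.lt_succ_iff.mp hlt)
      rw [hc, mul_comm, mul_nsmul']
      exact S.nsmul_mem hg c
  have hG1 : ∀ i : ℕ, i • G = 0 → n ∣ i := fun i hi =>
    key (S := ⊥) (by simpa using hG.1) (by simpa using hGo) i (by simpa using hi)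
  have hQ1 : ∀ i : ℕ, W.InZeroComponentAt A (i • Q) → n ∣ i := fun i hi =>
    key (S := zeroComponent h) (by rw [mem_torsionSubgroup.mp hQ]; exact (zeroComponent h).zero_mem)
      hQo i hi
  refine ⟨G, Q, hG.1, hQ, hG.2, hG1, hQ1, ?_, ?_⟩
  · intro P hP
    have : NeZero n := ⟨hn0⟩
    let φ : Fin n × Fin n → torsionSubgroup W n := fun ij =>
      ⟨(ij.1 : ℕ) • G + (ij.2 : ℕ) • Q,
        (torsionSubgroup W n).add_mem ((torsionSubgroup W n).nsmul_mem hG.1 _)
          ((torsionSubgroup W n).nsmul_mem hQ _)⟩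
    have hinj : Function.Injective φ := by
      rintro ⟨i₁, j₁⟩ ⟨i₂, j₂⟩ he
      have he' : (i₁ : ℕ) • G + (j₁ : ℕ) • Q = (i₂ : ℕ) • G + (j₂ : ℕ) • Q :=
        congrArg Subtype.val he
      have hmod : ∀ {a b : ℕ} {R : (curveQbar W).Point} {S : AddSubgroup (curveQbar W).Point},
          (∀ i : ℕ, i • R ∈ S → n ∣ i) → a • R - b • R ∈ S → a ≡ b [MOD n] := by
        intro a b R S hS hab
        rcases le_total b a with hle | hle
        · exact ((Nat.modEq_iff_dvd' hle).mpr (hS _ (by rwa [sub_nsmul _ hle,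
              ← sub_eq_add_neg]))).symm
        · refine (Nat.modEq_iff_dvd' hle).mpr (hS _ ?_)
          rw [sub_nsmul _ hle, ← sub_eq_add_neg, ← neg_sub]
          exact S.neg_mem hab
      have hj : (j₁ : ℕ) ≡ j₂ [MOD n] := by
        refine hmod (S := zeroComponent h) hQ1 ?_
        rw [show (j₁ : ℕ) • Q - (j₂ : ℕ) • Q = (i₂ : ℕ) • G - (i₁ : ℕ) • G by
          rw [eq_sub_iff_add_eq, sub_add_eq_add_sub, sub_eq_iff_eq_add, add_comm, he']]
        exact (zeroComponent h).sub_mem ((zeroComponent h).nsmul_mem hG.2 _)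
          ((zeroComponent h).nsmul_mem hG.2 _)
      have hj' : j₁ = j₂ := Fin.ext (Nat.ModEq.eq_of_lt_of_lt hj j₁.2 j₂.2)
      subst hj'
      have hi : (i₁ : ℕ) ≡ i₂ [MOD n] :=
        hmod (S := ⊥) (fun i hi => hG1 i (by simpa using hi))
          (by simp [add_right_cancel he'])
      exact Prod.ext (Fin.ext (Nat.ModEq.eq_of_lt_of_lt hi i₁.2 i₂.2)) rfl
    obtain ⟨⟨i, i'⟩, hi⟩ := (Function.Injective.bijective_of_nat_card_le hinj (by
      rw [card_torsionSubgroup h.Δ_ne_zero hn0, Nat.card_prod, Nat.card_fin, sq])).2 ⟨P, hP⟩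
    exact ⟨i, i', (congrArg Subtype.val hi).symm⟩
  · intro P hP hP0
    let φ : Fin n → ordinaryTorsion h n := fun i =>
      ⟨(i : ℕ) • G, (ordinaryTorsion h n).nsmul_mem hG _⟩
    have hinj : Function.Injective φ := by
      intro i₁ i₂ he
      have he' : (i₁ : ℕ) • G = (i₂ : ℕ) • G := congrArg Subtype.val he
      refine Fin.ext ?_
      rcases le_total (i₁ : ℕ) i₂ with hle | hle
      · have := hG1 _ (show ((i₂ : ℕ) - i₁) • G = 0 by rw [sub_nsmul _ hle, he', add_neg_cancel])
        have := Nat.eq_zero_of_dvd_of_lt this (by omega)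
        omega
      · have := hG1 _ (show ((i₁ : ℕ) - i₂) • G = 0 by rw [sub_nsmul _ hle, he', add_neg_cancel])
        have := Nat.eq_zero_of_dvd_of_lt this (by omega)
        omega
    obtain ⟨i, hi⟩ := (Function.Injective.bijective_of_nat_card_le hinj (by
      rw [hcard, Nat.card_fin])).2 ⟨P, hP, hP0⟩
    exact ⟨i, (congrArg Subtype.val hi).symm⟩

/-- **On the kernel of reduction in `E[q]` inertia acts by the cyclotomic character.** -/
theorem smul_eq_nsmul_of_rootsOfUnity (h : MultAt W A q) {σ : Qb ≃ₐ[ℚ] Qb}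
    (hσ : σ ∈ A.inertiaSubgroupIn ℚ) {m : ℕ}
    (hm : ∀ μ : Qb, μ ^ q = 1 → σ μ = μ ^ m) {P : (curveQbar W).Point}
    (hP : W.InZeroComponentAt A P) (h0 : q • P = 0) : σ • P = m • P := by
  have : NeZero (q : Qb) := ⟨Nat.cast_ne_zero.mpr h.prime.ne_zero⟩
  obtain ⟨ζ, hζ⟩ := HasEnoughRootsOfUnity.exists_primitiveRoot (AlgebraicClosure ℚ) q
  obtain ⟨hr, ht, -, hs, ha⟩ := h.frame.inertia_fixes hσ
  obtain ⟨hd, hres⟩ := LocalInertia.mem_inertiaSubgroupIn_iff.mp hσ
  apply h.frame.Φ.injective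
  rw [map_nsmul]
  refine h.frame.nodal.conj_eq_nsmul h.prime (val_q_lt_one h.liesOver) (val_b_le_q h)
    hζ.pow_eq_one (hζ.ne_one h.prime.one_lt) (σ := σ.toAlgHom.toRingHom)
    (fun x hx => hres x ((A.valuation_le_one_iff x).mp hx)) (LocalInertia.valuation_apply hd) ha
    (hm ζ hζ.pow_eq_one) (h.frame.conj_smul hr ht hs P) ?_ ?_ ?_
  · exact (h.frame.inG1_Φ_iff P).mpr (inKernelAt_of_pow_nsmul h (k := 1) hP (by rwa [pow_one]))
  · rw [← map_nsmul, h0, map_zero]
  · rw [← map_nsmul, ← smul_nsmul_point, h0, smul_zero_point, map_zero]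

end Fermat.Agent.Multiplicative
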