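import Fermat.Agent.Multiplicative.Nodal
import Mathlib.FieldTheory.IsAlgClosed.Basic
import Mathlib.Algebra.CharP.Lemmas

/-!
# The points with nonsingular reduction on the nodal normal form

`InFil A c P` says that `P = 0` or `|x(P)| ≥ |c|²`.  These are subgroups, and on them
`P ↦ 1 + uPt P = (y + a x) / y` is multiplicative up to an error of size `|b| / |c|⁷`.
-/

set_option autoImplicit false

noncomputable section

namespace Fermat.Agent.Multiplicative

open WeierstrassCurve WeierstrassCurve.Affine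

variable {K : Type*} [Field K] {a b : K}

/-- Affine points of the nodal normal form. -/
abbrev NPoint (a b : K) : Type _ := (nodalCurve a b).Point

/-- `P = 0` or `|x(P)| ≥ |c|²`. -/
def InFil (A : ValuationSubring K) (c : K) : NPoint a b → Prop
  | .zero => True
  | .some x _ _ => A.valuation c ^ 2 ≤ A.valuation x

/-- The points whose reduction is nonsingular. -/
def InG0 (A : ValuationSubring K) (P : NPoint a b) : Prop := InFil A 1 P

/-- The points reducing to the point at infinity. -/
def InG1 (A : ValuationSubring K) : NPoint a b → Prop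
  | .zero => True
  | .some x _ _ => 1 < A.valuation x

/-- The function `a x / y`, so that `1 + uPt P = (y + a x) / y`. -/
def uPt : NPoint a b → K
  | .zero => 0
  | .some x y _ => a * x / y

variable {A : ValuationSubring K}

local notation "v" => ValuationSubring.valuation A

@[simp] theorem inFil_zero (c : K) : InFil A c (0 : NPoint a b) := trivial

/-- `InFil` for an affine point is `|c|² ≤ |x|`. -/
@[simp] theorem inFil_some {c x y : K} (h : (nodalCurve a b).Nonsingular x y) :
    InFil A c (Point.some x y h) ↔ v c ^ 2 ≤ v x := Iff.rfl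

/-- The origin has nonsingular reduction. -/
@[simp] theorem inG0_zero : InG0 A (0 : NPoint a b) := trivial

/-- An affine point has nonsingular reduction iff `1 ≤ |x|`. -/
@[simp] theorem inG0_some {x y : K} (h : (nodalCurve a b).Nonsingular x y) :
    InG0 A (Point.some x y h) ↔ 1 ≤ v x := by
  simp [InG0]

@[simp] theorem inG1_zero : InG1 A (0 : NPoint a b) := trivial

/-- An affine point reduces to infinity iff `1 < |x|`. -/
@[simp] theorem inG1_some {x y : K} (h : (nodalCurve a b).Nonsingular x y) :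
    InG1 A (Point.some x y h) ↔ 1 < v x := Iff.rfl

@[simp] theorem uPt_zero : uPt (0 : NPoint a b) = 0 := rfl

@[simp] theorem uPt_some {x y : K} (h : (nodalCurve a b).Nonsingular x y) :
    uPt (Point.some x y h) = a * x / y := rfl

/-- Points reducing to infinity have nonsingular reduction. -/
theorem InG1.inG0 {P : NPoint a b} (h : InG1 A P) : InG0 A P := by
  match P, h with
  | .zero, _ => trivial
  | .some _ _ _, h => exact (inG0_some _).mpr h.le

/-- The filtration steps with `|c| ≥ 1` consist of points with nonsingular reduction. -/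
theorem InFil.inG0 {c : K} (hc : 1 ≤ v c) {P : NPoint a b} (h : InFil A c P) : InG0 A P := by
  match P, h with
  | .zero, _ => trivial
  | .some _ _ _, h => exact (inG0_some _).mpr ((one_le_pow₀ hc).trans h)

theorem InG1.exists_inFil [IsAlgClosed K] {P : NPoint a b} (h : InG1 A P) (hP : P ≠ 0) :
    ∃ c : K, 1 < v c ∧ InFil A c P ∧ ∀ x y hn, P = Point.some x y hn → v c ^ 2 = v x := by
  match P, h with
  | .zero, _ => exact absurd rfl hP
  | .some x y hn, h =>
    obtain ⟨c, rfl⟩ := IsAlgClosed.exists_pow_nat_eq x (n := 2) two_pos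
    rw [inG1_some, map_pow, one_lt_sq_iff₀ zero_le] at h
    refine ⟨c, h, (inFil_some _).mpr (map_pow _ c 2).ge, fun x' y' hn' he => ?_⟩
    simp only [Point.some.injEq] at he
    rw [← he.1, map_pow]

section

variable (hN : IsNodal A a b)

include hN

omit hN in
/-- Points satisfy `y (y + a x) = x³ + b`. -/
theorem IsNodal.eqn (_hN : IsNodal A a b) {x y : K} (h : (nodalCurve a b).Nonsingular x y) :
    y * (y + a * x) = x ^ 3 + b :=
  (nodal_equation_iff x y).mp h.1

/-- `|uPt P|² = |x|⁻¹` for nonsingular reduction. -/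
theorem IsNodal.val_uPt_sq {x y : K} (h : (nodalCurve a b).Nonsingular x y) (hx : 1 ≤ v x) :
    v (uPt (Point.some x y h)) ^ 2 * v x = 1 := by
  have hx0 : v x ≠ 0 := (zero_lt_one.trans_le hx).ne'
  rw [uPt_some, map_div₀, hN.val_mul_a, div_pow, (hN.val_y_of_one_le (hN.eqn h) hx).1,
    div_mul_eq_mul_div, ← pow_succ, div_self (pow_ne_zero _ hx0)]

/-- At a point with nonsingular reduction, `1 + uPt P = (y + a x) / y` is a unit. -/
theorem IsNodal.one_add_uPt {x y : K} (h : (nodalCurve a b).Nonsingular x y) (hx : 1 ≤ v x) :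
    1 + uPt (Point.some x y h) = (y + a * x) / y ∧ v ((y + a * x) / y) = 1 := by
  obtain ⟨hy, hw⟩ := hN.y_ne_zero_of_one_le (hN.eqn h) hx
  refine ⟨by rw [uPt_some, add_div, div_self hy], ?_⟩
  rw [map_div₀, (hN.val_y_of_one_le (hN.eqn h) hx).2.1, div_self]
  exact (Valuation.ne_zero_iff _).mpr hy

/-- On the filtration step `c`, `|uPt P| |c| ≤ 1`. -/
theorem IsNodal.val_uPt_mul {c : K} (hc : 1 ≤ v c) {P : NPoint a b} (h : InFil A c P) :
    v (uPt P) * v c ≤ 1 := by
  match P, h with
  | .zero, _ => simp [← Point.zero_def]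
  | .some x y hn, h =>
    refine (pow_le_one_iff_of_nonneg zero_le two_ne_zero).mp ?_
    rw [mul_pow, ← hN.val_uPt_sq hn ((one_le_pow₀ hc).trans h)]
    exact mul_le_mul_right h _

/-- `uPt` is integral on points with nonsingular reduction. -/
theorem IsNodal.val_uPt_le_one {P : NPoint a b} (h : InG0 A P) : v (uPt P) ≤ 1 := by
  simpa using hN.val_uPt_mul (c := 1) (by simp) h

theorem IsNodal.val_uPt_eq {x y c : K} (h : (nodalCurve a b).Nonsingular x y) (hc : 1 ≤ v c)
    (hx : v c ^ 2 = v x) : v (uPt (Point.some x y h)) * v c = 1 := by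
  refine le_antisymm (hN.val_uPt_mul hc ((inFil_some h).mpr hx.le)) ?_
  refine (one_le_pow_iff_of_nonneg zero_le two_ne_zero).mp ?_
  rw [mul_pow, hx, hN.val_uPt_sq h (hx ▸ one_le_pow₀ hc)]

/-- `1 + uPt P` is a unit on points with nonsingular reduction. -/
theorem IsNodal.val_one_add_uPt {P : NPoint a b} (h : InG0 A P) : v (1 + uPt P) = 1 := by
  match P, h with
  | .zero, _ => simp [← Point.zero_def]
  | .some x y hn, h =>
    rw [inG0_some] at h
    rw [(hN.one_add_uPt hn h).1]
    exact (hN.one_add_uPt hn h).2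

theorem IsNodal.val_uPt_lt_one_iff {P : NPoint a b} (h : InG0 A P) :
    v (uPt P) < 1 ↔ InG1 A P := by
  match P, h with
  | .zero, _ => simp [← Point.zero_def]
  | .some x y hn, h =>
    rw [inG0_some] at h
    have hu := hN.val_uPt_sq hn h
    rw [inG1_some]
    constructor
    · intro hlt
      by_contra hx
      rw [le_antisymm (not_lt.mp hx) h, mul_one] at hu
      exact absurd hu (pow_lt_one₀ zero_le hlt two_ne_zero).ne
    · intro hx
      by_contra hge
      exact absurd hu (one_lt_mul_of_le_of_lt (one_le_pow₀ (not_lt.mp hge)) hx).ne'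

omit hN in
theorem IsNodal.inFil_neg (_hN : IsNodal A a b) {c : K} {P : NPoint a b} (h : InFil A c P) :
    InFil A c (-P) := by
  match P, h with
  | .zero, _ => trivial
  | .some x y hn, h => exact h

theorem IsNodal.one_add_uPt_neg {P : NPoint a b} (h : InG0 A P) :
    (1 + uPt P) * (1 + uPt (-P)) = 1 := by
  match P, h with
  | .zero, _ => simp [← Point.zero_def]
  | .some x y hn, h =>
    rw [inG0_some] at h
    obtain ⟨hy, hw⟩ := hN.y_ne_zero_of_one_le (hN.eqn hn) h
    rw [(hN.one_add_uPt hn h).1, Point.neg_some, uPt_some, nodal_negY]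
    field_simp
    ring

/-- `InFil A c` is closed under addition, and `1 + uPt` is multiplicative on it up to
`|b| / |c|⁷`. -/
theorem IsNodal.inFil_add [DecidableEq K] {c : K} (hc : 1 ≤ v c) {P Q : NPoint a b}
    (hP : InFil A c P) (hQ : InFil A c Q) :
    InFil A c (P + Q) ∧ ∃ ε : K, v ε * v c ^ 7 ≤ v b ∧
      (1 + uPt P) * (1 + uPt Q) = (1 + uPt (P + Q)) * (1 + ε) := by
  match P, Q, hP, hQ with
  | .zero, Q, _, hQ => exact ⟨by rwa [← Point.zero_def, zero_add], 0, by simp,
      by simp [← Point.zero_def]⟩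
  | .some x₁ y₁ h₁, .zero, hP, _ => exact ⟨by rwa [← Point.zero_def, add_zero], 0, by simp,
      by simp [← Point.zero_def]⟩
  | .some x₁ y₁ h₁, .some x₂ y₂ h₂, hP, hQ =>
    by_cases hxy : x₁ = x₂ ∧ y₁ = (nodalCurve a b).negY x₂ y₂
    · rw [Point.add_of_Y_eq hxy.1 hxy.2]
      refine ⟨trivial, 0, by simp, ?_⟩
      have hneg : Point.some x₂ y₂ h₂ = -Point.some x₁ y₁ h₁ := by
        obtain ⟨rfl, rfl⟩ := hxy
        simp only [Point.neg_some, Point.some.injEq, true_and]
        exact (negY_negY (W' := nodalCurve a b) _ _).symm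
      rw [hneg, hN.one_add_uPt_neg (InFil.inG0 hc hP)]
      simp
    obtain ⟨l, m, x₃, h₃, hadd, -, rfl, rfl, e₁, e₂, e₃⟩ := exists_line h₁ h₂ hxy
    have hy₃ : (l * x₃ + m) * (l * x₃ + m + a * x₃) = x₃ ^ 3 + b := by
      have := hN.eqn h₃
      linear_combination this
    obtain ⟨hx₃, ε, hε, hprod⟩ := hN.third_core hc (hN.line_core hc hP hQ e₁ e₂ e₃) hy₃ e₁ e₂ e₃
    rw [hadd]
    refine ⟨(inFil_some h₃).mpr hx₃, ε, hε, ?_⟩
    have hp₁ : 1 ≤ v x₁ := (one_le_pow₀ hc).trans hP
    have hp₂ : 1 ≤ v x₂ := (one_le_pow₀ hc).trans hQ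
    have hp₃ : 1 ≤ v x₃ := (one_le_pow₀ hc).trans hx₃
    obtain ⟨hy₁, -⟩ := hN.y_ne_zero_of_one_le (hN.eqn h₁) hp₁
    obtain ⟨hy₂, -⟩ := hN.y_ne_zero_of_one_le (hN.eqn h₂) hp₂
    obtain ⟨hy, hw⟩ := hN.y_ne_zero_of_one_le hy₃ hp₃
    rw [(hN.one_add_uPt h₁ hp₁).1, (hN.one_add_uPt h₂ hp₂).1, (hN.one_add_uPt h₃ hp₃).1,
      div_mul_div_comm, div_mul_eq_mul_div,
      div_eq_div_iff (mul_ne_zero hy₁ hy₂) (neg_ne_zero.mpr hw)]
    linear_combination -hprod

/-- The subgroup of points `P = 0` or `|x(P)| ≥ |c|²`. -/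
def IsNodal.filtration [DecidableEq K] (c : K) (hc : 1 ≤ v c) : AddSubgroup (NPoint a b) where
  carrier := {P | InFil A c P}
  zero_mem' := trivial
  add_mem' hP hQ := (hN.inFil_add hc hP hQ).1
  neg_mem' hP := hN.inFil_neg hP

/-- Nonsingular reduction is preserved by negation. -/
theorem IsNodal.inG0_neg {P : NPoint a b} (h : InG0 A P) : InG0 A (-P) := hN.inFil_neg h

/-- Nonsingular reduction is preserved by sums. -/
theorem IsNodal.inG0_add [DecidableEq K] {P Q : NPoint a b} (hP : InG0 A P) (hQ : InG0 A Q) :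
    InG0 A (P + Q) :=
  (hN.inFil_add (c := 1) (by simp) hP hQ).1

/-- Nonsingular reduction is preserved by differences. -/
theorem IsNodal.inG0_sub [DecidableEq K] {P Q : NPoint a b} (hP : InG0 A P) (hQ : InG0 A Q) :
    InG0 A (P - Q) := by
  rw [sub_eq_add_neg]; exact hN.inG0_add hP (hN.inG0_neg hQ)

/-- Nonsingular reduction is preserved by multiples. -/
theorem IsNodal.inG0_nsmul [DecidableEq K] {P : NPoint a b} (hP : InG0 A P) (n : ℕ) :
    InG0 A (n • P) :=
  (hN.filtration 1 (by simp)).nsmul_mem hP n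

omit hN in
/-- The image in the residue field of a point with nonsingular reduction. -/
def red (A : ValuationSubring K) (P : NPoint a b) : IsLocalRing.ResidueField A :=
  res A (1 + uPt P)

omit hN in
/-- The origin reduces to `1`. -/
@[simp] theorem red_zero : red A (0 : NPoint a b) = 1 := by simp [red]

/-- The reduction `red` is multiplicative. -/
theorem IsNodal.red_add [DecidableEq K] {P Q : NPoint a b} (hP : InG0 A P) (hQ : InG0 A Q) :
    red A (P + Q) = red A P * red A Q := by
  obtain ⟨hS, ε, hε, h⟩ := hN.inFil_add (c := 1) (by simp) hP hQ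
  rw [map_one, one_pow, mul_one] at hε
  have hε1 : v ε < 1 := hε.trans_lt hN.val_b
  rw [red, red, red, ← res_mul (hN.val_one_add_uPt hP).le (hN.val_one_add_uPt hQ).le, h,
    res_mul (hN.val_one_add_uPt hS).le
      ((Valuation.map_add _ _ _).trans (max_le (Valuation.map_one _).le hε1.le))]
  have : res A (1 + ε) = 1 := by
    rw [res_add (Valuation.map_one _).le hε1.le, (res_eq_zero_iff hε1.le).mpr hε1, res_one,
      add_zero]
  rw [this, mul_one]

/-- Reduction turns multiples into powers. -/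
theorem IsNodal.red_nsmul [DecidableEq K] {P : NPoint a b} (hP : InG0 A P) (n : ℕ) :
    red A (n • P) = red A P ^ n := by
  induction n with
  | zero => rw [zero_nsmul, red_zero, pow_zero]
  | succ n ih => rw [succ_nsmul, hN.red_add (hN.inG0_nsmul hP n) hP, ih, pow_succ]

theorem IsNodal.red_ne_zero {P : NPoint a b} (hP : InG0 A P) : red A P ≠ 0 :=
  (res_ne_zero_iff (hN.val_one_add_uPt hP).le).mpr (hN.val_one_add_uPt hP)

/-- The points reducing to `1` are those reducing to infinity. -/
theorem IsNodal.red_eq_one_iff {P : NPoint a b} (hP : InG0 A P) : red A P = 1 ↔ InG1 A P := by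
  rw [red, res_add (Valuation.map_one _).le (hN.val_uPt_le_one hP), res_one, add_eq_left,
    res_eq_zero_iff (hN.val_uPt_le_one hP), hN.val_uPt_lt_one_iff hP]

omit hN in
/-- The kernel of reduction is closed under negation. -/
theorem IsNodal.inG1_neg (_hN : IsNodal A a b) {P : NPoint a b} (h : InG1 A P) : InG1 A (-P) := by
  match P, h with
  | .zero, _ => trivial
  | .some x y hn, h => exact h

/-- The kernel of reduction is closed under sums. -/
theorem IsNodal.inG1_add [DecidableEq K] {P Q : NPoint a b} (hP : InG1 A P) (hQ : InG1 A Q) :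
    InG1 A (P + Q) := by
  rw [← hN.red_eq_one_iff (hN.inG0_add hP.inG0 hQ.inG0), hN.red_add hP.inG0 hQ.inG0,
    (hN.red_eq_one_iff hP.inG0).mpr hP, (hN.red_eq_one_iff hQ.inG0).mpr hQ, mul_one]

/-- The kernel of reduction is closed under differences. -/
theorem IsNodal.inG1_sub [DecidableEq K] {P Q : NPoint a b} (hP : InG1 A P) (hQ : InG1 A Q) :
    InG1 A (P - Q) := by
  rw [sub_eq_add_neg]; exact hN.inG1_add hP (hN.inG1_neg hQ)

/-- Two points have equal reduction iff their difference is in the kernel of reduction. -/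
theorem IsNodal.red_eq_red_iff [DecidableEq K] {P Q : NPoint a b} (hP : InG0 A P)
    (hQ : InG0 A Q) : red A P = red A Q ↔ InG1 A (P - Q) := by
  have h := hN.red_add (hN.inG0_sub hP hQ) hQ
  rw [sub_add_cancel] at h
  rw [← hN.red_eq_one_iff (hN.inG0_sub hP hQ), h]
  exact ⟨fun e => (mul_eq_right₀ (hN.red_ne_zero hQ)).mp e, fun e => by rw [e, one_mul]⟩

/-- `1 + uPt` of a multiple is a power, up to `|b| / |c|⁷`. -/
theorem IsNodal.inFil_pow [DecidableEq K] {c : K} (hc : 1 ≤ v c) {P : NPoint a b}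
    (hP : InFil A c P) (k : ℕ) :
    InFil A c (k • P) ∧ ∃ ε : K, v ε * v c ^ 7 ≤ v b ∧
      (1 + uPt P) ^ k = (1 + uPt (k • P)) * (1 + ε) := by
  induction k with
  | zero => exact ⟨by simp, 0, by simp, by simp⟩
  | succ k ih =>
    obtain ⟨hk, e, he, hek⟩ := ih
    obtain ⟨hs, e', he', hes⟩ := hN.inFil_add hc hk hP
    have hc7 : 1 ≤ v c ^ 7 := one_le_pow₀ hc
    have he1 : v e ≤ 1 := (le_mul_of_one_le_right' hc7).trans (he.trans hN.val_b.le)
    rw [← succ_nsmul] at hs hes
    refine ⟨hs, e + e' + e * e', ?_, ?_⟩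
    · refine le_trans (mul_le_mul_left ((Valuation.map_add _ _ _).trans
        (max_le ((Valuation.map_add _ _ _).trans le_rfl) ?_)) _) ?_
          (b := max (v e) (v e') * v c ^ 7)
      · rw [map_mul]
        exact (mul_le_of_le_one_left' he1).trans (le_max_right _ _)
      · rcases le_total (v e) (v e') with h | h
        · rwa [max_eq_right h]
        · rwa [max_eq_left h]
    · rw [pow_succ, hek]
      linear_combination (1 + e) * hes

omit hN in
theorem one_add_pow_eq (u : K) (hu : v u ≤ 1) (n : ℕ) :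
    ∃ r : K, v r ≤ 1 ∧ (1 + u) ^ n = 1 + n * u + u ^ 2 * r := by
  induction n with
  | zero => exact ⟨0, by simp, by simp⟩
  | succ n ih =>
    obtain ⟨r, hr, h⟩ := ih
    refine ⟨n + r + r * u, ?_, by rw [pow_succ, h]; push_cast; ring⟩
    refine (Valuation.map_add _ _ _).trans (max_le ((Valuation.map_add _ _ _).trans
      (max_le ((A.valuation_le_one_iff _).mpr (natCast_mem A n)) hr)) ?_)
    rw [map_mul]
    exact mul_le_one' hr hu

/-- The kernel of reduction has no torsion prime to the residue characteristic. -/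
theorem IsNodal.eq_zero_of_inG1_of_nsmul [DecidableEq K] [IsAlgClosed K] {P : NPoint a b}
    (hP : InG1 A P) {n : ℕ} (hn : v (n : K) = 1) (h0 : n • P = 0) : P = 0 := by
  by_contra hne
  obtain ⟨c, hc, hfil, hcx⟩ := hP.exists_inFil hne
  obtain ⟨-, ε, hε, hεn⟩ := hN.inFil_pow hc.le hfil n
  rw [h0, uPt_zero, add_zero, one_mul] at hεn
  match P, hne with
  | .zero, hne => exact hne rfl
  | .some x y hns, _ =>
    rw [inG1_some] at hP
    have hu := hN.val_uPt_eq hns hc.le (hcx x y hns rfl)
    have hult : v (uPt (Point.some x y hns)) < 1 :=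
      (hN.val_uPt_lt_one_iff ((inG0_some hns).mpr hP.le)).mpr hP
    generalize uPt (Point.some x y hns) = u at hu hult hεn
    obtain ⟨r, hr, hru⟩ := one_add_pow_eq (A := A) u hult.le n
    have hεu : ε = u * (n + u * r) := by linear_combination hru - hεn
    have h1 : v (n + u * r) = 1 := by
      rw [Valuation.map_add_eq_of_lt_left _ (by
        rw [hn, map_mul]; exact mul_lt_one_of_nonneg_of_lt_one_left zero_le hult hr), hn]
    rw [hεu, map_mul, h1, mul_one, pow_succ', ← mul_assoc, hu, one_mul] at hε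
    exact absurd hε (not_le.mpr (hN.val_b.trans_le (one_le_pow₀ hc.le)))

omit hN in
/-- `(1 + u) ^ p = 1 + u ^ p + p u ρ` with `ρ` congruent to `1`, for `|u| < 1`. -/
theorem one_add_pow_prime {p : ℕ} (hp : p.Prime) (u : K) (hu : v u < 1) :
    ∃ ρ : K, v (ρ - 1) < 1 ∧ (1 + u) ^ p = 1 + u ^ p + p * u * ρ := by
  refine ⟨∑ k ∈ Finset.Ioo 0 p, (1 : K) ^ (k - 1) * u ^ (p - k - 1) * ↑(p.choose k / p), ?_, ?_⟩
  · have hmem : p - 1 ∈ Finset.Ioo 0 p := Finset.mem_Ioo.mpr ⟨by have := hp.two_le; omega, by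
      have := hp.two_le; omega⟩
    rw [← Finset.add_sum_erase _ _ hmem, show p - (p - 1) - 1 = 0 by omega,
      Nat.choose_symm (by have := hp.two_le; omega : 1 ≤ p), Nat.choose_one_right,
      Nat.div_self hp.pos]
    simp only [one_pow, pow_zero, Nat.cast_one, one_mul, add_sub_cancel_left]
    refine Valuation.map_sum_lt' _ zero_lt_one fun k hk => ?_
    obtain ⟨hk1, hk2⟩ := Finset.mem_erase.mp hk
    have := (Finset.mem_Ioo.mp hk2)
    rw [map_mul, map_pow]
    exact mul_lt_one_of_nonneg_of_lt_one_left zero_le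
      (pow_lt_one₀ zero_le hu (by omega)) ((A.valuation_le_one_iff _).mpr (natCast_mem A _))
  · rw [add_pow_prime_eq hp (1 : K) u, one_pow, mul_one]

/-- A nonzero `p`-torsion point of the kernel of reduction, in residue characteristic `p`:
`u = uPt P` has the critical size and satisfies `u ^ p + p u ρ ≈ 0`. -/
theorem IsNodal.torsion_prime [DecidableEq K] [IsAlgClosed K] {p : ℕ} (hp : p.Prime)
    (_hpv : v (p : K) < 1) (hbp : v b ≤ v (p : K)) {P : NPoint a b} (hP : InG1 A P)
    (hne : P ≠ 0) (h0 : p • P = 0) :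
    ∃ c ρ : K, 1 < v c ∧ InFil A c P ∧ v (uPt P) * v c = 1 ∧ v (ρ - 1) < 1 ∧
      v (uPt P) ^ (p - 1) = v (p : K) ∧
      v (uPt P ^ p + p * uPt P * ρ) < v (p : K) * v (uPt P) := by
  obtain ⟨c, hc, hfil, hcx⟩ := hP.exists_inFil hne
  obtain ⟨-, ε, hε, hεp⟩ := hN.inFil_pow hc.le hfil p
  rw [h0, uPt_zero, add_zero, one_mul] at hεp
  have hu : v (uPt P) * v c = 1 := by
    match P, hne with
    | .zero, hne => exact absurd rfl hne
    | .some x y hns, _ => exact hN.val_uPt_eq hns hc.le (hcx x y hns rfl)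
  have hult : v (uPt P) < 1 := (hN.val_uPt_lt_one_iff hP.inG0).mpr hP
  generalize huu : uPt P = u at hu hult hεp
  obtain ⟨ρ, hρ, hpow⟩ := one_add_pow_prime (A := A) hp u hult
  have hεu : ε = u ^ p + p * u * ρ := by linear_combination hpow - hεp
  have hupos : 0 < v u := by
    refine zero_lt_iff.mpr fun h => ?_
    rw [h, zero_mul] at hu
    exact zero_ne_one hu
  have hppos : 0 < v (p : K) :=
    lt_of_lt_of_le (zero_lt_iff.mpr ((Valuation.ne_zero_iff _).mpr hN.ne_zero)) hbp
  have hεlt : v ε < v (p : K) * v u := by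
    refine lt_of_mul_lt_mul_right' (a := v c ^ 7) ?_
    calc v ε * v c ^ 7 ≤ v b := hε
      _ ≤ v (p : K) := hbp
      _ = v (p : K) * 1 := (mul_one _).symm
      _ < v (p : K) * v c ^ 6 := mul_lt_mul_of_pos_left (one_lt_pow₀ hc (by norm_num)) hppos
      _ = v (p : K) * v u * v c ^ 7 := by
        rw [mul_assoc, pow_succ' (v c) 6, ← mul_assoc (v u), hu, one_mul]
  have hρ1 : v ρ = 1 := by
    rw [show ρ = 1 + (ρ - 1) by ring,
      Valuation.map_add_eq_of_lt_left _ (by rwa [map_one]), map_one]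
  have hq : v (p * u * ρ) = v (p : K) * v u := by rw [map_mul, map_mul, hρ1, mul_one]
  refine ⟨c, ρ, hc, hfil, hu, hρ, ?_, hεu ▸ hεlt⟩
  have : v (u ^ p) = v (p : K) * v u := by
    rw [← hq, show u ^ p = ε - p * u * ρ by rw [hεu]; ring]
    exact Valuation.map_sub_eq_of_lt_right _ (hq.symm ▸ hεlt)
  rw [map_pow] at this
  nth_rw 1 [← Nat.sub_add_cancel hp.one_le] at this
  rw [pow_succ] at this
  exact mul_right_cancel₀ hupos.ne' this

end

end Fermat.Agent.Multiplicative
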