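import Fermat.Agent.Multiplicative.Components

/-!
# Torsion classes in the component group of the nodal normal form
-/

set_option autoImplicit false

noncomputable section

namespace Fermat.Agent.Multiplicative

open WeierstrassCurve WeierstrassCurve.Affine Polynomial

variable {K : Type*} [Field K] {a b : K} {A : ValuationSubring K}

local notation "v" => ValuationSubring.valuation A

/-- The discriminant of the nodal normal form. -/
theorem nodalCurve_Δ : (nodalCurve a b).Δ = -(b * (a ^ 6 + 432 * b)) := by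
  simp only [nodalCurve, WeierstrassCurve.Δ, WeierstrassCurve.b₂, WeierstrassCurve.b₄,
    WeierstrassCurve.b₆, WeierstrassCurve.b₈]
  ring

section

variable (hN : IsNodal A a b)

include hN

/-- The discriminant of the nodal normal form `y (y + a x) = x³ + b` has the valuation of `b`. -/
theorem IsNodal.val_Δ : v (nodalCurve a b).Δ = v b := by
  rw [nodalCurve_Δ, Valuation.map_neg, map_mul, Valuation.map_add_eq_of_lt_left] <;>
    rw [map_pow, hN.val_a, one_pow]
  · rw [mul_one]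
  · rw [map_mul]
    exact mul_lt_one_of_nonneg_of_lt_one_right
      ((A.valuation_le_one_iff _).mpr (natCast_mem A 432)) zero_le hN.val_b

/-- The nodal normal form is nonsingular. -/
theorem IsNodal.Δ_ne_zero : (nodalCurve a b).Δ ≠ 0 := by
  rw [← Valuation.ne_zero_iff A.valuation, hN.val_Δ, Valuation.ne_zero_iff]
  exact hN.ne_zero

/-- Over an algebraically closed field every `x` is the abscissa of a point. -/
theorem IsNodal.exists_point [IsAlgClosed K] (x : K) :
    ∃ y, (nodalCurve a b).Nonsingular x y := by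
  have hdeg : (X ^ 2 + C (a * x) * X - C (x ^ 3 + b)).degree = 2 := by compute_degree!
  obtain ⟨y, hy⟩ := IsAlgClosed.exists_root _ (hdeg ▸ two_ne_zero)
  refine ⟨y, (equation_iff_nonsingular_of_Δ_ne_zero hN.Δ_ne_zero).mp
    ((nodal_equation_iff x y).mpr ?_)⟩
  simp only [IsRoot.def, eval_sub, eval_add, eval_pow, eval_X, eval_mul, eval_C] at hy
  linear_combination hy

/-- There is a point on the branch `|y| < |x|` with any `x` satisfying `|b| < |x|² < 1`. -/
theorem IsNodal.exists_inPlus [IsAlgClosed K] {x : K} (hx : v x < 1) (hb : v b < v x ^ 2) :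
    ∃ P : NPoint a b, InPlus A P ∧ xc P = x := by
  obtain ⟨y, hy⟩ := hN.exists_point x
  rcases hN.trichotomy (P := Point.some x y hy) (by rw [inG0_some]; exact not_le.mpr hx) with
    h | h | h
  · exact absurd h.2 (not_le.mpr hb)
  · exact ⟨_, h, rfl⟩
  · exact ⟨_, h, rfl⟩

omit hN in
theorem exists_sep [IsAlgClosed K] : ∃ c : K, v c = 1 ∧ v (1 - c) = 1 := by
  have hdeg : (X ^ 2 - X - C (1 : K)).degree = 2 := by compute_degree!
  obtain ⟨c, hc⟩ := IsAlgClosed.exists_root _ (hdeg ▸ two_ne_zero)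
  simp only [IsRoot.def, eval_sub, eval_pow, eval_X, eval_C] at hc
  have hc' : c * (c - 1) = 1 := by linear_combination hc
  have h := congrArg A.valuation hc'
  rw [map_mul, map_one] at h
  have key : v c = 1 ∧ v (c - 1) = 1 := by
    rcases lt_trichotomy (v c) 1 with hlt | heq | hgt
    · rw [Valuation.map_sub_eq_of_lt_right _ (by rwa [map_one]), map_one, mul_one] at h
      exact absurd h hlt.ne
    · exact ⟨heq, by rwa [heq, one_mul] at h⟩
    · rw [Valuation.map_sub_eq_of_lt_left _ (by rwa [map_one])] at h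
      exact absurd h (one_lt_mul_of_le_of_lt hgt.le hgt).ne'
  exact ⟨c, key.1, by rw [Valuation.map_sub_swap]; exact key.2⟩

/-- Given `π` with `|π| ^ (2 M) = |b|`, there is a point `P₁` whose multiples represent all the
components with `|x|` a power of `|π|`, and whose class has order exactly `2 M`. -/
theorem IsNodal.exists_generator [DecidableEq K] [IsAlgClosed K] {π : K} {M : ℕ} (hM : 0 < M)
    (hπ : v π < 1) (hπM : v π ^ (2 * M) = v b) :
    ∃ P₁ : NPoint a b,
      (∀ (P : NPoint a b) (k : ℕ), InPlus A P → v (xc P) = v π ^ k →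
        0 < k ∧ k < M ∧ InG0 A (P - k • P₁)) ∧
      (∀ P : NPoint a b, InMid A P → InG0 A (P - M • P₁)) ∧
      (∀ j : ℕ, InG0 A (j • P₁) → 2 * M ∣ j) := by
  have hbpos : 0 < v b := zero_lt_iff.mpr ((Valuation.ne_zero_iff _).mpr hN.ne_zero)
  have hπ0 : 0 < v π := by
    refine zero_lt_iff.mpr fun h => ?_
    rw [h, zero_pow (by omega)] at hπM
    exact hbpos.ne hπM
  have hlt : ∀ i j : ℕ, v π ^ i < v π ^ j ↔ j < i := fun i j =>
    pow_lt_pow_iff_right_of_lt_one₀ hπ0 hπ
  have hinj : ∀ i j : ℕ, v π ^ i = v π ^ j ↔ i = j := fun i j =>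
    ⟨fun h => le_antisymm (not_lt.mp fun hh => (((hlt i j).mpr hh).ne) h)
      (not_lt.mp fun hh => (((hlt j i).mpr hh).ne) h.symm), fun h => by rw [h]⟩
  -- `Q` represents the `k`-th component
  let Rep : ℕ → NPoint a b → Prop := fun k Q =>
    (k < M ∧ InPlus A Q ∧ v (xc Q) = v π ^ k) ∨ (k = M ∧ InMid A Q)
  have hsub : ∀ k Q Q', Rep k Q → Rep k Q' → InG0 A (Q - Q') := by
    rintro k Q Q' (⟨hk, hQ, hx⟩ | ⟨hk, hQ⟩) (⟨hk', hQ', hx'⟩ | ⟨hk', hQ'⟩)
    · exact hN.plus_sub hQ hQ' (hx.trans hx'.symm)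
    · omega
    · omega
    · exact hN.mid_sub hQ hQ'
  have hex : ∀ u : K, v u = v π → ∃ Q, Rep 1 Q ∧ xc Q = u := by
    intro u hu
    rcases lt_or_ge 1 M with h | h
    · obtain ⟨Q, hQ, hx⟩ := hN.exists_inPlus (x := u) (hu ▸ hπ)
        (by rw [hu, ← hπM]; exact (hlt _ _).mpr (by omega))
      exact ⟨Q, .inl ⟨h, hQ, by rw [hx, hu, pow_one]⟩, hx⟩
    · obtain ⟨y, hy⟩ := hN.exists_point u
      exact ⟨.some u y hy, .inr ⟨by omega, hu ▸ hπ, by rw [hu, ← hπM, show M = 1 by omega]⟩, rfl⟩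
  obtain ⟨P₁, hP₁, hxP₁⟩ := hex π rfl
  obtain ⟨c, hc, hc1⟩ := exists_sep (A := A)
  obtain ⟨P₁', hP₁', hxP₁'⟩ := hex (c * π) (by rw [map_mul, hc, one_mul])
  have hchain : ∀ k, 1 ≤ k → k ≤ M → ∃ Q, Rep k Q ∧ InG0 A (Q - k • P₁) := by
    intro k hk
    induction k, hk using Nat.le_induction with
    | base => exact fun _ => ⟨P₁, hP₁, by simp⟩
    | succ k hk ih =>
      intro hkM
      obtain ⟨Q, hQ, hQk⟩ := ih (by omega)
      have hP₁p : InPlus A P₁ := by
        rcases hP₁ with ⟨-, h, -⟩ | ⟨h, -⟩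
        · exact h
        · omega
      obtain ⟨R, hR, hRk, hRd⟩ : ∃ R, Rep k R ∧ InG0 A (R - k • P₁) ∧
          (v (xc P₁) = v (xc R) → v (xc P₁ - xc R) = v (xc P₁)) := by
        rcases eq_or_lt_of_le hk with rfl | hk1
        · refine ⟨P₁', hP₁', by simpa using hsub 1 _ _ hP₁' hP₁, fun _ => ?_⟩
          rw [hxP₁, hxP₁', show π - c * π = (1 - c) * π by ring, map_mul, hc1, one_mul]
        · refine ⟨Q, hQ, hQk, fun h => ?_⟩
          rcases hQ with ⟨-, -, hx⟩ | ⟨hx, -⟩
          · rw [hxP₁, hx] at h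
            exact absurd ((hinj 1 k).mp (by rwa [pow_one])) hk1.ne
          · omega
      obtain ⟨hRp, hRx⟩ : InPlus A R ∧ v (xc R) = v π ^ k := by
        rcases hR with ⟨-, h⟩ | ⟨h, -⟩
        · exact h
        · omega
      have hprod : (v (xc P₁) * v (xc R)) ^ 2 = v π ^ (2 * (k + 1)) := by
        rw [hxP₁, hRx, ← pow_succ', ← pow_mul, mul_comm]
      have hle : v (xc R) ≤ v (xc P₁) := by
        rw [hxP₁, hRx]
        exact pow_le_of_le_one zero_le hπ.le (by omega)
      have hbl : v b ≤ (v (xc P₁) * v (xc R)) ^ 2 := by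
        rw [hprod, ← hπM]
        exact pow_le_pow_right_of_le_one' hπ.le (by omega)
      obtain ⟨hmid, hplus⟩ := hN.plus_add hP₁p hRp hle hbl hRd
      refine ⟨P₁ + R, ?_, ?_⟩
      · rcases eq_or_lt_of_le hkM with h | h
        · exact .inr ⟨h, hmid (by rw [hprod, h, hπM])⟩
        · obtain ⟨h1, h2⟩ := hplus (by rw [hprod, ← hπM]; exact (hlt _ _).mpr (by omega))
          exact .inl ⟨h, h1, by rw [h2, hxP₁, hRx, pow_succ']⟩
      · rw [succ_nsmul, show P₁ + R - (k • P₁ + P₁) = R - k • P₁ by abel]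
        exact hRk
  refine ⟨P₁, fun P k hP hx => ?_, fun P hP => ?_, fun j hj => ?_⟩
  · obtain ⟨h1, h2, -⟩ := hP.xc_lt
    rw [hx] at h1 h2
    have hk0 : 0 < k := by
      rcases Nat.eq_zero_or_pos k with rfl | h
      · simp at h1
      · exact h
    have hkM : k < M := by
      rw [← hπM, ← pow_mul, hlt] at h2
      omega
    refine ⟨hk0, hkM, ?_⟩
    obtain ⟨Q, hQ, hQk⟩ := hchain k hk0 hkM.le
    rw [show P - k • P₁ = (P - Q) + (Q - k • P₁) by abel]
    exact hN.inG0_add (hsub k _ _ (.inl ⟨hkM, hP, hx⟩) hQ) hQk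
  · obtain ⟨Q, hQ, hQk⟩ := hchain M hM le_rfl
    rw [show P - M • P₁ = (P - Q) + (Q - M • P₁) by abel]
    exact hN.inG0_add (hsub M _ _ (.inr ⟨rfl, hP⟩) hQ) hQk
  · obtain ⟨Q, hQ, hQM⟩ := hchain M hM le_rfl
    have hQmid : InMid A Q := by
      rcases hQ with ⟨h, -⟩ | ⟨-, h⟩
      · omega
      · exact h
    have h2M : InG0 A ((2 * M) • P₁) := by
      have h2 := hN.inG0_sub (hN.mid_add hQmid hQmid) (hN.inG0_add hQM hQM)
      rwa [show Q + Q - (Q - M • P₁ + (Q - M • P₁)) = (2 * M) • P₁ by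
        rw [two_mul, add_nsmul]; abel] at h2
    have hne : ∀ i, 1 ≤ i → i ≤ M → ¬ InG0 A (i • P₁) := by
      intro i hi1 hi2 hi
      obtain ⟨R, hR, hRi⟩ := hchain i hi1 hi2
      have hRG : InG0 A R := by
        have := hN.inG0_add hRi hi
        rwa [sub_add_cancel] at this
      rcases hR with ⟨-, h, -⟩ | ⟨-, h⟩
      · exact h.not_inG0 hRG
      · exact h.not_inG0 hRG
    have hr : InG0 A ((j % (2 * M)) • P₁) := by
      have := hN.inG0_sub hj (hN.inG0_nsmul h2M (j / (2 * M)))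
      conv at this => arg 2; arg 1; rw [← Nat.mod_add_div j (2 * M), add_nsmul]
      rwa [mul_nsmul, add_sub_cancel_right] at this
    rw [Nat.dvd_iff_mod_eq_zero]
    by_contra h0
    have hr1 : j % (2 * M) < 2 * M := Nat.mod_lt _ (by omega)
    by_cases hle : j % (2 * M) ≤ M
    · exact hne _ (by omega) hle hr
    · refine hne (2 * M - j % (2 * M)) (by omega) (by omega) ?_
      have := hN.inG0_sub h2M hr
      conv at this => arg 2; arg 1; rw [← Nat.sub_add_cancel hr1.le, add_nsmul]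
      rwa [add_sub_cancel_right] at this

/-- If `n • P` has nonsingular reduction and `P` is on the branch, then `|x(P)|` is one of the
`|b| ^ (j / n)`. -/
theorem IsNodal.torsion_level [DecidableEq K] [IsAlgClosed K] {P : NPoint a b} (hP : InPlus A P)
    {n : ℕ} (hn : 0 < n) (htor : InG0 A (n • P))
    (hrat : ∃ e k : ℕ, 0 < e ∧ v (xc P) ^ e = v b ^ k) :
    ∃ j : ℕ, 0 < j ∧ 2 * j < n ∧ v (xc P) ^ n = v b ^ j := by
  obtain ⟨e, k, he, hek⟩ := hrat
  obtain ⟨π, rfl⟩ := IsAlgClosed.exists_pow_nat_eq b (n := 2 * e) (by omega)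
  have hb := hN.val_b
  simp only [map_pow] at hb hek ⊢
  have hπ : v π < 1 := (pow_lt_one_iff_of_nonneg zero_le (by omega)).mp hb
  have hx : v (xc P) = v π ^ (2 * k) := by
    refine (pow_left_inj₀ zero_le zero_le he.ne').mp ?_
    rw [hek, ← pow_mul, ← pow_mul]
    congr 1
    ring
  obtain ⟨P₁, h1, -, h3⟩ := hN.exists_generator he hπ (map_pow _ π _).symm
  obtain ⟨hk0, hkM, hPk⟩ := h1 P (2 * k) hP hx
  have h4 : InG0 A ((n * (2 * k)) • P₁) := by
    have := hN.inG0_sub htor (hN.inG0_nsmul hPk n)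
    rwa [nsmul_sub, sub_sub_cancel, ← mul_nsmul'] at this
  obtain ⟨j, hj⟩ := h3 _ h4
  have hjn : n * k = e * j := by
    have : 2 * (n * k) = 2 * (e * j) := by linarith [hj]
    omega
  refine ⟨j, ?_, ?_, ?_⟩
  · rcases Nat.eq_zero_or_pos j with rfl | h
    · simp only [Nat.mul_zero, Nat.mul_eq_zero] at hjn; omega
    · exact h
  · by_contra hle
    have h1 : e * n ≤ e * (2 * j) := Nat.mul_le_mul_left e (not_lt.mp hle)
    have h2 : n * (2 * k) < n * e := Nat.mul_lt_mul_of_pos_left hkM hn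
    nlinarith
  · rw [hx, ← pow_mul, ← pow_mul]
    congr 1
    linarith

/-- A point in the middle component has even order modulo nonsingular reduction. -/
theorem IsNodal.mid_torsion_even [DecidableEq K] [IsAlgClosed K] {P : NPoint a b}
    (hP : InMid A P) {n : ℕ} (htor : InG0 A (n • P)) : 2 ∣ n := by
  obtain ⟨π, rfl⟩ := IsAlgClosed.exists_pow_nat_eq b (n := 2 * 1) (by omega)
  have hb := hN.val_b
  rw [map_pow] at hb
  have hπ : v π < 1 := (pow_lt_one_iff_of_nonneg zero_le (by omega)).mp hb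
  obtain ⟨P₁, -, h2, h3⟩ := hN.exists_generator one_pos hπ (map_pow _ π _).symm
  have h4 := hN.inG0_sub htor (hN.inG0_nsmul (h2 P hP) n)
  rw [one_nsmul, nsmul_sub, sub_sub_cancel] at h4
  exact h3 _ h4

/-- The `n`-torsion of the component group has at most `n` elements. -/
theorem IsNodal.exists_component_label [DecidableEq K] [IsAlgClosed K] {n : ℕ} (hn : 0 < n)
    (hrat : ∀ x : K, x ≠ 0 → v x < 1 → ∃ e k : ℕ, 0 < e ∧ v x ^ e = v b ^ k) :
    ∃ lab : NPoint a b → Fin n, ∀ P Q : NPoint a b, InG0 A (n • P) → InG0 A (n • Q) →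
      lab P = lab Q → InG0 A (P - Q) := by
  let Lab : NPoint a b → ℕ → Prop := fun P i =>
    (i = 0 ∧ InG0 A P) ∨ (0 < i ∧ 2 * i < n ∧ InPlus A P ∧ v (xc P) ^ n = v b ^ i) ∨
      (n < 2 * i ∧ InPlus A (-P) ∧ v (xc (-P)) ^ n = v b ^ (n - i)) ∨ (2 * i = n ∧ InMid A P)
  have hlab : ∀ P : NPoint a b, InG0 A (n • P) → ∃ i : Fin n, Lab P i := by
    intro P hP
    by_cases hG : InG0 A P
    · exact ⟨⟨0, hn⟩, .inl ⟨rfl, hG⟩⟩
    have hrat' : ∀ R : NPoint a b, InPlus A R → ∃ e k : ℕ, 0 < e ∧ v (xc R) ^ e = v b ^ k := by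
      intro R hR
      obtain ⟨h1, h2, -⟩ := hR.xc_lt
      refine hrat _ (fun h => ?_) h1
      rw [h, map_zero, zero_pow two_ne_zero] at h2
      exact not_lt.mpr zero_le h2
    rcases hN.trichotomy hG with h | h | h
    · obtain ⟨m, rfl⟩ := hN.mid_torsion_even h hP
      exact ⟨⟨m, by omega⟩, .inr (.inr (.inr ⟨rfl, h⟩))⟩
    · obtain ⟨j, hj0, hjn, hj⟩ := hN.torsion_level h hn hP (hrat' P h)
      exact ⟨⟨j, by omega⟩, .inr (.inl ⟨hj0, hjn, h, hj⟩)⟩
    · obtain ⟨j, hj0, hjn, hj⟩ := hN.torsion_level h hn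
        (by rw [neg_nsmul]; exact hN.inG0_neg hP) (hrat' _ h)
      refine ⟨⟨n - j, by omega⟩, .inr (.inr (.inl ⟨?_, h, ?_⟩))⟩
      · show n < 2 * (n - j); omega
      · show _ = v b ^ (n - (n - j))
        rwa [show n - (n - j) = j by omega]
  classical
  refine ⟨fun P => if h : InG0 A (n • P) then (hlab P h).choose else ⟨0, hn⟩, ?_⟩
  intro P Q hP hQ heq
  simp only [dif_pos hP, dif_pos hQ] at heq
  have hLP := (hlab P hP).choose_spec
  have hLQ := (hlab Q hQ).choose_spec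
  rw [← heq] at hLQ
  revert hLP hLQ
  generalize (((hlab P hP).choose : Fin n) : ℕ) = i
  rintro (⟨h1, h⟩ | ⟨h1, h1', h, hx⟩ | ⟨h1, h, hx⟩ | ⟨h1, h⟩)
    (⟨h2, h'⟩ | ⟨h2, h2', h', hx'⟩ | ⟨h2, h', hx'⟩ | ⟨h2, h'⟩) <;>
    first
      | omega
      | exact hN.inG0_sub h h'
      | exact hN.mid_sub h h'
      | exact hN.plus_sub h h' ((pow_left_inj₀ zero_le zero_le hn.ne').mp (hx.trans hx'.symm))
      | (have := hN.plus_sub h' h ((pow_left_inj₀ zero_le zero_le hn.ne').mp (hx'.trans hx.symm))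
         rwa [sub_neg_eq_add, neg_add_eq_sub] at this)

end

end Fermat.Agent.Multiplicative
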