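import Fermat.Agent.Multiplicative.NodalGroup

/-!
# The components of the nodal normal form

A point of `y (y + a x) = x³ + b` reducing to the node is either in the middle component
(`|x|² ≤ |b|`) or, up to sign, on the branch `|y| < |x|`; in the latter case its class modulo
the points with nonsingular reduction only depends on `|x|`, and is additive in `|x|`.
-/

set_option autoImplicit false

noncomputable section

namespace Fermat.Agent.Multiplicative

open WeierstrassCurve WeierstrassCurve.Affine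

variable {K : Type*} [Field K] {a b : K}

/-- The middle component. -/
def InMid (A : ValuationSubring K) : NPoint a b → Prop
  | .zero => False
  | .some x _ _ => A.valuation x < 1 ∧ A.valuation x ^ 2 ≤ A.valuation b

/-- The branch `|y| < |x|` through the node, outside of the middle component. -/
def InPlus (A : ValuationSubring K) : NPoint a b → Prop
  | .zero => False
  | .some x y _ => A.valuation x < 1 ∧ A.valuation b < A.valuation x ^ 2 ∧
      A.valuation y < A.valuation x

/-- The `x`-coordinate, with junk value `0` at infinity. -/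
def xc : NPoint a b → K
  | .zero => 0
  | .some x _ _ => x

/-- The `y`-coordinate, with junk value `0` at infinity. -/
def yc : NPoint a b → K
  | .zero => 0
  | .some _ y _ => y

variable {A : ValuationSubring K}

local notation "v" => ValuationSubring.valuation A

/-- The `x`-coordinate of an affine point. -/
@[simp] theorem xc_some {x y : K} (h : (nodalCurve a b).Nonsingular x y) :
    xc (Point.some x y h) = x := rfl

/-- The `y`-coordinate of an affine point. -/
@[simp] theorem yc_some {x y : K} (h : (nodalCurve a b).Nonsingular x y) :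
    yc (Point.some x y h) = y := rfl

/-- `InMid` for an affine point is `|x| < 1` and `|x|² ≤ |b|`. -/
@[simp] theorem inMid_some {x y : K} (h : (nodalCurve a b).Nonsingular x y) :
    InMid A (Point.some x y h) ↔ v x < 1 ∧ v x ^ 2 ≤ v b := Iff.rfl

/-- `InPlus` for an affine point is `|x| < 1`, `|b| < |x|²` and `|y| < |x|`. -/
@[simp] theorem inPlus_some {x y : K} (h : (nodalCurve a b).Nonsingular x y) :
    InPlus A (Point.some x y h) ↔ v x < 1 ∧ v b < v x ^ 2 ∧ v y < v x := Iff.rfl

/-- Points of the middle component have singular reduction. -/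
theorem InMid.not_inG0 {P : NPoint a b} (h : InMid A P) : ¬ InG0 A P := by
  match P, h with
  | .some x y _, h => exact fun hg => absurd ((inG0_some _).mp hg) (not_le.mpr h.1)

/-- Points of the plus branch have singular reduction. -/
theorem InPlus.not_inG0 {P : NPoint a b} (h : InPlus A P) : ¬ InG0 A P := by
  match P, h with
  | .some x y _, h => exact fun hg => absurd ((inG0_some _).mp hg) (not_le.mpr h.1)

/-- The inequalities defining the middle component, in coordinates. -/
theorem InMid.xc_lt {P : NPoint a b} (h : InMid A P) :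
    v (xc P) < 1 ∧ v (xc P) ^ 2 ≤ v b := by
  match P, h with
  | .some x y _, h => exact h

/-- The inequalities defining the plus branch, in coordinates. -/
theorem InPlus.xc_lt {P : NPoint a b} (h : InPlus A P) :
    v (xc P) < 1 ∧ v b < v (xc P) ^ 2 ∧ v (yc P) < v (xc P) := by
  match P, h with
  | .some x y _, h => exact h

section

variable (hN : IsNodal A a b)

include hN

theorem IsNodal.node_facts {x y : K} (h : y * (y + a * x) = x ^ 3 + b) (hx : v x < 1)
    (hb : v b < v x ^ 2) :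
    (v y < v x ∧ v (y + a * x) = v x) ∨ (v (y + a * x) < v x ∧ v y = v x) := by
  have hxpos : 0 < v x := by
    refine zero_lt_iff.mpr fun h0 => ?_
    rw [h0, zero_pow two_ne_zero] at hb
    exact not_lt.mpr zero_le hb
  have hrhs : v y * v (y + a * x) < v x ^ 2 := by
    rw [← map_mul, h]
    refine Valuation.map_add_lt _ ?_ hb
    rw [map_pow]
    exact pow_lt_pow_right_of_lt_one₀ hxpos hx (by norm_num)
  rcases lt_or_ge (v y) (v x) with hy | hy
  · exact .inl ⟨hy, by rw [Valuation.map_add_eq_of_lt_right _ (by rwa [hN.val_mul_a]),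
      hN.val_mul_a]⟩
  · have hw : v (y + a * x) < v x := by
      by_contra hw
      rw [sq] at hrhs
      exact absurd hrhs (not_lt.mpr (mul_le_mul' hy (not_lt.mp hw)))
    refine .inr ⟨hw, ?_⟩
    rw [show y = (y + a * x) - a * x by ring,
      Valuation.map_sub_eq_of_lt_right _ (by rwa [hN.val_mul_a]), hN.val_mul_a]

/-- On the plus branch `|y + a x| = |x|`. -/
theorem IsNodal.val_w_of_inPlus {x y : K} (h : (nodalCurve a b).Nonsingular x y)
    (hP : InPlus A (Point.some x y h)) : v (y + a * x) = v x := by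
  rcases hN.node_facts (hN.eqn h) hP.1 hP.2.1 with h' | h'
  · exact h'.2
  · exact absurd hP.2.2 (h'.2 ▸ lt_irrefl _)

/-- On the middle component `|y|² = |y + a x|² = |b|` and `|x|³ < |b|`. -/
theorem IsNodal.mid_facts {x y : K} (h : y * (y + a * x) = x ^ 3 + b) (hx : v x < 1)
    (hb : v x ^ 2 ≤ v b) :
    v x ^ 3 < v b ∧ v y ^ 2 = v b ∧ v (y + a * x) ^ 2 = v b := by
  have hbpos : 0 < v b := zero_lt_iff.mpr ((Valuation.ne_zero_iff _).mpr hN.ne_zero)
  have hx3 : v x ^ 3 < v b := by
    rcases eq_or_lt_of_le (zero_le (a := v x)) with h0 | h0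
    · rw [← h0, zero_pow (by norm_num)]; exact hbpos
    · exact lt_of_lt_of_le (pow_lt_pow_right_of_lt_one₀ h0 hx (by norm_num)) hb
  have hprod : v y * v (y + a * x) = v b := by
    rw [← map_mul, h, Valuation.map_add_eq_of_lt_right _ (by rwa [map_pow])]
  have key : v y ^ 2 ≤ v b ∧ v (y + a * x) ^ 2 ≤ v b := by
    rcases le_total (v y) (v x) with hy | hy
    · refine ⟨(pow_le_pow_left₀ zero_le hy 2).trans hb, le_trans (pow_le_pow_left₀ zero_le ?_ 2) hb⟩
      exact (Valuation.map_add _ _ _).trans (max_le hy (hN.val_mul_a x).le)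
    · have hw : v (y + a * x) ≤ v y :=
        (Valuation.map_add _ _ _).trans (max_le le_rfl ((hN.val_mul_a x).trans_le hy))
      rcases eq_or_lt_of_le hy with heq | hlt
      · exact ⟨by rwa [← heq], (pow_le_pow_left₀ zero_le (hw.trans heq.ge) 2).trans hb⟩
      · have hw' : v (y + a * x) = v y :=
          Valuation.map_add_eq_of_lt_left _ (by rwa [hN.val_mul_a])
        rw [hw', ← sq] at hprod
        exact ⟨hprod.le, hw' ▸ hprod.le⟩
  have hsq : v y ^ 2 * v (y + a * x) ^ 2 = v b * v b := by rw [← mul_pow, hprod, sq]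
  refine ⟨hx3, ?_, ?_⟩
  · refine le_antisymm key.1 (not_lt.mp fun hlt => ?_)
    exact absurd hsq (ne_of_lt (lt_of_le_of_lt (mul_le_mul_right key.2 _)
      (mul_lt_mul_of_pos_right hlt hbpos)))
  · refine le_antisymm key.2 (not_lt.mp fun hlt => ?_)
    exact absurd hsq (ne_of_lt (lt_of_le_of_lt (mul_le_mul_left key.1 _)
      (mul_lt_mul_of_pos_left hlt hbpos)))

/-- A point reducing to the node is in the middle component or, up to sign, on the branch. -/
theorem IsNodal.trichotomy {P : NPoint a b} (h : ¬ InG0 A P) :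
    InMid A P ∨ InPlus A P ∨ InPlus A (-P) := by
  match P, h with
  | .zero, h => exact absurd trivial h
  | .some x y hn, h =>
    rw [inG0_some, not_le] at h
    rcases le_or_gt (v x ^ 2) (v b) with hb | hb
    · exact .inl ⟨h, hb⟩
    · refine .inr ?_
      rcases hN.node_facts (hN.eqn hn) h hb with h' | h'
      · exact .inl ⟨h, hb, h'.1⟩
      · refine .inr ?_
        rw [Point.neg_some, inPlus_some, nodal_negY, Valuation.map_neg]
        exact ⟨h, hb, h'.1⟩

omit hN in
theorem IsNodal.inMid_neg (_hN : IsNodal A a b) {P : NPoint a b} (h : InMid A P) :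
    InMid A (-P) := by
  match P, h with
  | .some x y _, h => exact h

/-- The middle component is of order two modulo nonsingular reduction. -/
theorem IsNodal.mid_add [DecidableEq K] {P Q : NPoint a b} (hP : InMid A P) (hQ : InMid A Q) :
    InG0 A (P + Q) := by
  match P, Q, hP, hQ with
  | .some x₁ y₁ h₁, .some x₂ y₂ h₂, hP, hQ =>
    by_cases hxy : x₁ = x₂ ∧ y₁ = (nodalCurve a b).negY x₂ y₂
    · rw [Point.add_of_Y_eq hxy.1 hxy.2]; exact inG0_zero
    obtain ⟨l, m, x₃, h₃, hadd, hl, hy₁, hy₂, e₁, -, -⟩ := exists_line h₁ h₂ hxy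
    obtain ⟨hx₁3, hy₁s, hw₁s⟩ := hN.mid_facts (hN.eqn h₁) hP.1 hP.2
    obtain ⟨hx₂3, hy₂s, hw₂s⟩ := hN.mid_facts (hN.eqn h₂) hQ.1 hQ.2
    have hbpos : 0 < v b := zero_lt_iff.mpr ((Valuation.ne_zero_iff _).mpr hN.ne_zero)
    suffices hkey : 1 ≤ v l ∧ 1 ≤ v (l + a) by
      rw [hadd, inG0_some, show x₃ = l * (l + a) - (x₁ + x₂) by rw [← e₁]; ring,
        Valuation.map_sub_eq_of_lt_left, map_mul]
      · exact one_le_mul hkey.1 hkey.2
      · rw [map_mul]
        exact lt_of_lt_of_le (Valuation.map_add_lt _ hP.1 hQ.1) (one_le_mul hkey.1 hkey.2)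
    by_cases hx : x₁ = x₂
    · have hne : y₁ ≠ (nodalCurve a b).negY x₂ y₂ := fun h => hxy ⟨hx, h⟩
      have hyy : y₁ = y₂ := Y_eq_of_Y_ne h₁.1 h₂.1 hx hne
      subst hx hyy
      rw [slope_of_Y_ne rfl hne, nodal_negY, sub_neg_eq_add] at hl
      simp only [nodalCurve, mul_zero, zero_mul, add_zero] at hl
      have hyw : v (y₁ + a * x₁) = v y₁ :=
        (pow_left_inj₀ zero_le zero_le two_ne_zero).mp (hw₁s.trans hy₁s.symm)
      have hden : v (y₁ + (y₁ + a * x₁)) ≤ v y₁ :=
        (Valuation.map_add _ _ _).trans (max_le le_rfl hyw.le)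
      have hden0 : y₁ + (y₁ + a * x₁) ≠ 0 := by
        intro h0
        apply hne
        rw [nodal_negY]
        linear_combination h0
      have hypos : 0 < v y₁ := by
        refine zero_lt_iff.mpr fun h0 => ?_
        rw [h0, zero_pow two_ne_zero] at hy₁s
        exact hbpos.ne hy₁s
      have hsmall : v (3 * x₁ ^ 2) < v y₁ := by
        rw [map_mul, map_pow]
        refine lt_of_le_of_lt ((mul_le_of_le_one_left'
          ((A.valuation_le_one_iff (3 : K)).mpr (natCast_mem A 3))).trans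
            (hP.2.trans hy₁s.ge)) ?_
        have hy1 : v y₁ < 1 := (hN.val_y_of_lt_one (hN.eqn h₁) hP.1).1
        exact pow_lt_self_of_lt_one₀ hypos hy1 one_lt_two
      have hla : l + a = (3 * x₁ ^ 2 + a * (y₁ + a * x₁)) / (y₁ + (y₁ + a * x₁)) := by
        rw [hl, eq_div_iff hden0, add_mul, div_mul_cancel₀ _ hden0]
        ring
      refine ⟨?_, ?_⟩
      · rw [hl, map_div₀, one_le_div₀ (zero_lt_iff.mpr ((Valuation.ne_zero_iff _).mpr hden0)),
          Valuation.map_sub_eq_of_lt_right _ (by rwa [hN.val_mul_a]), hN.val_mul_a]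
        exact hden
      · have hnum : v (3 * x₁ ^ 2 + a * (y₁ + a * x₁)) = v y₁ := by
          rw [Valuation.map_add_eq_of_lt_right] <;> rw [hN.val_mul_a, hyw]
          exact hsmall
        rw [hla, map_div₀, one_le_div₀ (zero_lt_iff.mpr ((Valuation.ne_zero_iff _).mpr hden0)),
          hnum]
        exact hden
    · set d := x₁ - x₂ with hd
      have hd0 : d ≠ 0 := sub_ne_zero.mpr hx
      have hlineq : l * d = y₁ - y₂ := by rw [hy₁, hy₂, hd]; ring
      have e1 := hN.eqn h₁
      have e2 := hN.eqn h₂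
      have hprod : v (y₁ * y₂) = v b := by
        refine (pow_left_inj₀ zero_le zero_le two_ne_zero).mp ?_
        rw [map_mul, mul_pow, hy₁s, hy₂s, sq]
      have hU : v (b + x₂ ^ 3) = v b := Valuation.map_add_eq_of_lt_left _ (by rwa [map_pow])
      have hy12 : y₁ * y₂ ≠ 0 := (Valuation.ne_zero_iff _).mp (hprod ▸ hbpos.ne')
      have hE : v (y₂ * (x₁ ^ 2 + x₁ * x₂ + x₂ ^ 2)) < v b := by
        rw [map_mul]
        have hy1 : v y₂ < 1 := (hN.val_y_of_lt_one (hN.eqn h₂) hQ.1).1
        have hq : v (x₁ ^ 2 + x₁ * x₂ + x₂ ^ 2) ≤ v b := by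
          refine (Valuation.map_add _ _ _).trans (max_le ((Valuation.map_add _ _ _).trans
            (max_le (by rw [map_pow]; exact hP.2) ?_)) (by rw [map_pow]; exact hQ.2))
          refine (pow_le_pow_iff_left₀ zero_le zero_le two_ne_zero).mp ?_
          rw [map_mul, mul_pow, sq (v b)]
          exact mul_le_mul' hP.2 hQ.2
        exact lt_of_le_of_lt (mul_le_mul_right hq _)
          (by simpa using mul_lt_mul_of_pos_right hy1 hbpos)
      have hmain : (l + a) * (y₁ * y₂) =
          -(l * (b + x₂ ^ 3)) + y₂ * (x₁ ^ 2 + x₁ * x₂ + x₂ ^ 2) := by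
        refine mul_right_cancel₀ hd0 ?_
        rw [hd] at hlineq ⊢
        linear_combination y₂ * e1 - y₁ * e2 + (y₁ * y₂ + b + x₂ ^ 3) * hlineq
      have hl1 : 1 ≤ v l := by
        by_contra hl1
        rw [not_le] at hl1
        have h := congrArg A.valuation hmain
        rw [map_mul, hprod, Valuation.map_add_eq_of_lt_right _ (by rwa [hN.val_a]), hN.val_a,
          one_mul] at h
        have hlt : v (-(l * (b + x₂ ^ 3)) + y₂ * (x₁ ^ 2 + x₁ * x₂ + x₂ ^ 2)) < v b := by
          refine Valuation.map_add_lt _ ?_ hE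
          rw [Valuation.map_neg, map_mul, hU]
          exact mul_lt_of_lt_one_left hbpos hl1
        exact absurd h hlt.ne'
      refine ⟨hl1, hl1.trans (le_of_eq ?_)⟩
      refine mul_right_cancel₀ hbpos.ne' ?_
      conv_rhs => rw [← hprod, ← map_mul, hmain]
      have hlU : v (-(l * (b + x₂ ^ 3))) = v l * v b := by
        rw [Valuation.map_neg, map_mul, hU]
      rw [Valuation.map_add_eq_of_lt_left _
        (by rw [hlU]; exact lt_of_lt_of_le hE (le_mul_of_one_le_left' hl1)), hlU]

/-- The difference of two points of the middle component has nonsingular reduction. -/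
theorem IsNodal.mid_sub [DecidableEq K] {P Q : NPoint a b} (hP : InMid A P) (hQ : InMid A Q) :
    InG0 A (P - Q) := by
  rw [sub_eq_add_neg]; exact hN.mid_add hP (hN.inMid_neg hQ)

/-- On the branch the component only depends on `|x|`. -/
theorem IsNodal.plus_sub [DecidableEq K] {P Q : NPoint a b} (hP : InPlus A P) (hQ : InPlus A Q)
    (hx : v (xc P) = v (xc Q)) : InG0 A (P - Q) := by
  match P, Q, hP, hQ with
  | .some x₁ y₁ h₁, .some x₂ y₂ h₂, hP, hQ =>
    simp only [xc_some] at hx
    rw [sub_eq_add_neg, Point.neg_some]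
    have hw₁ := hN.val_w_of_inPlus h₁ hP
    have hw₂ := hN.val_w_of_inPlus h₂ hQ
    by_cases hxy : x₁ = x₂ ∧ y₁ = (nodalCurve a b).negY x₂ ((nodalCurve a b).negY x₂ y₂)
    · rw [Point.add_of_Y_eq hxy.1 hxy.2]; exact inG0_zero
    obtain ⟨l, m, x₃, h₃, hadd, -, hy₁, hy₂, e₁, -, -⟩ :=
      exists_line h₁ ((nonsingular_neg ..).mpr h₂) hxy
    rw [hadd, inG0_some]
    rw [nodal_negY] at hy₂
    have hnum : v (y₁ + (y₂ + a * x₂)) = v x₁ := by
      rw [Valuation.map_add_eq_of_lt_right _ (by rw [hw₂]; exact hx ▸ hP.2.2), hw₂, hx]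
    have hnum' : v (y₁ + a * x₁ + y₂) = v x₁ := by
      rw [Valuation.map_add_eq_of_lt_left _ (by rw [hw₁, hx]; exact hQ.2.2), hw₁]
    have hl : l * (x₁ - x₂) = y₁ + (y₂ + a * x₂) := by linear_combination -hy₁ + hy₂
    have hla : (l + a) * (x₁ - x₂) = y₁ + a * x₁ + y₂ := by linear_combination -hy₁ + hy₂
    have hden : v (x₁ - x₂) ≤ v x₁ := (Valuation.map_sub _ _ _).trans (max_le le_rfl hx.ge)
    have hxpos : 0 < v x₁ := lt_of_le_of_lt zero_le hP.2.2
    have bound : ∀ z : K, v (z * (x₁ - x₂)) = v x₁ → 1 ≤ v z := by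
      intro z hz
      by_contra hlt
      rw [not_le] at hlt
      rw [map_mul] at hz
      refine absurd hz (ne_of_lt ?_)
      exact lt_of_le_of_lt (mul_le_mul_right hden _) (mul_lt_of_lt_one_left hxpos hlt)
    have h1 : 1 ≤ v l := bound l (by rw [hl]; exact hnum)
    have h2 : 1 ≤ v (l + a) := bound _ (by rw [hla]; exact hnum')
    rw [show x₃ = l * (l + a) - (x₁ + x₂) by rw [← e₁]; ring,
      Valuation.map_sub_eq_of_lt_left, map_mul]
    · exact one_le_mul h1 h2
    · rw [map_mul]
      exact lt_of_lt_of_le (Valuation.map_add_lt _ hP.1 hQ.1) (one_le_mul h1 h2)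

/-- Additivity along the branch. -/
theorem IsNodal.plus_add [DecidableEq K] {P Q : NPoint a b} (hP : InPlus A P) (hQ : InPlus A Q)
    (hle : v (xc Q) ≤ v (xc P)) (hb : v b ≤ (v (xc P) * v (xc Q)) ^ 2)
    (hne : v (xc P) = v (xc Q) → v (xc P - xc Q) = v (xc P)) :
    (v b = (v (xc P) * v (xc Q)) ^ 2 → InMid A (P + Q)) ∧
    (v b < (v (xc P) * v (xc Q)) ^ 2 →
      InPlus A (P + Q) ∧ v (xc (P + Q)) = v (xc P) * v (xc Q)) := by
  match P, Q, hP, hQ with
  | .some x₁ y₁ h₁, .some x₂ y₂ h₂, hP, hQ =>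
    simp only [xc_some] at hle hb hne ⊢
    obtain ⟨hx₁, hb₁, hy₁x⟩ := hP
    obtain ⟨hx₂, hb₂, hy₂x⟩ := hQ
    have hw₁ := hN.val_w_of_inPlus h₁ ⟨hx₁, hb₁, hy₁x⟩
    have hw₂ := hN.val_w_of_inPlus h₂ ⟨hx₂, hb₂, hy₂x⟩
    have hx1pos : 0 < v x₁ := lt_of_le_of_lt zero_le hy₁x
    have hx2pos : 0 < v x₂ := lt_of_le_of_lt zero_le hy₂x
    have hd : v (x₁ - x₂) = v x₁ := by
      rcases eq_or_lt_of_le hle with h | h
      · exact hne h.symm
      · exact Valuation.map_sub_eq_of_lt_left _ h
    have hxne : x₁ ≠ x₂ := by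
      intro h
      rw [h, sub_self, map_zero] at hd
      exact hx2pos.ne hd
    have hxy : ¬(x₁ = x₂ ∧ y₁ = (nodalCurve a b).negY x₂ y₂) := fun h => hxne h.1
    obtain ⟨l, m, x₃, h₃, hadd, -, hy₁, hy₂, e₁, e₂, e₃⟩ := exists_line h₁ h₂ hxy
    have e1 := hN.eqn h₁
    have e2 := hN.eqn h₂
    have hb4 : v b ≤ v x₁ ^ 4 := hb.trans <| by
      rw [show v x₁ ^ 4 = (v x₁ * v x₁) ^ 2 by rw [← sq, ← pow_mul]]
      exact pow_le_pow_left₀ zero_le (mul_le_mul_right hle _) 2
    have hb3 : v b < v x₁ ^ 3 :=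
      hb4.trans_lt (pow_lt_pow_right_of_lt_one₀ hx1pos hx₁ (by norm_num))
    have hy1v : v y₁ = v x₁ ^ 2 := by
      refine mul_right_cancel₀ hx1pos.ne' ?_
      conv_lhs => arg 2; rw [← hw₁]
      rw [← map_mul, e1, Valuation.map_add_eq_of_lt_left _ (by rwa [map_pow]), map_pow, ← pow_succ]
    have hy2v : v y₂ * v x₂ ≤ max (v x₂ ^ 3) (v b) := by
      conv_lhs => arg 2; rw [← hw₂]
      rw [← map_mul, e2, ← map_pow]
      exact Valuation.map_add _ _ _
    have hy2le : v y₂ ≤ v x₁ ^ 2 := by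
      refine le_of_mul_le_mul_right (hy2v.trans (max_le ?_ ?_)) hx2pos
      · rw [pow_succ]
        exact mul_le_mul_left (pow_le_pow_left₀ zero_le hle 2) _
      · refine hb.trans ?_
        rw [mul_pow, sq (v x₂)]
        exact mul_le_mul_right (mul_le_of_le_one_left' hx₂.le) _
    have hmd : m * (x₁ - x₂) = x₁ * y₂ - x₂ * y₁ := by rw [hy₁, hy₂]; ring
    have hld : l * (x₁ - x₂) = y₁ - y₂ := by rw [hy₁, hy₂]; ring
    have hl : v l ≤ v x₁ := by
      refine le_of_mul_le_mul_right (a := v x₁) ?_ hx1pos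
      conv_lhs => rw [← hd, ← map_mul, hld]
      rw [← sq]
      exact (Valuation.map_sub _ _ _).trans (max_le hy1v.le hy2le)
    have hm : v m = v x₁ * v x₂ := by
      refine mul_right_cancel₀ hx1pos.ne' ?_
      conv_lhs => rw [← hd, ← map_mul, hmd]
      rcases eq_or_lt_of_le hle with heq | hlt
      · have hexp : ∀ x y : K, y * (y + a * x) = x ^ 3 + b →
            a * x * y = x ^ 3 + (b - y ^ 2) := fun x y h => by linear_combination h
        have hs : ∀ x y : K, v x = v x₁ → v y ≤ v x₁ ^ 2 → v (b - y ^ 2) ≤ v x₁ ^ 4 := by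
          intro x y _ hy
          refine (Valuation.map_sub _ _ _).trans (max_le hb4 ?_)
          rw [map_pow, show (4 : ℕ) = 2 * 2 from rfl, pow_mul]
          exact pow_le_pow_left₀ zero_le hy 2
        have hmain : a * (x₁ * x₂) * (x₁ * y₂ - x₂ * y₁) =
            x₁ * x₁ * (x₂ ^ 3 + (b - y₂ ^ 2)) - x₂ * x₂ * (x₁ ^ 3 + (b - y₁ ^ 2)) := by
          rw [← hexp _ _ e1, ← hexp _ _ e2]; ring
        have hbig : v (x₁ * x₁ * x₂ ^ 3 - x₂ * x₂ * x₁ ^ 3) = v x₁ ^ 5 := by
          rw [show x₁ * x₁ * x₂ ^ 3 - x₂ * x₂ * x₁ ^ 3 = -(x₁ ^ 2 * x₂ ^ 2 * (x₁ - x₂)) by ring,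
            Valuation.map_neg, map_mul, map_mul, map_pow, map_pow, hd, heq]
          simp only [pow_succ, pow_zero, one_mul, mul_assoc]
        have hsmall : v (x₁ * x₁ * (b - y₂ ^ 2) - x₂ * x₂ * (b - y₁ ^ 2)) < v x₁ ^ 5 := by
          refine lt_of_le_of_lt (?_ : _ ≤ v x₁ ^ 6) (pow_lt_pow_right_of_lt_one₀ hx1pos hx₁
            (by norm_num))
          refine (Valuation.map_sub _ _ _).trans (max_le ?_ ?_)
          · rw [map_mul, map_mul, show (6 : ℕ) = 1 + 1 + 4 from rfl, pow_add, pow_add, pow_one]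
            exact mul_le_mul_right (hs x₂ y₂ heq hy2le) _
          · rw [map_mul, map_mul, heq, show (6 : ℕ) = 1 + 1 + 4 from rfl, pow_add, pow_add, pow_one]
            exact mul_le_mul_right (hs x₁ y₁ rfl hy1v.le) _
        have hv : v (a * (x₁ * x₂) * (x₁ * y₂ - x₂ * y₁)) = v x₁ ^ 5 := by
          rw [hmain, show x₁ * x₁ * (x₂ ^ 3 + (b - y₂ ^ 2)) - x₂ * x₂ * (x₁ ^ 3 + (b - y₁ ^ 2)) =
              (x₁ * x₁ * x₂ ^ 3 - x₂ * x₂ * x₁ ^ 3) +
                (x₁ * x₁ * (b - y₂ ^ 2) - x₂ * x₂ * (b - y₁ ^ 2)) by ring,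
            Valuation.map_add_eq_of_lt_left _ (by rwa [hbig]), hbig]
        rw [map_mul, hN.val_mul_a, map_mul, heq] at hv
        refine mul_left_cancel₀ (mul_ne_zero hx1pos.ne' hx1pos.ne') ?_
        rw [hv, heq]
        simp only [pow_succ, pow_zero, one_mul, mul_assoc]
      · rw [Valuation.map_sub_eq_of_lt_right, map_mul, hy1v, sq]
        · ac_rfl
        · rw [map_mul, map_mul, hy1v]
          refine lt_of_mul_lt_mul_right' (a := v x₂) ?_
          rw [mul_assoc]
          refine lt_of_le_of_lt (mul_le_mul_right hy2v _) ?_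
          rw [mul_max, max_lt_iff]
          constructor
          · calc v x₁ * v x₂ ^ 3 = v x₂ * v x₂ * (v x₁ * v x₂) := by
                  simp only [pow_succ, pow_zero, one_mul]; ac_rfl
              _ < v x₂ * v x₂ * (v x₁ * v x₁) :=
                  mul_lt_mul_of_pos_left (mul_lt_mul_of_pos_left hlt hx1pos)
                    (mul_pos hx2pos hx2pos)
              _ = v x₂ * v x₁ ^ 2 * v x₂ := by rw [sq]; ac_rfl
          · calc v x₁ * v b ≤ v x₁ * (v x₁ * v x₂) ^ 2 := mul_le_mul_right hb _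
              _ = v x₁ * (v x₁ ^ 2 * (v x₂ * v x₂)) := by rw [mul_pow, sq (v x₂)]
              _ < 1 * (v x₁ ^ 2 * (v x₂ * v x₂)) :=
                  mul_lt_mul_of_pos_right hx₁ (mul_pos (pow_pos hx1pos 2) (mul_pos hx2pos hx2pos))
              _ = v x₂ * v x₁ ^ 2 * v x₂ := by rw [one_mul]; ac_rfl
    have hprod : 0 < v x₁ * v x₂ := mul_pos hx1pos hx2pos
    have hsmall : v x₁ * v x₂ < 1 := mul_lt_one_of_nonneg_of_lt_one_left zero_le hx₁ hx₂.le
    have hx3le : v x₃ ≤ v x₁ * v x₂ := by
      refine le_of_mul_le_mul_left (a := v x₁ * v x₂) ?_ hprod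
      rw [← map_mul, ← map_mul, e₃, map_mul, ← sq]
      refine (Valuation.map_sub _ _ _).trans (max_le ?_ hb)
      rw [map_pow, hm]
    refine ⟨fun heqb => ?_, fun hltb => ?_⟩
    · rw [hadd]
      refine ⟨hx3le.trans_lt hsmall, ?_⟩
      rw [heqb]
      exact pow_le_pow_left₀ zero_le hx3le 2
    · have hx3 : v x₃ = v x₁ * v x₂ := by
        refine mul_left_cancel₀ hprod.ne' ?_
        conv_lhs => rw [← map_mul, ← map_mul, e₃]
        rw [Valuation.map_sub_eq_of_lt_left _ (by rw [map_pow, hm]; exact hltb), map_pow, hm, sq]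
      rw [hadd]
      refine ⟨⟨hx3 ▸ hsmall, hx3 ▸ hltb, ?_⟩, hx3⟩
      have hy3 : v (l * x₃ + m) = v x₃ := by
        rw [Valuation.map_add_eq_of_lt_right, hm, hx3]
        rw [hm, map_mul, hx3]
        exact mul_lt_of_lt_one_left hprod (hl.trans_lt hx₁)
      have e3 := hN.eqn h₃
      rcases hN.node_facts (x := x₃) (y := l * x₃ + m) (by linear_combination e3)
        (hx3 ▸ hsmall) (hx3 ▸ hltb) with h' | h'
      · exact absurd h'.1 (hy3 ▸ lt_irrefl _)
      · rw [Valuation.map_neg]
        exact h'.1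

end

end Fermat.Agent.Multiplicative
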