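import Mathlib.RingTheory.Valuation.ValuationSubring
import Mathlib.RingTheory.LocalRing.ResidueField.Basic
import Mathlib.Tactic

/-!
# Residues of field elements with respect to a valuation subring

A total residue map `res A : K → ResidueField A` (zero outside `A`), with the rules for computing
with it in terms of `A.valuation`.
-/

set_option autoImplicit false

noncomputable section

namespace Fermat.Agent.Multiplicative

open IsLocalRing

variable {K : Type*} [Field K] (A : ValuationSubring K) {x y : K}

open Classical in
/-- The residue of `x` in the residue field of `A`, and `0` if `x ∉ A`. -/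
def res (x : K) : ResidueField A :=
  if h : x ∈ A then residue A ⟨x, h⟩ else 0

variable {A}

theorem mem_of_val (h : A.valuation x ≤ 1) : x ∈ A := (A.valuation_le_one_iff x).mp h

/-- On `A` the map `res A` is the residue map. -/
theorem res_of_mem (h : x ∈ A) : res A x = residue A ⟨x, h⟩ := dif_pos h

@[simp] theorem res_zero : res A 0 = 0 := by
  rw [res_of_mem A.zero_mem]; exact map_zero _

/-- The residue of `1` is `1`. -/
@[simp] theorem res_one : res A 1 = 1 := by
  rw [res_of_mem A.one_mem]; exact map_one _

/-- The residue map is additive on `A`. -/
theorem res_add (hx : A.valuation x ≤ 1) (hy : A.valuation y ≤ 1) :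
    res A (x + y) = res A x + res A y := by
  rw [res_of_mem (mem_of_val hx), res_of_mem (mem_of_val hy),
    res_of_mem (A.add_mem _ _ (mem_of_val hx) (mem_of_val hy)), ← map_add]
  rfl

/-- The residue map respects subtraction on `A`. -/
theorem res_sub (hx : A.valuation x ≤ 1) (hy : A.valuation y ≤ 1) :
    res A (x - y) = res A x - res A y := by
  have h := res_add (A := A) (x := x - y) (y := y)
    ((A.valuation.map_sub _ _).trans (max_le hx hy)) hy
  rw [sub_add_cancel] at h
  rw [h, add_sub_cancel_right]

/-- The residue map is multiplicative on `A`. -/
theorem res_mul (hx : A.valuation x ≤ 1) (hy : A.valuation y ≤ 1) :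
    res A (x * y) = res A x * res A y := by
  rw [res_of_mem (mem_of_val hx), res_of_mem (mem_of_val hy),
    res_of_mem (A.mul_mem _ _ (mem_of_val hx) (mem_of_val hy)), ← map_mul]
  rfl

/-- The residue map fixes natural numbers. -/
theorem res_natCast (n : ℕ) : res A (n : K) = (n : ResidueField A) := by
  rw [res_of_mem (natCast_mem A n)]
  exact map_natCast (residue A) n

/-- The residue map fixes integers. -/
theorem res_intCast (n : ℤ) : res A (n : K) = (n : ResidueField A) := by
  rw [res_of_mem (intCast_mem A n)]
  exact map_intCast (residue A) n

/-- The residue map respects powers on `A`. -/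
theorem res_pow (hx : A.valuation x ≤ 1) (n : ℕ) : res A (x ^ n) = res A x ^ n := by
  induction n with
  | zero => simp
  | succ n ih =>
    rw [pow_succ, res_mul (by rw [map_pow]; exact pow_le_one' hx n) hx, ih, pow_succ]

/-- An element of `A` has residue `0` iff it lies in the maximal ideal. -/
theorem res_eq_zero_iff (hx : A.valuation x ≤ 1) : res A x = 0 ↔ A.valuation x < 1 := by
  rw [res_of_mem (mem_of_val hx), residue_eq_zero_iff, A.valuation_lt_one_iff]

/-- An element of `A` has nonzero residue iff it is a unit. -/
theorem res_ne_zero_iff (hx : A.valuation x ≤ 1) : res A x ≠ 0 ↔ A.valuation x = 1 := by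
  rw [Ne, res_eq_zero_iff hx]
  exact ⟨fun h => le_antisymm hx (not_lt.mp h), fun h => by rw [h]; exact lt_irrefl _⟩

/-- Two elements of `A` have equal residues iff their difference is in the maximal ideal. -/
theorem res_eq_iff (hx : A.valuation x ≤ 1) (hy : A.valuation y ≤ 1) :
    res A x = res A y ↔ A.valuation (x - y) < 1 := by
  rw [← res_eq_zero_iff ((A.valuation.map_sub _ _).trans (max_le hx hy)), res_sub hx hy,
    sub_eq_zero]

end Fermat.Agent.Multiplicative
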