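import Mathlib.AlgebraicGeometry.EllipticCurve.Affine.Point
import Fermat.Agent.Multiplicative.Residue

/-!
# The nodal normal form `y (y + a x) = x³ + b`

For `A` a valuation subring of a field `K`, `a` a unit and `b` in the maximal ideal, the curve
`y (y + a x) = x³ + b` has multiplicative reduction with node `(0, 0)`.  We study the points with
nonsingular reduction: they form a subgroup, filtered by the size of `x`, on which
`P ↦ (y + a x) / y` is multiplicative up to a very small error.  The only input is the fact that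
three points on the line `y = l x + m` satisfy
`(w₁ w₂ w₃) = m³ - b (l + a)³` and `y₁ y₂ y₃ = m³ - b l³` where `w = y + a x`.
-/

set_option autoImplicit false

noncomputable section

namespace Fermat.Agent.Multiplicative

open WeierstrassCurve WeierstrassCurve.Affine

variable {K : Type*} [Field K]

/-- The Weierstrass curve `y² + a x y = x³ + b`. -/
def nodalCurve (a b : K) : Affine K :=
  ({ a₁ := a, a₂ := 0, a₃ := 0, a₄ := 0, a₆ := b } : WeierstrassCurve K)

/-- `a` is a unit of `A` and `b` is a nonzero element of the maximal ideal of `A`. -/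
structure IsNodal (A : ValuationSubring K) (a b : K) : Prop where
  val_a : A.valuation a = 1
  val_b : A.valuation b < 1
  ne_zero : b ≠ 0

variable {a b : K}

/-- The equation of the nodal normal form is `y (y + a x) = x³ + b`. -/
theorem nodal_equation_iff (x y : K) :
    (nodalCurve a b).Equation x y ↔ y * (y + a * x) = x ^ 3 + b := by
  rw [equation_iff]
  simp only [nodalCurve]
  constructor <;> intro h <;> linear_combination h

/-- Negation on the nodal normal form is `y ↦ -(y + a x)`. -/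
theorem nodal_negY (x y : K) : (nodalCurve a b).negY x y = -(y + a * x) := by
  simp only [negY, nodalCurve]
  ring

variable {A : ValuationSubring K}

local notation "v" => ValuationSubring.valuation A

section Basic

variable (hN : IsNodal A a b) {x y : K}

include hN

/-- Multiplication by the unit `a` preserves valuations. -/
theorem IsNodal.val_mul_a (x : K) : v (a * x) = v x := by rw [map_mul, hN.val_a, one_mul]

/-- Sizes of the coordinates of an affine point whose reduction is not the node. -/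
theorem IsNodal.val_y_of_one_le (h : y * (y + a * x) = x ^ 3 + b) (hx : 1 ≤ v x) :
    v y ^ 2 = v x ^ 3 ∧ v (y + a * x) = v y ∧ v x ≤ v y := by
  have hx3 : 1 ≤ v x ^ 3 := one_le_pow₀ hx
  have hrhs : v y * v (y + a * x) = v x ^ 3 := by
    rw [← map_mul, h, Valuation.map_add_eq_of_lt_left, map_pow]
    rw [map_pow]
    exact lt_of_lt_of_le hN.val_b hx3
  rcases lt_or_ge (v x) (v y) with hlt | hle
  · have hw : v (y + a * x) = v y := Valuation.map_add_eq_of_lt_left _ (by rwa [hN.val_mul_a])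
    exact ⟨by rw [sq, ← hrhs, hw], hw, hlt.le⟩
  · have hw : v (y + a * x) ≤ v x :=
      (Valuation.map_add _ _ _).trans (max_le hle (hN.val_mul_a x).le)
    have hx1 : v x = 1 := by
      refine le_antisymm ?_ hx
      by_contra hgt
      rw [not_le] at hgt
      have h2 : v x ^ 3 ≤ v x * v x := hrhs ▸ mul_le_mul' hle hw
      have h3 : v x * v x < v x ^ 3 := by
        rw [← sq]; exact pow_lt_pow_right₀ hgt (by norm_num)
      exact absurd h2 (not_le.mpr h3)
    rw [hx1] at hle hw hrhs ⊢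
    rw [one_pow] at hrhs
    have hy1 : v y = 1 := le_antisymm hle (not_lt.mp fun hlt => by
      have : v y * v (y + a * x) < 1 := mul_lt_one_of_nonneg_of_lt_one_left zero_le hlt hw
      exact absurd hrhs this.ne)
    rw [hy1, one_mul] at hrhs
    exact ⟨by rw [hy1, one_pow, one_pow], by rw [hrhs, hy1], hy1.ge⟩

/-- For a point with nonsingular reduction neither `y` nor `y + a x` vanishes. -/
theorem IsNodal.y_ne_zero_of_one_le (h : y * (y + a * x) = x ^ 3 + b) (hx : 1 ≤ v x) :
    y ≠ 0 ∧ y + a * x ≠ 0 := by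
  obtain ⟨-, h2, h3⟩ := hN.val_y_of_one_le h hx
  have hy : v y ≠ 0 := (zero_lt_one.trans_le (hx.trans h3)).ne'
  exact ⟨(Valuation.ne_zero_iff _).mp hy, (Valuation.ne_zero_iff _).mp (h2 ▸ hy)⟩

/-- Points reducing to the node have both `y` and `y + a x` in the maximal ideal. -/
theorem IsNodal.val_y_of_lt_one (h : y * (y + a * x) = x ^ 3 + b) (hx : v x < 1) :
    v y < 1 ∧ v (y + a * x) < 1 := by
  have hy : v y < 1 := by
    by_contra hy
    rw [not_lt] at hy
    have hw : v (y + a * x) = v y :=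
      Valuation.map_add_eq_of_lt_left _ (by rw [hN.val_mul_a]; exact lt_of_lt_of_le hx hy)
    have h1 : 1 ≤ v y * v (y + a * x) := one_le_mul hy (hw ▸ hy)
    rw [← map_mul, h] at h1
    have h2 : v (x ^ 3 + b) < 1 := Valuation.map_add_lt _
      (by rw [map_pow]; exact pow_lt_one₀ zero_le hx (by norm_num)) hN.val_b
    exact absurd h1 (not_le.mpr h2)
  exact ⟨hy, Valuation.map_add_lt _ hy (by rwa [hN.val_mul_a])⟩

theorem IsNodal.val_y_lt_pow (h : y * (y + a * x) = x ^ 3 + b) {c : K} (hc : 1 ≤ v c)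
    (hx : v x < v c ^ 2) : v y < v c ^ 3 := by
  rcases lt_or_ge (v x) 1 with h1 | h1
  · exact lt_of_lt_of_le (hN.val_y_of_lt_one h h1).1 (one_le_pow₀ hc)
  · refine lt_of_pow_lt_pow_left₀ 2 zero_le ?_
    rw [(hN.val_y_of_one_le h h1).1, ← pow_mul, show 3 * 2 = 2 * 3 from rfl, pow_mul]
    exact pow_lt_pow_left₀ hx zero_le (by norm_num)

end Basic

section Line

/-- The third intersection of the chord or tangent through two points of the nodal curve. -/
theorem exists_line [DecidableEq K] {x₁ y₁ x₂ y₂ : K}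
    (h₁ : (nodalCurve a b).Nonsingular x₁ y₁) (h₂ : (nodalCurve a b).Nonsingular x₂ y₂)
    (hxy : ¬(x₁ = x₂ ∧ y₁ = (nodalCurve a b).negY x₂ y₂)) :
    ∃ (l m x₃ : K) (h₃ : (nodalCurve a b).Nonsingular x₃ (-(l * x₃ + m + a * x₃))),
      Point.some _ _ h₁ + Point.some _ _ h₂ = Point.some _ _ h₃ ∧
      l = (nodalCurve a b).slope x₁ x₂ y₁ y₂ ∧ y₁ = l * x₁ + m ∧ y₂ = l * x₂ + m ∧
      x₁ + x₂ + x₃ = l * (l + a) ∧
      x₁ * x₂ + x₁ * x₃ + x₂ * x₃ = -(m * (2 * l + a)) ∧
      x₁ * x₂ * x₃ = m ^ 2 - b := by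
  have key := addPolynomial_slope h₁.1 h₂.1 hxy
  rw [addPolynomial_eq, neg_inj, Cubic.prod_X_sub_C_eq, Cubic.toPoly_injective] at key
  have hy₂ : y₂ = (nodalCurve a b).slope x₁ x₂ y₁ y₂ * (x₂ - x₁) + y₁ := by
    by_cases hx : x₁ = x₂
    · have hy : y₁ = y₂ := Y_eq_of_Y_ne h₁.1 h₂.1 hx fun h => hxy ⟨hx, h⟩
      rw [hx, hy, sub_self, mul_zero, zero_add]
    · have hx' : x₁ - x₂ ≠ 0 := sub_ne_zero.mpr hx
      rw [slope_of_X_ne hx, div_mul_eq_mul_div]
      field_simp
      ring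
  have hns := nonsingular_add h₁ h₂ hxy
  have hadd := Point.add_some (h₁ := h₁) (h₂ := h₂) hxy
  generalize hl : (nodalCurve a b).slope x₁ x₂ y₁ y₂ = l at key hy₂
  have heq : (nodalCurve a b).addY x₁ x₂ y₁ l =
      -(l * (nodalCurve a b).addX x₁ x₂ l + (y₁ - l * x₁) +
        a * (nodalCurve a b).addX x₁ x₂ l) := by
    simp only [addY, negAddY, nodal_negY]
    ring
  simp only [hl] at hns hadd
  refine ⟨l, y₁ - l * x₁, (nodalCurve a b).addX x₁ x₂ l, heq ▸ hns, ?_, rfl, by ring,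
    by rw [hy₂]; ring, ?_, ?_, ?_⟩
  · rw [hadd, Point.some.injEq]
    exact ⟨rfl, heq⟩
  · simp only [addX, nodalCurve]
    ring
  · have hc := congrArg Cubic.c key
    simp only [nodalCurve, addX] at hc ⊢
    linear_combination -hc
  · have hd := congrArg Cubic.d key
    simp only [nodalCurve, addX] at hd ⊢
    linear_combination hd

end Line

section Core

variable (hN : IsNodal A a b)

include hN

/-- The key estimate: if two points on the line `y = l x + m` have `|x| ≥ |c|² ≥ 1`, then `m` is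
large, and so is the third point. -/
theorem IsNodal.line_core {c l m x₁ x₂ x₃ : K} (hc : 1 ≤ v c)
    (hx₁ : v c ^ 2 ≤ v x₁) (hx₂ : v c ^ 2 ≤ v x₂)
    (e₁ : x₁ + x₂ + x₃ = l * (l + a))
    (e₂ : x₁ * x₂ + x₁ * x₃ + x₂ * x₃ = -(m * (2 * l + a)))
    (e₃ : x₁ * x₂ * x₃ = m ^ 2 - b) :
    v c ^ 2 * max (v c) (v l) ≤ v m := by
  by_contra hm
  rw [not_le] at hm
  set C := v c with hC
  set L := max C (v l) with hL
  have hL1 : 1 ≤ L := hc.trans (le_max_left _ _)
  have hLpos : 0 < L := zero_lt_one.trans_le hL1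
  have hC2 : 0 < C ^ 2 := pow_pos (zero_lt_one.trans_le hc) 2
  have hs : v (2 * l + a) ≤ L := by
    refine (Valuation.map_add _ _ _).trans (max_le ?_ (hN.val_a.le.trans hL1))
    rw [two_mul]
    exact (Valuation.map_add _ _ _).trans (max_le (le_max_right _ _) (le_max_right _ _))
  have he₂ : v (x₁ * x₂ + x₁ * x₃ + x₂ * x₃) < C ^ 2 * L ^ 2 := by
    rw [e₂, Valuation.map_neg, map_mul]
    calc v m * v (2 * l + a) ≤ v m * L := mul_le_mul_right hs _
      _ < C ^ 2 * L * L := mul_lt_mul_of_pos_right hm hLpos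
      _ = C ^ 2 * L ^ 2 := by rw [sq L, mul_assoc]
  have he₃ : v x₁ * v x₂ * v x₃ < C ^ 4 * L ^ 2 := by
    rw [← map_mul, ← map_mul, e₃]
    refine Valuation.map_sub_lt _ ?_ ?_
    · rw [map_pow, show C ^ 4 * L ^ 2 = (C ^ 2 * L) ^ 2 by rw [mul_pow, ← pow_mul]]
      exact pow_lt_pow_left₀ hm zero_le (by norm_num)
    · exact lt_of_lt_of_le hN.val_b (one_le_mul (one_le_pow₀ hc) (one_le_pow₀ hL1))
  have cancel : ∀ {p q r : A.ValueGroup}, C ^ 2 ≤ q → p * q < C ^ 2 * r → p < r := by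
    intro p q r hq h
    refine lt_of_mul_lt_mul_right' (a := C ^ 2) ?_
    calc p * C ^ 2 ≤ p * q := mul_le_mul_right hq _
      _ < C ^ 2 * r := h
      _ = r * C ^ 2 := mul_comm _ _
  have h13 : v (x₁ * x₃) < C ^ 2 * L ^ 2 := by
    refine cancel hx₂ ?_
    rw [map_mul, mul_right_comm, ← mul_assoc (C ^ 2), ← pow_add]
    exact he₃
  have h23 : v (x₂ * x₃) < C ^ 2 * L ^ 2 := by
    refine cancel hx₁ ?_
    rw [map_mul, ← mul_assoc (C ^ 2), ← pow_add, mul_comm (v x₂ * v x₃), ← mul_assoc]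
    exact he₃
  have h12 : v (x₁ * x₂) < C ^ 2 * L ^ 2 := by
    rw [show x₁ * x₂ = (x₁ * x₂ + x₁ * x₃ + x₂ * x₃) - x₁ * x₃ - x₂ * x₃ by ring]
    exact Valuation.map_sub_lt _ (Valuation.map_sub_lt _ he₂ h13) h23
  have h1 : v x₁ < L ^ 2 := cancel hx₂ (by rwa [← map_mul])
  have h2 : v x₂ < L ^ 2 := cancel hx₁ (by rwa [← map_mul, mul_comm])
  have h3 : v x₃ < L ^ 2 := cancel hx₁ (by rwa [← map_mul, mul_comm])
  have h4 : C ^ 2 * C ^ 2 < C ^ 2 * L ^ 2 := by
    refine lt_of_le_of_lt ?_ h12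
    rw [map_mul]
    exact mul_le_mul' hx₁ hx₂
  have hCl : C < v l := by
    by_contra hle
    rw [not_lt] at hle
    rw [hL, max_eq_left hle] at h4
    exact lt_irrefl _ h4
  have hlast : v (l * (l + a)) = L ^ 2 := by
    rw [map_mul, Valuation.map_add_eq_of_lt_left _ (hN.val_a.trans_lt (hc.trans_lt hCl)),
      hL, max_eq_right hCl.le, sq]
  have : v (x₁ + x₂ + x₃) < L ^ 2 := Valuation.map_add_lt _ (Valuation.map_add_lt _ h1 h2) h3
  rw [e₁, hlast] at this
  exact lt_irrefl _ this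

/-- If two points on a line are large, so is the third, and the product of the three values
`(y + a x) / y` is `1` up to `|b| / |c|⁷`. -/
theorem IsNodal.third_core {c l m x₁ x₂ x₃ : K} (hc : 1 ≤ v c)
    (hm : v c ^ 2 * max (v c) (v l) ≤ v m)
    (hy₃ : (l * x₃ + m) * (l * x₃ + m + a * x₃) = x₃ ^ 3 + b)
    (e₁ : x₁ + x₂ + x₃ = l * (l + a))
    (e₂ : x₁ * x₂ + x₁ * x₃ + x₂ * x₃ = -(m * (2 * l + a)))
    (e₃ : x₁ * x₂ * x₃ = m ^ 2 - b) :
    v c ^ 2 ≤ v x₃ ∧ ∃ ε : K, v ε * v c ^ 7 ≤ v b ∧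
      ((l * x₁ + m + a * x₁) * (l * x₂ + m + a * x₂) * (l * x₃ + m + a * x₃)) =
        (l * x₁ + m) * (l * x₂ + m) * (l * x₃ + m) * (1 + ε) := by
  set C := v c with hC
  set L := max C (v l) with hL
  have hL1 : 1 ≤ L := hc.trans (le_max_left _ _)
  have hC2 : 1 ≤ C ^ 2 := one_le_pow₀ hc
  have hlm : v l ≤ v m := ((le_max_right C (v l)).trans (le_mul_of_one_le_left' hC2)).trans hm
  have hm1 : 1 ≤ v m := (one_le_mul hC2 hL1).trans hm
  have hmpos : 0 < v m := zero_lt_one.trans_le hm1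
  refine ⟨?_, ?_⟩
  · by_contra h3
    rw [not_le] at h3
    have hy : v (l * x₃ + m) < C ^ 3 := hN.val_y_lt_pow hy₃ hc h3
    have hlx : v (l * x₃) < v m := by
      rw [map_mul]
      rcases eq_or_lt_of_le (zero_le (a := v l)) with h0 | h0
      · rw [← h0, zero_mul]; exact hmpos
      · calc v l * v x₃ < v l * C ^ 2 := mul_lt_mul_of_pos_left h3 h0
          _ ≤ L * C ^ 2 := mul_le_mul_left (le_max_right _ _) _
          _ ≤ v m := by rw [mul_comm]; exact hm
    rw [Valuation.map_add_eq_of_lt_right _ hlx] at hy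
    have : C ^ 3 ≤ v m := le_trans (by rw [pow_succ]; exact mul_le_mul_right (le_max_left _ _) _) hm
    exact absurd hy (not_lt.mpr this)
  · have hyprod : (l * x₁ + m) * (l * x₂ + m) * (l * x₃ + m) = m ^ 3 - b * l ^ 3 := by
      linear_combination l ^ 3 * e₃ + l ^ 2 * m * e₂ + l * m ^ 2 * e₁
    have hwprod : (l * x₁ + m + a * x₁) * (l * x₂ + m + a * x₂) * (l * x₃ + m + a * x₃) =
        m ^ 3 - b * (l + a) ^ 3 := by
      linear_combination (l + a) ^ 3 * e₃ + (l + a) ^ 2 * m * e₂ + (l + a) * m ^ 2 * e₁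
    have hbl : v (b * l ^ 3) < v m ^ 3 := by
      rw [map_mul, map_pow]
      calc v b * v l ^ 3 ≤ v b * v m ^ 3 := mul_le_mul_right (pow_le_pow_left₀ zero_le hlm 3) _
        _ < 1 * v m ^ 3 := mul_lt_mul_of_pos_right hN.val_b (pow_pos hmpos 3)
        _ = v m ^ 3 := one_mul _
    have hD : v (m ^ 3 - b * l ^ 3) = v m ^ 3 := by
      rw [Valuation.map_sub_eq_of_lt_left _ (by rw [map_pow]; exact hbl), map_pow]
    have hD0 : m ^ 3 - b * l ^ 3 ≠ 0 :=
      (Valuation.ne_zero_iff _).mp (hD ▸ (pow_pos hmpos 3).ne')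
    refine ⟨-(b * a * (3 * l ^ 2 + 3 * l * a + a ^ 2)) / (m ^ 3 - b * l ^ 3), ?_, ?_⟩
    · rw [map_div₀, Valuation.map_neg, hD, map_mul, map_mul, hN.val_a, mul_one,
        div_mul_eq_mul_div, div_le_iff₀ (pow_pos hmpos 3)]
      have hQ : v (3 * l ^ 2 + 3 * l * a + a ^ 2) ≤ L ^ 2 := by
        have h3 : v (3 : K) ≤ 1 := (A.valuation_le_one_iff _).mpr (natCast_mem A 3)
        have hl2 : v l ^ 2 ≤ L ^ 2 := pow_le_pow_left₀ zero_le (le_max_right _ _) 2
        refine (Valuation.map_add _ _ _).trans (max_le ((Valuation.map_add _ _ _).trans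
          (max_le ?_ ?_)) ?_)
        · rw [map_mul, map_pow]; exact (mul_le_of_le_one_left' h3).trans hl2
        · rw [map_mul, map_mul, hN.val_a, mul_one]
          exact ((mul_le_of_le_one_left' h3).trans (le_max_right _ _)).trans
            (by rw [sq]; exact le_mul_of_one_le_left' hL1)
        · rw [map_pow, hN.val_a, one_pow]; exact one_le_pow₀ hL1
      calc v b * v (3 * l ^ 2 + 3 * l * a + a ^ 2) * C ^ 7
          ≤ v b * L ^ 2 * C ^ 7 := mul_le_mul_left (mul_le_mul_right hQ _) _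
        _ ≤ v b * L ^ 3 * C ^ 6 := by
            rw [mul_assoc, mul_assoc, pow_succ C 6, pow_succ L 2, mul_assoc (L ^ 2) L,
              mul_comm L (C ^ 6)]
            exact mul_le_mul_right (mul_le_mul_right (mul_le_mul_right (le_max_left _ _) _) _) _
        _ = v b * (C ^ 2 * L) ^ 3 := by rw [mul_pow, ← pow_mul, mul_assoc, mul_comm (L ^ 3)]
        _ ≤ v b * v m ^ 3 := mul_le_mul_right (pow_le_pow_left₀ zero_le hm 3) _
    · rw [hwprod, hyprod, mul_add, mul_one, mul_div_cancel₀ _ hD0]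
      ring

end Core

end Fermat.Agent.Multiplicative
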