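import Fermat.Agent.Multiplicative.Automorphism
import Mathlib.AlgebraicGeometry.EllipticCurve.VariableChange

/-!
# Reduction to the nodal normal form

A Weierstrass curve with `A`-integral coefficients, unit `c₄` and `Δ` in the maximal ideal can be
brought to `y (y + a x) = x³ + b` by a change of variables `x = X + r`, `y = Y + s X + t` with
`r`, `t` congruent to the coordinates `nodeX`, `nodeY` of the node.
-/

set_option autoImplicit false

noncomputable section

namespace Fermat.Agent.Multiplicative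

open WeierstrassCurve WeierstrassCurve.Affine Polynomial

/-! ### Translation of points by `(1, r, s, t)` -/

section Change

variable {K : Type*} [Field K] {W W' : Affine K} {C : VariableChange K}

theorem change_equation (hu : C.u = 1) (h : C • W = W') (x y : K) :
    W.Equation x y ↔ W'.Equation (x - C.r) (y - C.t - C.s * (x - C.r)) := by
  subst h
  rw [equation_iff', equation_iff']
  simp only [variableChange_def, hu, inv_one, Units.val_one, one_pow, one_mul]
  constructor <;> intro h' <;> linear_combination h'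

theorem change_Δ (hu : C.u = 1) (h : C • W = W') : W'.Δ = W.Δ := by
  subst h
  rw [variableChange_Δ, hu, inv_one, Units.val_one, one_pow, one_mul]

/-- A change of variables with `u = 1` sends points of `W` to points of `W'`. -/
theorem change_nonsingular (hu : C.u = 1) (h : C • W = W') (hΔ : W.Δ ≠ 0) {x y : K}
    (hxy : W.Nonsingular x y) :
    W'.Nonsingular (x - C.r) (y - C.t - C.s * (x - C.r)) :=
  (equation_iff_nonsingular_of_Δ_ne_zero (by rwa [change_Δ hu h])).mp
    ((change_equation hu h x y).mp hxy.1)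

theorem change_nonsingular_inv (hu : C.u = 1) (h : C • W = W') (hΔ : W.Δ ≠ 0) {X Y : K}
    (hxy : W'.Nonsingular X Y) : W.Nonsingular (X + C.r) (Y + C.s * X + C.t) := by
  refine (equation_iff_nonsingular_of_Δ_ne_zero hΔ).mp ((change_equation hu h _ _).mpr ?_)
  rw [add_sub_cancel_right, show Y + C.s * X + C.t - C.t - C.s * X = Y by ring]
  exact hxy.1

/-- The bijection on points given by a change of variables with `u = 1`. -/
def changeEquivFun (hu : C.u = 1) (h : C • W = W') (hΔ : W.Δ ≠ 0) : W.Point ≃ W'.Point where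
  toFun
    | .zero => .zero
    | .some _ _ hxy => .some _ _ (change_nonsingular hu h hΔ hxy)
  invFun
    | .zero => .zero
    | .some _ _ hxy => .some _ _ (change_nonsingular_inv hu h hΔ hxy)
  left_inv P := by
    cases P with
    | zero => rfl
    | some x y hxy => simp only [Point.some.injEq]; constructor <;> ring
  right_inv P := by
    cases P with
    | zero => rfl
    | some x y hxy => simp only [Point.some.injEq]; constructor <;> ring

/-- The isomorphism of point groups given by a change of variables with `u = 1`. -/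
def changeEquiv [DecidableEq K] (hu : C.u = 1) (h : C • W = W') (hΔ : W.Δ ≠ 0) :
    W.Point ≃+ W'.Point :=
  { changeEquivFun hu h hΔ with
    map_add' := by
      rintro (_ | ⟨x₁, y₁, h₁⟩) (_ | ⟨x₂, y₂, h₂⟩)
      any_goals rfl
      subst h
      show changeEquivFun hu rfl hΔ _ = Point.some _ _ _ + Point.some _ _ _
      have hneg : ∀ x y : K, (C • W).toAffine.negY (x - C.r) (y - C.t - C.s * (x - C.r)) =
          W.negY x y - C.t - C.s * (x - C.r) := by
        intro x y
        simp only [negY, variableChange_def, hu, inv_one, Units.val_one, one_pow, one_mul]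
        ring
      by_cases hxy : x₁ = x₂ ∧ y₁ = W.negY x₂ y₂
      · rw [Point.add_of_Y_eq hxy.1 hxy.2, Point.add_of_Y_eq (by rw [hxy.1])
          (by rw [hneg, hxy.1, hxy.2])]
        rfl
      · have hxy' : ¬(x₁ - C.r = x₂ - C.r ∧ y₁ - C.t - C.s * (x₁ - C.r) =
            (C • W).toAffine.negY (x₂ - C.r) (y₂ - C.t - C.s * (x₂ - C.r))) := by
          rintro ⟨hx, hy⟩
          rw [sub_left_inj] at hx
          rw [hneg, hx, sub_left_inj, sub_left_inj] at hy
          exact hxy ⟨hx, hy⟩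
        rw [Point.add_some hxy, Point.add_some hxy']
        show Point.some _ _ _ = Point.some _ _ _
        have hl : (C • W).toAffine.slope (x₁ - C.r) (x₂ - C.r) (y₁ - C.t - C.s * (x₁ - C.r))
            (y₂ - C.t - C.s * (x₂ - C.r)) = W.slope x₁ x₂ y₁ y₂ - C.s := by
          by_cases hx : x₁ = x₂
          · have hy : y₁ ≠ W.negY x₂ y₂ := fun hh => hxy ⟨hx, hh⟩
            have hd : y₁ - W.negY x₁ y₁ ≠ 0 := by
              obtain rfl : y₁ = y₂ := Y_eq_of_Y_ne h₁.1 h₂.1 hx hy
              rw [hx]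
              exact sub_ne_zero.mpr hy
            rw [slope_of_Y_ne hx hy, slope_of_Y_ne (by rw [hx])
              (fun hh => hxy' ⟨by rw [hx], hh⟩), hneg,
              show y₁ - C.t - C.s * (x₁ - C.r) - (W.negY x₁ y₁ - C.t - C.s * (x₁ - C.r)) =
                y₁ - W.negY x₁ y₁ by ring, eq_sub_iff_add_eq, div_add' _ _ _ hd]
            congr 1
            simp only [negY, variableChange_def, hu, inv_one, Units.val_one, one_pow, one_mul]
            ring
          · have hx' : x₁ - C.r ≠ x₂ - C.r := fun hh => hx (sub_left_inj.mp hh)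
            have hd : x₁ - x₂ ≠ 0 := sub_ne_zero.mpr hx
            rw [slope_of_X_ne hx, slope_of_X_ne hx', sub_sub_sub_cancel_right, eq_sub_iff_add_eq,
              div_add' _ _ _ hd]
            congr 1
            ring
        rw [Point.some.injEq]
        refine ⟨?_, ?_⟩ <;>
          simp only [addY, negAddY, addX, negY, hl, variableChange_a₁, variableChange_a₂,
            variableChange_a₃, hu, inv_one, Units.val_one, one_pow, one_mul] <;>
          ring }

end Change

/-! ### The node -/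

section Node

variable {R S : Type*} [Field R] [Field S] (W : WeierstrassCurve R)

/-- The `x`-coordinate of the node of the reduction of a curve with multiplicative reduction. -/
def nodeX : R := (18 * W.b₆ - W.b₂ * W.b₄) / W.c₄

/-- The `y`-coordinate of the node of the reduction of a curve with multiplicative reduction. -/
def nodeY : R :=
  (3 * W.a₁ * W.a₃ ^ 2 - 36 * W.a₁ * W.a₆ + W.a₁ * W.a₄ * W.b₂ - 2 * W.a₂ * W.a₃ * W.b₂
    + 24 * W.a₃ * W.a₄) / W.c₄

/-- `nodeX` commutes with field homomorphisms. -/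
theorem map_nodeX (f : R →+* S) : f (nodeX W) = nodeX (W.map f) := by
  simp only [nodeX, map_b₂, map_b₄, map_b₆, map_c₄, map_div₀, map_sub, map_mul, map_ofNat]

end Node

/-! ### The normal form -/

section Normal

variable {K : Type*} [Field K] {A : ValuationSubring K} {W : WeierstrassCurve K}

local notation "v" => ValuationSubring.valuation A

/-- The coefficients of `W` are integral, `c₄` is a unit and `Δ` is in the maximal ideal. -/
structure IsMultiplicativeModel (A : ValuationSubring K) (W : WeierstrassCurve K) : Prop where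
  a₁_mem : A.valuation W.a₁ ≤ 1
  a₂_mem : A.valuation W.a₂ ≤ 1
  a₃_mem : A.valuation W.a₃ ≤ 1
  a₄_mem : A.valuation W.a₄ ≤ 1
  a₆_mem : A.valuation W.a₆ ≤ 1
  c₄_unit : A.valuation W.c₄ = 1
  Δ_lt : A.valuation W.Δ < 1
  Δ_ne_zero : W.Δ ≠ 0

/-- The coefficients of `W` are integral, `a₃ = 0` and the reduction of `W` has a node at the
origin, with two tangent lines. -/
structure HasOriginNode (A : ValuationSubring K) (W : WeierstrassCurve K) : Prop where
  a₁_mem : A.valuation W.a₁ ≤ 1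
  a₂_mem : A.valuation W.a₂ ≤ 1
  a₃_eq : W.a₃ = 0
  a₄_lt : A.valuation W.a₄ < 1
  a₆_lt : A.valuation W.a₆ < 1
  b₂_unit : A.valuation W.b₂ = 1

/-- A monic quadratic with integral coefficients has an integral root. -/
theorem exists_integral_root [IsAlgClosed K] {p q : K} (hp : v p ≤ 1) (hq : v q ≤ 1) :
    ∃ s, s ^ 2 + p * s = q ∧ v s ≤ 1 := by
  have hdeg : (X ^ 2 + C p * X - C q).degree = 2 := by compute_degree!
  obtain ⟨s, hs⟩ := IsAlgClosed.exists_root _ (hdeg ▸ two_ne_zero)
  simp only [IsRoot.def, eval_sub, eval_add, eval_pow, eval_mul, eval_C, eval_X] at hs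
  refine ⟨s, sub_eq_zero.mp hs, ?_⟩
  by_contra hlt
  rw [not_le] at hlt
  have h : v (s ^ 2 + p * s) = v s ^ 2 := by
    rw [Valuation.map_add_eq_of_lt_left, map_pow]
    rw [map_pow, map_mul, sq]
    exact mul_lt_mul_of_pos_right (hp.trans_lt hlt) (zero_lt_one.trans hlt)
  rw [sub_eq_zero.mp hs] at h
  exact absurd (h.ge.trans hq) (not_le.mpr (one_lt_pow₀ hlt two_ne_zero))

/-- If `|p| = 1` and `|q| < 1`, then `s² + p s = q` has a root with `|s| < 1`. -/
theorem exists_small_root [IsAlgClosed K] {p q : K} (hp : v p = 1) (hq : v q < 1) :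
    ∃ s, s ^ 2 + p * s = q ∧ v s < 1 := by
  obtain ⟨s, hs, hsle⟩ := exists_integral_root hp.le hq.le
  rcases hsle.lt_or_eq with h | h
  · exact ⟨s, hs, h⟩
  · -- the roots have product `-q`, so the other one is small
    refine ⟨-p - s, by linear_combination hs, ?_⟩
    have hprod := congrArg A.valuation (show s * (-p - s) = -q by linear_combination -hs)
    rw [map_mul, h, one_mul, Valuation.map_neg] at hprod
    rwa [hprod]

/-- The substitution `y = Y + s X` removes `a₂` when `s² + a₁ s = a₂` and `a₃ = 0`. -/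
theorem shear_smul {a a₂ a₄ a₆ s : K} (hs : s ^ 2 + a * s = a₂) :
    (VariableChange.mk 1 0 s 0 : VariableChange K) •
        ({ a₁ := a, a₂ := a₂, a₃ := 0, a₄ := a₄, a₆ := a₆ } : WeierstrassCurve K) =
      { a₁ := a + 2 * s, a₂ := 0, a₃ := 0, a₄ := a₄, a₆ := a₆ } := by
  rw [variableChange_def]
  ext <;> simp
  linear_combination -hs

/-- A node at the origin can be brought to `a₂ = 0` by an integral shear, and then `a₁` is a
unit. -/
theorem HasOriginNode.exists_shear [IsAlgClosed K] (h : HasOriginNode A W) :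
    ∃ s, v s ≤ 1 ∧ v (W.a₁ + 2 * s) = 1 ∧ (VariableChange.mk 1 0 s 0 : VariableChange K) • W =
      { a₁ := W.a₁ + 2 * s, a₂ := 0, a₃ := 0, a₄ := W.a₄, a₆ := W.a₆ } := by
  obtain ⟨s, hs, hsle⟩ := exists_integral_root h.a₁_mem h.a₂_mem
  refine ⟨s, hsle, ?_, ?_⟩
  · have h2 : v (W.a₁ + 2 * s) ^ 2 = 1 := by
      rw [← map_pow, show (W.a₁ + 2 * s) ^ 2 = W.b₂ by
        rw [WeierstrassCurve.b₂]; linear_combination 4 * hs, h.b₂_unit]
    exact (pow_eq_one_iff.mp h2).resolve_right two_ne_zero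
  · conv_lhs =>
      rw [show W = { a₁ := W.a₁, a₂ := W.a₂, a₃ := 0, a₄ := W.a₄, a₆ := W.a₆ } by
        ext <;> simp [h.a₃_eq]]
    exact shear_smul hs

/-- A small translation removes `a₄` from `y (y + a x) = x³ + a₄ x + a₆` at the cost of a small
`a₂`. -/
theorem exists_translation [IsAlgClosed K] {a a₄ a₆ : K} (ha : v a = 1) (h₄ : v a₄ < 1)
    (h₆ : v a₆ < 1) :
    ∃ r t b, v r < 1 ∧ v t < 1 ∧ v b < 1 ∧ (VariableChange.mk 1 r 0 t : VariableChange K) •
        ({ a₁ := a, a₂ := 0, a₃ := 0, a₄ := a₄, a₆ := a₆ } : WeierstrassCurve K) =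
      { a₁ := a, a₂ := 3 * r, a₃ := 0, a₄ := 0, a₆ := b } := by
  have hn : ∀ n : ℕ, v (n : K) ≤ 1 := fun n => (A.valuation_le_one_iff _).mpr (natCast_mem A n)
  have ha0 : a ≠ 0 := (Valuation.ne_zero_iff A.valuation).mp (by simp [ha])
  -- `r` is the small root of `6 r² + a² r + 2 a₄`, written through a unit root `w` of `w² - w + e`
  set e := 6 * (2 * a₄) / a ^ 4 with he
  have hclt : v (2 * a₄) < 1 := by
    rw [map_mul]; exact mul_lt_one_of_nonneg_of_lt_one_right (hn 2) zero_le h₄
  have helt : v (-e) < 1 := by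
    rw [Valuation.map_neg, he, map_div₀, map_mul, map_pow, ha, one_pow, div_one]
    exact mul_lt_one_of_nonneg_of_lt_one_right (hn 6) zero_le hclt
  obtain ⟨u, hu, hult⟩ :=
    exists_small_root (p := (-1 : K)) (by rw [Valuation.map_neg, map_one]) helt
  obtain ⟨w, hw, hwu⟩ : ∃ w : K, w ^ 2 - w + e = 0 ∧ v w = 1 :=
    ⟨1 - u, by linear_combination hu,
      by rw [Valuation.map_sub_eq_of_lt_left _ (by rwa [map_one]), map_one]⟩
  have hw0 : w ≠ 0 := (Valuation.ne_zero_iff A.valuation).mp (by simp [hwu])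
  set r := -(2 * a₄ / a ^ 2) / w with hr
  have hrlt : v r < 1 := by
    rwa [hr, map_div₀, Valuation.map_neg, map_div₀, map_pow, ha, one_pow, div_one, hwu, div_one]
  have hreq : 6 * r ^ 2 + a ^ 2 * r + 2 * a₄ = 0 := by
    rw [hr, he] at *
    field_simp at hw ⊢
    linear_combination 2 * a₄ * hw
  set t := (a₄ + 3 * r ^ 2) / a with ht
  have htlt : v t < 1 := by
    rw [ht, map_div₀, ha, div_one]
    refine Valuation.map_add_lt _ h₄ ?_
    rw [map_mul, map_pow]
    exact mul_lt_one_of_nonneg_of_lt_one_right (hn 3) zero_le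
      (pow_lt_one₀ zero_le hrlt two_ne_zero)
  have hta : t * a = a₄ + 3 * r ^ 2 := div_mul_cancel₀ _ ha0
  refine ⟨r, t, a₆ + r ^ 3 - t ^ 2 - r * t * a + r * a₄, hrlt, htlt, ?_, ?_⟩
  · refine Valuation.map_add_lt _ (Valuation.map_sub_lt _ (Valuation.map_sub_lt _
      (Valuation.map_add_lt _ h₆ ?_) ?_) ?_) ?_
    · rw [map_pow]; exact pow_lt_one₀ zero_le hrlt (by norm_num)
    · rw [map_pow]; exact pow_lt_one₀ zero_le htlt (by norm_num)
    · rw [map_mul, ha, mul_one, map_mul]
      exact mul_lt_one_of_nonneg_of_lt_one_left zero_le hrlt htlt.le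
    · rw [map_mul]; exact mul_lt_one_of_nonneg_of_lt_one_left zero_le hrlt h₄.le
  · rw [variableChange_def]
    ext <;> simp only [inv_one, Units.val_one, one_pow, one_mul] <;>
      first
        | ring1
        | (refine mul_right_cancel₀ ha0 ?_; linear_combination 2 * hta + hreq)
        | linear_combination -hta

/-- If `a₃ = 0`, `|a₄| < 1`, `|Δ| < 1` and the node of the reduction has `x = 0`, then
`|a₆| < 1`. -/
theorem val_a₆_lt (h₃ : W.a₃ = 0) (h₄ : v W.a₄ < 1) (h₆ : v W.a₆ ≤ 1) (hb₂ : v W.b₂ = 1)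
    (hΔ : v W.Δ < 1) (hnode : 18 * W.b₆ = W.b₂ * W.b₄) : v W.a₆ < 1 := by
  have hn : ∀ n : ℕ, v (n : K) ≤ 1 := fun n => (A.valuation_le_one_iff _).mpr (natCast_mem A n)
  have hrel : 72 * W.a₆ = W.b₂ * (2 * W.a₄) := by
    simp only [WeierstrassCurve.b₄, WeierstrassCurve.b₆, h₃] at hnode
    linear_combination hnode
  have h72 : v (6 * W.a₆ * (72 * W.a₆)) < 1 := by
    rw [hrel, map_mul]
    refine mul_lt_one_of_nonneg_of_lt_one_right ?_ zero_le ?_
    · rw [map_mul]; exact mul_le_one' (hn 6) h₆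
    · rw [map_mul, hb₂, one_mul, map_mul]
      exact mul_lt_one_of_nonneg_of_lt_one_right (hn 2) zero_le h₄
  have hrest : v (W.a₄ * (W.b₂ ^ 2 * W.a₄ - 64 * W.a₄ ^ 2 + 72 * W.b₂ * W.a₆)) < 1 := by
    rw [map_mul]
    refine mul_lt_one_of_nonneg_of_lt_one_left zero_le h₄ ?_
    refine (Valuation.map_add _ _ _).trans (max_le ((Valuation.map_sub _ _ _).trans
      (max_le ?_ ?_)) ?_)
    · rw [map_mul, map_pow, hb₂, one_pow, one_mul]; exact h₄.le
    · rw [map_mul, map_pow]; exact mul_le_one' (hn 64) (pow_le_one' h₄.le 2)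
    · rw [map_mul, map_mul, hb₂, mul_one]; exact mul_le_one' (hn 72) h₆
  have h := congrArg A.valuation (show W.b₂ ^ 3 * W.a₆ = -W.Δ - 6 * W.a₆ * (72 * W.a₆)
      + W.a₄ * (W.b₂ ^ 2 * W.a₄ - 64 * W.a₄ ^ 2 + 72 * W.b₂ * W.a₆) by
    simp only [WeierstrassCurve.Δ, WeierstrassCurve.b₂, WeierstrassCurve.b₄,
      WeierstrassCurve.b₆, WeierstrassCurve.b₈, h₃]
    ring)
  rw [map_mul, map_pow, hb₂, one_pow, one_mul] at h
  rw [h]
  exact Valuation.map_add_lt _
    (Valuation.map_sub_lt _ (by rwa [Valuation.map_neg]) h72) hrest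

variable (hW : IsMultiplicativeModel A W)

include hW

/-- The coefficients of a multiplicative model lie in `A`. -/
theorem IsMultiplicativeModel.mem (A₀ : Subring K := A.toSubring) (h : A₀ = A.toSubring := by rfl) :
    W.a₁ ∈ A₀ ∧ W.a₂ ∈ A₀ ∧ W.a₃ ∈ A₀ ∧ W.a₄ ∈ A₀ ∧ W.a₆ ∈ A₀ := by
  subst h
  exact ⟨(A.valuation_le_one_iff _).mp hW.a₁_mem, (A.valuation_le_one_iff _).mp hW.a₂_mem,
    (A.valuation_le_one_iff _).mp hW.a₃_mem, (A.valuation_le_one_iff _).mp hW.a₄_mem,
    (A.valuation_le_one_iff _).mp hW.a₆_mem⟩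

/-- The node has integral coordinates. -/
theorem IsMultiplicativeModel.val_node : v (nodeX W) ≤ 1 ∧ v (nodeY W) ≤ 1 := by
  obtain ⟨h1, h2, h3, h4, h6⟩ := hW.mem
  have hn : ∀ n : ℕ, (n : K) ∈ A.toSubring := fun n => natCast_mem A.toSubring n
  have hb2 : W.b₂ ∈ A.toSubring := add_mem (pow_mem h1 2) (mul_mem (hn 4) h2)
  have hb4 : W.b₄ ∈ A.toSubring := add_mem (mul_mem (hn 2) h4) (mul_mem h1 h3)
  have hb6 : W.b₆ ∈ A.toSubring := add_mem (pow_mem h3 2) (mul_mem (hn 4) h6)
  constructor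
  · rw [nodeX, map_div₀, hW.c₄_unit, div_one, ValuationSubring.valuation_le_one_iff]
    exact sub_mem (mul_mem (hn 18) hb6) (mul_mem hb2 hb4)
  · rw [nodeY, map_div₀, hW.c₄_unit, div_one, ValuationSubring.valuation_le_one_iff]
    exact add_mem (sub_mem (add_mem (sub_mem (mul_mem (mul_mem (hn 3) h1) (pow_mem h3 2))
      (mul_mem (mul_mem (hn 36) h1) h6)) (mul_mem (mul_mem h1 h4) hb2))
      (mul_mem (mul_mem (mul_mem (hn 2) h2) h3) hb2)) (mul_mem (mul_mem (hn 24) h3) h4)

/-- The substitution `x = X + nodeX`, `y = Y + nodeY` moves the node to the origin. -/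
theorem IsMultiplicativeModel.translate_node :
    HasOriginNode A ((VariableChange.mk 1 (nodeX W) 0 (nodeY W) : VariableChange K) • W) := by
  obtain ⟨h1, h2, h3, h4, h6⟩ := hW.mem
  obtain ⟨hx₀, hy₀⟩ := hW.val_node
  have hn : ∀ n : ℕ, v (n : K) ≤ 1 := fun n => (A.valuation_le_one_iff _).mpr (natCast_mem A n)
  have hc0 : W.c₄ ≠ 0 := (Valuation.ne_zero_iff A.valuation).mp (by simp [hW.c₄_unit])
  set x₀ := nodeX W with hx₀def
  set y₀ := nodeY W with hy₀def
  have hx₀c : x₀ * W.c₄ = 18 * W.b₆ - W.b₂ * W.b₄ := div_mul_cancel₀ _ hc0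
  have hy₀c : y₀ * W.c₄ = 3 * W.a₁ * W.a₃ ^ 2 - 36 * W.a₁ * W.a₆ + W.a₁ * W.a₄ * W.b₂
      - 2 * W.a₂ * W.a₃ * W.b₂ + 24 * W.a₃ * W.a₄ := div_mul_cancel₀ _ hc0
  set W₁ : WeierstrassCurve K := VariableChange.mk 1 x₀ 0 y₀ • W with hW₁
  have ha₃ : W₁.a₃ = 0 := by
    refine mul_right_cancel₀ hc0 ?_
    simp only [hW₁, variableChange_def, inv_one, Units.val_one, one_pow, one_mul, zero_mul]
    linear_combination (norm := (simp only [WeierstrassCurve.c₄, WeierstrassCurve.b₂,
      WeierstrassCurve.b₄, WeierstrassCurve.b₆]; ring1)) W.a₁ * hx₀c + 2 * hy₀c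
  have ha₄c : W₁.a₄ * W.c₄ ^ 2 = -36 * W.Δ := by
    simp only [hW₁, variableChange_def, inv_one, Units.val_one, one_pow, one_mul, zero_mul]
    linear_combination (norm := (simp only [WeierstrassCurve.c₄, WeierstrassCurve.b₂,
      WeierstrassCurve.b₄, WeierstrassCurve.b₆, WeierstrassCurve.Δ, WeierstrassCurve.b₈]; ring1))
      (2 * W.a₂ * W.c₄ + 3 * (x₀ * W.c₄) + 3 * (18 * W.b₆ - W.b₂ * W.b₄)) * hx₀c
        - W.a₁ * W.c₄ * hy₀c
  have ha₄ : v W₁.a₄ < 1 := by
    have := congrArg A.valuation ha₄c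
    rw [map_mul, map_pow, hW.c₄_unit, one_pow, mul_one, map_mul, Valuation.map_neg] at this
    rw [this]
    exact mul_lt_one_of_nonneg_of_lt_one_right (hn 36) zero_le hW.Δ_lt
  have hb₂ : v W₁.b₂ = 1 := by
    have hsmall : v (48 * W₁.a₄) < 1 := by
      rw [map_mul]; exact mul_lt_one_of_nonneg_of_lt_one_right (hn 48) zero_le ha₄
    have hsq : W₁.b₂ ^ 2 = W.c₄ + 48 * W₁.a₄ := by
      rw [show W.c₄ = W₁.c₄ by simp [hW₁, variableChange_c₄]]
      simp only [WeierstrassCurve.c₄, WeierstrassCurve.b₄, ha₃]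
      ring
    have hsq' : v W₁.b₂ ^ 2 = 1 := by
      rw [← map_pow, hsq, Valuation.map_add_eq_of_lt_left _ (by rwa [hW.c₄_unit]), hW.c₄_unit]
    exact (pow_eq_one_iff.mp hsq').resolve_right two_ne_zero
  refine ⟨?_, ?_, ha₃, ha₄, val_a₆_lt ha₃ ha₄ ?_ hb₂ ?_ ?_, hb₂⟩
  · simpa [hW₁, variableChange_def] using hW.a₁_mem
  · rw [show W₁.a₂ = W.a₂ + 3 * x₀ by simp [hW₁, variableChange_def]]
    refine (Valuation.map_add _ _ _).trans (max_le hW.a₂_mem ?_)
    rw [map_mul]
    exact mul_le_one' (hn 3) hx₀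
  · simp only [hW₁, variableChange_def, inv_one, Units.val_one, one_pow, one_mul]
    rw [ValuationSubring.valuation_le_one_iff]
    have hx := (A.valuation_le_one_iff _).mp hx₀
    have hy := (A.valuation_le_one_iff _).mp hy₀
    exact sub_mem (sub_mem (sub_mem (add_mem (add_mem (add_mem h6 (mul_mem hx h4))
      (mul_mem (pow_mem hx 2) h2)) (pow_mem hx 3)) (mul_mem hy h3)) (pow_mem hy 2))
      (mul_mem (mul_mem hx hy) h1)
  · simpa [hW₁, variableChange_Δ] using hW.Δ_lt
  · simp only [hW₁, variableChange_b₂, variableChange_b₄, variableChange_b₆, inv_one,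
      Units.val_one, one_pow, one_mul]
    simp only [WeierstrassCurve.c₄] at hx₀c
    linear_combination -hx₀c

/-- **Normal form.** A multiplicative model is `y (y + a x) = x³ + b` with `|b| = |Δ|` after a
change of variables centred at the node. -/
theorem IsMultiplicativeModel.exists_normalForm [IsAlgClosed K] :
    ∃ (C : VariableChange K) (a b : K), C.u = 1 ∧ IsNodal A a b ∧ C • W = nodalCurve a b ∧
      v (C.r - nodeX W) < 1 ∧ v C.s ≤ 1 ∧ v (C.t - nodeY W) < 1 ∧ v b = v W.Δ := by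
  have hn : ∀ n : ℕ, v (n : K) ≤ 1 := fun n => (A.valuation_le_one_iff _).mpr (natCast_mem A n)
  set x₀ := nodeX W
  set y₀ := nodeY W
  -- move the node to the origin, remove `a₂`, remove `a₄`, remove the new `a₂`
  have h₁ := hW.translate_node
  set W₁ : WeierstrassCurve K := VariableChange.mk 1 x₀ 0 y₀ • W with hW₁
  obtain ⟨s, hsle, hu, hW₂⟩ := h₁.exists_shear
  obtain ⟨r, t, b, hrlt, htlt, hblt, hW₃⟩ := exists_translation hu h₁.a₄_lt h₁.a₆_lt
  obtain ⟨s', hs', hs'lt⟩ := exists_small_root hu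
    (q := 3 * r) (by rw [map_mul]; exact mul_lt_one_of_nonneg_of_lt_one_right (hn 3) zero_le hrlt)
  set a := W₁.a₁ + 2 * s + 2 * s' with ha
  have hCW : (VariableChange.mk 1 (x₀ + r) (s + s') (y₀ + t + r * s) : VariableChange K) • W =
      nodalCurve a b := by
    have hmul : (VariableChange.mk 1 (x₀ + r) (s + s') (y₀ + t + r * s) : VariableChange K) =
        VariableChange.mk 1 0 s' 0 * VariableChange.mk 1 r 0 t * VariableChange.mk 1 0 s 0 *
          VariableChange.mk 1 x₀ 0 y₀ := by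
      simp only [VariableChange.mul_def, Units.val_one, one_mul, mul_one, one_pow]
      ext <;> simp <;> ring
    rw [hmul, mul_smul, mul_smul, mul_smul, ← hW₁, hW₂, hW₃, shear_smul hs']
    rfl
  have hva : v a = 1 := by
    rw [ha, Valuation.map_add_eq_of_lt_left _ ?_, hu]
    rw [hu, map_mul]
    exact mul_lt_one_of_nonneg_of_lt_one_right (hn 2) zero_le hs'lt
  have hΔ : (nodalCurve a b).Δ = W.Δ := change_Δ (W := W) (W' := nodalCurve a b) rfl hCW
  have hN : IsNodal A a b :=
    ⟨hva, hblt, fun h0 => hW.Δ_ne_zero (by rw [← hΔ, nodalCurve_Δ, h0, zero_mul, neg_zero])⟩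
  refine ⟨_, a, b, rfl, hN, hCW, ?_, ?_, ?_, by rw [← hΔ, hN.val_Δ]⟩
  · simp only [add_sub_cancel_left]; exact hrlt
  · exact (Valuation.map_add _ _ _).trans (max_le hsle hs'lt.le)
  · rw [show y₀ + t + r * s - y₀ = t + r * s by ring]
    refine Valuation.map_add_lt _ htlt ?_
    rw [map_mul]
    exact mul_lt_one_of_nonneg_of_lt_one_left zero_le hrlt hsle

end Normal

end Fermat.Agent.Multiplicative
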